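import Mathlib
import Fermat.Prelude.Def_FLTPrelim_Ramification
import Fermat.Agent.Lib.Frobenius

/-!
# S13, block (G): the Minkowski bridge

An open normal subgroup `J` of `Gal(ℚ̄/ℚ)` which contains, for every prime `q`, the inertia
subgroup of at least one valuation subring of `ℚ̄` over `q`, is the whole group.
-/

set_option autoImplicit false

namespace Fermat.Agent.S13.Minkowski

open scoped Pointwise
open Fermat.Agent.Lib.Frobenius

local notation "Qbar" => AlgebraicClosure ℚ
local notation "GQ" => (AlgebraicClosure ℚ ≃ₐ[ℚ] AlgebraicClosure ℚ)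

/-- An automorphism which is congruent to the identity on all algebraic integers, modulo the
maximal ideal of `A`, belongs to the inertia subgroup of `A`. -/
theorem mem_inertiaSubgroupIn_of (A : ValuationSubring Qbar) (σ : GQ)
    (hσ : ∀ x : Qbar, IsIntegral ℤ x → σ x - x ∈ A.nonunits) :
    σ ∈ A.inertiaSubgroupIn ℚ := by
  classical
  set v := A.valuation with hv
  have hfrac := exists_integral_fraction A
  have hle : ∀ x, IsIntegral ℤ x → v x ≤ 1 := fun x hx =>
    (A.valuation_le_one_iff x).2 (mem_of_isIntegral_int A hx)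
  have hσ' : ∀ x, IsIntegral ℤ x → v (σ x - x) < 1 := fun x hx =>
    A.mem_nonunits_iff.1 (hσ x hx)
  have hσint : ∀ x, IsIntegral ℤ x → IsIntegral ℤ (σ x) := fun x hx =>
    hx.map (σ : Qbar →ₐ[ℚ] Qbar).toRingHom.toIntAlgHom
  have hσsint : ∀ x, IsIntegral ℤ x → IsIntegral ℤ (σ.symm x) := fun x hx =>
    hx.map (σ.symm : Qbar →ₐ[ℚ] Qbar).toRingHom.toIntAlgHom
  have hσs' : ∀ x, IsIntegral ℤ x → v (σ.symm x - x) < 1 := by
    intro x hx
    have h := hσ' _ (hσsint x hx)
    rw [AlgEquiv.apply_symm_apply] at h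
    rwa [← neg_sub, Valuation.map_neg]
  have one_of : ∀ b, IsIntegral ℤ b → b ∉ A.nonunits → v b = 1 := by
    intro b hb hbn
    rw [A.mem_nonunits_iff, not_lt] at hbn
    exact le_antisymm (hle b hb) hbn
  have one_gen : ∀ b c : Qbar, v b = 1 → v (c - b) < 1 → v c = 1 := by
    intro b c hb hcb
    have : c = b + (c - b) := by ring
    rw [this, Valuation.map_add_eq_of_lt_left _ (by rw [hb]; exact hcb), hb]
  have hmap : ∀ x ∈ A, σ x ∈ A := by
    intro x hx
    obtain ⟨b, c, hb, hc, hbn, hxbc⟩ := hfrac x hx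
    have h1 : v (σ b) = 1 := one_gen b _ (one_of b hb hbn) (hσ' b hb)
    have h2 : σ x * σ b = σ c := by rw [← map_mul, hxbc]
    rw [← A.valuation_le_one_iff]
    have h3 : v (σ x) = v (σ c) := by rw [← h2, map_mul, h1, mul_one]
    show v (σ x) ≤ 1
    rw [h3]
    exact hle _ (hσint c hc)
  have hmaps : ∀ x ∈ A, σ.symm x ∈ A := by
    intro x hx
    obtain ⟨b, c, hb, hc, hbn, hxbc⟩ := hfrac x hx
    have h1 : v (σ.symm b) = 1 := one_gen b _ (one_of b hb hbn) (hσs' b hb)
    have h2 : σ.symm x * σ.symm b = σ.symm c := by rw [← map_mul, hxbc]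
    rw [← A.valuation_le_one_iff]
    have h3 : v (σ.symm x) = v (σ.symm c) := by rw [← h2, map_mul, h1, mul_one]
    show v (σ.symm x) ≤ 1
    rw [h3]
    exact hle _ (hσsint c hc)
  have hdec : σ ∈ A.decompositionSubgroup ℚ := by
    rw [MulAction.mem_stabilizer_iff]
    ext x
    rw [ValuationSubring.mem_pointwise_smul_iff_inv_smul_mem]
    constructor
    · intro h
      have := hmap _ h
      simpa using this
    · intro h
      exact hmaps x h
  refine ⟨⟨σ, hdec⟩, ?_, rfl⟩
  show MulSemiringAction.toRingAut (A.decompositionSubgroup ℚ)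
      (IsLocalRing.ResidueField A) ⟨σ, hdec⟩ = 1
  ext x
  obtain ⟨a, rfl⟩ := IsLocalRing.residue_surjective x
  show (⟨σ, hdec⟩ : A.decompositionSubgroup ℚ) • IsLocalRing.residue A a = IsLocalRing.residue A a
  rw [← IsLocalRing.ResidueField.residue_smul, ← sub_eq_zero, ← map_sub,
    IsLocalRing.residue_eq_zero_iff, A.valuation_lt_one_iff]
  obtain ⟨b, c, hb, hc, hbn, hxbc⟩ := hfrac a a.2
  have h1 : v (σ b) = 1 := one_gen b _ (one_of b hb hbn) (hσ' b hb)
  have hcoe : (((⟨σ, hdec⟩ : A.decompositionSubgroup ℚ) • a - a : A) : Qbar)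
      = σ (a : Qbar) - (a : Qbar) := rfl
  rw [hcoe]
  have h2 : (σ (a : Qbar) - (a : Qbar)) * σ b
      = (σ c - c) - (a : Qbar) * (σ b - b) := by
    rw [← hxbc, map_mul]; ring
  have h3 : v (σ (a : Qbar) - (a : Qbar))
      = v ((σ c - c) - (a : Qbar) * (σ b - b)) := by
    rw [← h2, map_mul, h1, mul_one]
  show v _ < 1
  rw [h3]
  refine lt_of_le_of_lt (v.map_sub _ _) (max_lt (hσ' c hc) ?_)
  rw [map_mul]
  have h4 : v (a : Qbar) ≤ 1 := A.valuation_le_one a
  calc v (a : Qbar) * v (σ b - b) ≤ 1 * v (σ b - b) :=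
        mul_le_mul_left h4 _
    _ = v (σ b - b) := one_mul _
    _ < 1 := hσ' b hb

end Fermat.Agent.S13.Minkowski
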