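import Mathlib
import Fermat.Prelude.Def_FLTPrelim_Ramification
import Fermat.Agent.Lib.Frobenius
import Fermat.Agent.S13.Minkowski

/-!
# S13, block (G): lifting to the inertia subgroup

If `J` is a closed normal subgroup of `Gal(ℚ̄/ℚ)` and `γ` is congruent to the identity, modulo the
maximal ideal of `A`, on the algebraic integers fixed by `J`, then some `j * γ` with `j ∈ J`
belongs to the inertia subgroup of `A`.
-/

set_option autoImplicit false
set_option linter.style.haveILetI false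

namespace Fermat.Agent.S13.Minkowski

open scoped Pointwise
open Fermat.Agent.Lib.Frobenius

local notation "Qbar" => AlgebraicClosure ℚ
local notation "GQ" => (AlgebraicClosure ℚ ≃ₐ[ℚ] AlgebraicClosure ℚ)

attribute [local instance] zbarAction

/-- The inclusion of the algebraic integers in a valuation subring. -/
noncomputable def zbarToA (A : ValuationSubring Qbar) : Zbar →+* A where
  toFun x := ⟨x.1, mem_valuationSubring_of_isIntegral A x.2⟩
  map_one' := rfl
  map_mul' _ _ := rfl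
  map_zero' := rfl
  map_add' _ _ := rfl

/-- The prime of the ring of all algebraic integers cut out by `A`. -/
noncomputable def primeOf (A : ValuationSubring Qbar) : Ideal Zbar :=
  (IsLocalRing.maximalIdeal A).comap (zbarToA A)

instance (A : ValuationSubring Qbar) : (primeOf A).IsPrime := Ideal.comap_isPrime _ _

lemma mem_primeOf (A : ValuationSubring Qbar) (x : Zbar) :
    x ∈ primeOf A ↔ (x : Qbar) ∈ A.nonunits := by
  rw [ValuationSubring.mem_nonunits_iff_exists_mem_maximalIdeal]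
  constructor
  · intro h
    exact ⟨mem_valuationSubring_of_isIntegral A x.2, h⟩
  · rintro ⟨_, h⟩
    exact h

theorem exists_mul_mem_inertia (J : Subgroup GQ) [J.Normal] (hJ : IsClosed (J : Set GQ))
    (A : ValuationSubring Qbar) (γ : GQ)
    (hγ : ∀ x : Qbar, IsIntegral ℤ x → (∀ j ∈ J, j x = x) → γ x - x ∈ A.nonunits) :
    ∃ j ∈ J, j * γ ∈ A.inertiaSubgroupIn ℚ := by
  classical
  haveI := zbar_smulCommClass
  haveI := zbar_isInvariant
  haveI := isGalois_rat
  haveI := isIntegral_rat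
  letI : TopologicalSpace Zbar := ⊥
  haveI : DiscreteTopology Zbar := ⟨rfl⟩
  haveI : ContinuousSMul GQ Zbar := by
    rw [continuousSMul_iff_stabilizer_isOpen]
    intro x
    convert stabilizer_isOpen_of_isIntegral (K := ℚ) (L := Qbar) x.1 using 1
    ext σ
    simp only [SetLike.mem_coe, MulAction.mem_stabilizer_iff]
    constructor
    · intro h
      exact congrArg Subtype.val h
    · intro h
      exact Subtype.ext h
  haveI : CompactSpace J := isCompact_iff_compactSpace.mp hJ.isCompact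
  set Q := primeOf A with hQ
  let O := FixedPoints.subalgebra ℤ Zbar J
  haveI : Algebra.IsInvariant O Zbar J := ⟨fun x h ↦ ⟨⟨x, h⟩, rfl⟩⟩
  haveI : SMulCommClass J O Zbar := ⟨fun j o z ↦ by
    show j • ((o : Zbar) * z) = (o : Zbar) * j • z
    rw [smul_mul', o.2 j]⟩
  have key : ∀ x : Zbar, x ∈ O → γ • x - x ∈ Q := by
    intro x hx
    rw [mem_primeOf]
    exact hγ x.1 x.2 (fun j hj => congrArg Subtype.val (hx ⟨j, hj⟩))
  have hinvO : ∀ x : Zbar, x ∈ O → γ⁻¹ • x ∈ O := by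
    intro x hx j
    have h1 : γ * (j : GQ) * γ⁻¹ ∈ J := Subgroup.Normal.conj_mem inferInstance _ j.2 γ
    have h2 : (γ * (j : GQ) * γ⁻¹) • x = x := hx ⟨_, h1⟩
    show (j : GQ) • γ⁻¹ • x = γ⁻¹ • x
    rw [eq_inv_smul_iff, ← mul_smul, ← mul_smul]
    exact h2
  have hunder : (γ • Q).under O = Q.under O := by
    ext x
    simp only [Ideal.under_def, Ideal.mem_comap]
    rw [Ideal.mem_pointwise_smul_iff_inv_smul_mem]
    have h := key _ (hinvO x.1 x.2)
    rw [smul_inv_smul] at h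
    constructor
    · intro h'
      have := Q.add_mem h h'
      simpa using this
    · intro h'
      have := Q.sub_mem h' h
      simpa using this
  obtain ⟨g, hg⟩ := Algebra.IsInvariant.exists_smul_of_under_eq_of_profinite (A := O) (G := J)
    (γ • Q) Q hunder
  have hO : ∀ x : Zbar, x ∈ O → γ • x ∈ O := by
    intro x hx j
    have h1 : γ⁻¹ * (j : GQ) * γ⁻¹⁻¹ ∈ J := Subgroup.Normal.conj_mem inferInstance _ j.2 γ⁻¹
    have h2 : (γ⁻¹ * (j : GQ) * γ⁻¹⁻¹) • x = x := hx ⟨_, h1⟩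
    show (j : GQ) • γ • x = γ • x
    rw [inv_inv, mul_smul, mul_smul, inv_smul_eq_iff] at h2
    exact h2
  set δ : GQ := (g : GQ) * γ with hδ
  have hδQ : δ • Q = Q := by
    rw [hδ, mul_smul]
    exact hg.symm
  have keyδ : ∀ x : Zbar, x ∈ O → δ • x - x ∈ Q := by
    intro x hx
    have : δ • x = γ • x := by
      rw [hδ, mul_smul]
      exact hO x hx g
    rw [this]
    exact key x hx
  set P := Q.under O with hP
  let φ₀ : (Zbar ⧸ Q) ≃+* (Zbar ⧸ Q) :=
    Ideal.quotientEquiv Q Q (MulSemiringAction.toRingEquiv GQ Zbar δ) hδQ.symm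
  let φ : (Zbar ⧸ Q) ≃ₐ[O ⧸ P] (Zbar ⧸ Q) := AlgEquiv.ofRingEquiv (f := φ₀) (by
    intro x
    obtain ⟨o, rfl⟩ := Ideal.Quotient.mk_surjective x
    show Ideal.Quotient.mk Q (δ • (o : Zbar)) = Ideal.Quotient.mk Q (o : Zbar)
    rw [Ideal.Quotient.eq]
    exact keyδ o o.2)
  obtain ⟨j₂, hj₂⟩ := Ideal.Quotient.stabilizerHom_surjective_of_profinite (G := J) P Q φ
  refine ⟨(j₂ : J)⁻¹ * g, J.mul_mem (J.inv_mem (j₂ : J).2) g.2, ?_⟩
  apply mem_inertiaSubgroupIn_of
  intro x hx
  have h1 : Ideal.Quotient.mk Q ((j₂ : J) • (⟨x, hx⟩ : Zbar)) = Ideal.Quotient.mk Q (δ • ⟨x, hx⟩) :=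
    congrArg (fun f => f (Ideal.Quotient.mk Q ⟨x, hx⟩)) hj₂
  rw [Ideal.Quotient.eq] at h1
  have hj₂Q : ((j₂ : J) : GQ) • Q = Q := j₂.2
  have h2 : (((j₂ : J) : GQ)) • (⟨x, hx⟩ : Zbar) - δ • ⟨x, hx⟩ ∈ ((j₂ : J) : GQ) • Q := by
    rw [hj₂Q]; exact h1
  rw [Ideal.mem_pointwise_smul_iff_inv_smul_mem, smul_sub, inv_smul_smul, ← mul_smul,
    mem_primeOf] at h2
  have h3 := (A.nonunits).neg_mem h2
  have h4 : (((((j₂ : J)⁻¹ : J) : GQ) * (g : GQ) * γ) x - x : Qbar)
      = -(((⟨x, hx⟩ : Zbar) - ((((j₂ : J) : GQ))⁻¹ * δ) • (⟨x, hx⟩ : Zbar) : Zbar) : Qbar) := by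
    rw [hδ, ← mul_assoc]
    show _ = -(x - (((((j₂ : J) : GQ))⁻¹ * (g : GQ) * γ) x))
    rw [neg_sub]
    rfl
  rw [h4]
  exact h3

end Fermat.Agent.S13.Minkowski
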