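import Fermat.Agent.S13.Ladder

/-!
# S13-T3: consequences of the ladder polynomials

existence of `n`-torsion, `#E[n] ≤ 2 n^2 - 1`, integrality of torsion points.
-/

set_option autoImplicit false

namespace Fermat.Agent.S13

open Polynomial

variable {K : Type*} [Field K] {Γ₀ : Type*} [LinearOrderedCommGroupWithZero Γ₀]
  {a₁ a₂ a₄ : K} {G : Type*} [AddCommGroup G]

namespace Model

theorem ladG_ne_zero [CharZero K] (b₂ b₄ : K) {n : ℕ} (hn : 0 < n) : ladG b₂ b₄ n ≠ 0 := by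
  intro h
  have h1 := ladG_coeff b₂ b₄ n hn
  rw [h, coeff_zero] at h1
  have : (n : K) ≠ 0 := Nat.cast_ne_zero.2 hn.ne'
  exact pow_ne_zero 2 this h1.symm

theorem exists_torsion [IsAlgClosed K] [CharZero K] (M : Model K a₁ a₂ a₄ G) (h₄0 : a₄ ≠ 0)
    {n : ℕ} (hn : 2 ≤ n) : ∃ P : G, P ≠ 0 ∧ n • P = 0 := by
  have hn0 : 0 < n := by omega
  set g := ladG (a₁ ^ 2 + 4 * a₂) a₄ n with hg
  have hc : g.coeff (n ^ 2 - 1) ≠ 0 := by
    rw [hg, ladG_coeff _ _ n hn0]
    exact pow_ne_zero 2 (Nat.cast_ne_zero.2 hn0.ne')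
  have hd : 0 < g.natDegree := by
    have h1 : n ^ 2 - 1 ≤ g.natDegree := le_natDegree_of_ne_zero hc
    have h2 : 4 ≤ n ^ 2 := by nlinarith
    omega
  have hdeg : g.degree ≠ 0 := by
    intro h
    have h3 : g.natDegree = 0 := natDegree_eq_of_degree_eq_some h
    omega
  obtain ⟨r, hr⟩ := IsAlgClosed.exists_root g hdeg
  obtain ⟨s, hs⟩ := IsAlgClosed.exists_pow_nat_eq
    ((a₁ * r) ^ 2 + 4 * (r ^ 3 + a₂ * r ^ 2 + a₄ * r)) (n := 2) (by norm_num)
  have h2 : (2 : K) ≠ 0 := two_ne_zero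
  obtain ⟨P, hP, hX, -⟩ := M.exists_point r ((s - a₁ * r) / 2) (by
    field_simp
    linear_combination hs)
  refine ⟨P, hP, ?_⟩
  rw [M.nsmul_eq_zero_iff h₄0 hP, hX]
  exact hr

theorem finite_torsion [CharZero K] (M : Model K a₁ a₂ a₄ G) (h₄0 : a₄ ≠ 0) {n : ℕ}
    (hn : 0 < n) : {P : G | n • P = 0}.Finite ∧ {P : G | n • P = 0}.ncard ≤ 2 * n ^ 2 - 1 := by
  classical
  set g := ladG (a₁ ^ 2 + 4 * a₂) a₄ n with hg
  have hg0 : g ≠ 0 := ladG_ne_zero _ _ hn
  set rts : Finset K := g.roots.toFinset with hrts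
  have hcard : rts.card ≤ n ^ 2 - 1 :=
    (Multiset.toFinset_card_le _).trans ((card_roots' g).trans (ladG_natDegree_le _ _ n))
  let f : K → G := fun r => if h : ∃ P : G, P ≠ 0 ∧ M.X P = r then h.choose else 0
  set S : Finset G := insert 0 (rts.image f ∪ rts.image (fun r => -f r)) with hS
  have hsub : {P : G | n • P = 0} ⊆ (S : Set G) := by
    intro P hP
    change n • P = 0 at hP
    by_cases hP0 : P = 0
    · simp [hS, hP0]
    have hroot : M.X P ∈ rts := by
      rw [hrts, Multiset.mem_toFinset, mem_roots hg0]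
      exact (M.nsmul_eq_zero_iff h₄0 hP0 n).1 hP
    have hex : ∃ Q : G, Q ≠ 0 ∧ M.X Q = M.X P := ⟨P, hP0, rfl⟩
    have hf : f (M.X P) = hex.choose := dif_pos hex
    obtain ⟨hQ0, hQX⟩ := hex.choose_spec
    rw [← hf] at hQ0 hQX
    rcases M.eq_or_eq_neg_of_X_eq hP0 hQ0 hQX.symm with h | h
    · simp only [hS, Finset.coe_insert, Finset.coe_union, Finset.coe_image]
      exact Or.inr (Or.inl ⟨M.X P, hroot, h.symm⟩)
    · simp only [hS, Finset.coe_insert, Finset.coe_union, Finset.coe_image]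
      exact Or.inr (Or.inr ⟨M.X P, hroot, h.symm⟩)
  refine ⟨S.finite_toSet.subset hsub, ?_⟩
  have h1 : {P : G | n • P = 0}.ncard ≤ S.card := by
    rw [← Set.ncard_coe_finset S]
    exact Set.ncard_le_ncard hsub S.finite_toSet
  have h2 : S.card ≤ (rts.card + rts.card) + 1 :=
    (Finset.card_insert_le _ _).trans (Nat.add_le_add_right
      ((Finset.card_union_le _ _).trans (Nat.add_le_add Finset.card_image_le
        Finset.card_image_le)) 1)
  have h3 : 1 ≤ n ^ 2 := Nat.one_le_pow _ _ hn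
  omega

theorem integral_of_torsion (v : Valuation K Γ₀) (M : Model K a₁ a₂ a₄ G) (h₄0 : a₄ ≠ 0)
    (h₁ : v a₁ ≤ 1) (h₂ : v a₂ ≤ 1) (h₄ : v a₄ ≤ 1) {n : ℕ} (hn : v (n : K) = 1) {P : G}
    (hP : P ≠ 0) (hnP : n • P = 0) : v (M.X P) ≤ 1 := by
  by_contra hcon
  rw [not_le] at hcon
  have hn0 : 0 < n := by
    rcases Nat.eq_zero_or_pos n with h | h
    · subst h
      simp at hn
    · exact h
  set x := M.X P with hx
  set g := ladG (a₁ ^ 2 + 4 * a₂) a₄ n with hg
  set d := n ^ 2 - 1 with hd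
  -- integrality of the coefficients
  have hb₂ : a₁ ^ 2 + 4 * a₂ ∈ v.integer := by
    have h1 : a₁ ∈ v.integer := h₁
    have h2 : a₂ ∈ v.integer := h₂
    have h4 : (4 : K) ∈ v.integer := by
      have : ((4 : ℕ) : K) ∈ v.integer := natCast_mem _ 4
      exact_mod_cast this
    exact add_mem (pow_mem h1 2) (mul_mem h4 h2)
  have hcoef : ∀ i, v (g.coeff i) ≤ 1 := by
    intro i
    have h := ladG_map v.integer.subtype (⟨_, hb₂⟩ : v.integer) (⟨a₄, h₄⟩ : v.integer) n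
    have h' : g = (ladG (⟨_, hb₂⟩ : v.integer) (⟨a₄, h₄⟩ : v.integer) n).map v.integer.subtype :=
      h.symm
    rw [h', coeff_map]
    exact ((ladG (⟨_, hb₂⟩ : v.integer) (⟨a₄, h₄⟩ : v.integer) n).coeff i).2
  have htop : g.coeff d = (n : K) ^ 2 := ladG_coeff _ _ n hn0
  have hdeg : g.natDegree < d + 1 := Nat.lt_succ_of_le (ladG_natDegree_le _ _ n)
  have hroot : g.eval x = 0 := (M.nsmul_eq_zero_iff h₄0 hP n).1 hnP
  rw [eval_eq_sum_range' hdeg, Finset.sum_range_succ] at hroot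
  have hx0 : v x ≠ 0 := (lt_trans zero_lt_one hcon).ne'
  have hlow : v (∑ i ∈ Finset.range d, g.coeff i * x ^ i) < v x ^ d := by
    refine v.map_sum_lt (pow_ne_zero d hx0) fun i hi => ?_
    rw [Finset.mem_range] at hi
    rw [map_mul, map_pow]
    calc v (g.coeff i) * v x ^ i ≤ 1 * v x ^ i := mul_le_mul_left (hcoef i) _
      _ = v x ^ i := one_mul _
      _ < v x ^ d := pow_lt_pow_right₀ hcon hi
  have htopv : v (g.coeff d * x ^ d) = v x ^ d := by
    rw [htop, map_mul, map_pow, map_pow, hn, one_pow, one_mul]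
  have h5 : g.coeff d * x ^ d = -∑ i ∈ Finset.range d, g.coeff i * x ^ i := by
    linear_combination hroot
  rw [h5, Valuation.map_neg] at htopv
  exact absurd hlow (by rw [htopv]; exact lt_irrefl _)

/-- A point killed by `2` and by an odd number is zero. -/
theorem eq_zero_of_two_nsmul_of_odd_nsmul {P : G} {p : ℕ} (hp : Odd p) (h2 : 2 • P = 0)
    (hpP : p • P = 0) : P = 0 := by
  obtain ⟨k, rfl⟩ := hp
  rw [add_smul, mul_smul, one_smul, smul_comm, h2, smul_zero, zero_add] at hpP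
  exact hpP

end Model

end Fermat.Agent.S13
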