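import Fermat.Agent.S13.FreyDefs
import Fermat.Agent.S13.Torsion

/-!
# S13-T12: the `p`-torsion of the Frey curve

`Vp P` is nontrivial, finite, of cardinality `< p ^ 3`, and its nonzero points have integral
`X`-coordinate at every place not above `p`.
-/

set_option autoImplicit false

open WeierstrassCurve WeierstrassCurve.Affine WeierstrassCurve.Affine.Point

namespace Fermat.Agent.S13

local notation "Qbar" => AlgebraicClosure ℚ

theorem cast_a₄Z_ne_zero (P : FreyPackage) : ((a₄Z P : ℤ) : Qbar) ≠ 0 :=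
  Int.cast_ne_zero.mpr (a₄Z_ne_zero P)

/-- `Vp P` is in bijection with the set of points killed by `p`. -/
noncomputable def vpEquiv (P : FreyPackage) : Vp P ≃ {Q : EPt P | P.p • Q = 0} where
  toFun x := ⟨x.1, nsmul_eq_zero_of_mem P x⟩
  invFun Q := ⟨Q.1, mem_Vp_of_nsmul P Q.2⟩
  left_inv _ := rfl
  right_inv _ := rfl

theorem frey_nontrivial (P : FreyPackage) : Nontrivial (Vp P) := by
  obtain ⟨Q, hQ, hpQ⟩ := (M0 P).exists_torsion (cast_a₄Z_ne_zero P)
    (n := P.p) (by have := P.hp5; omega)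
  refine ⟨⟨⟨Q, mem_Vp_of_nsmul P hpQ⟩, 0, ?_⟩⟩
  intro h
  exact hQ (congrArg Subtype.val h)

theorem frey_finite (P : FreyPackage) : Finite (Vp P) := by
  have h := ((M0 P).finite_torsion (cast_a₄Z_ne_zero P)
    (n := P.p) (by have := P.hp5; omega)).1
  have : Finite {Q : EPt P | P.p • Q = 0} := h.to_subtype
  exact Finite.of_equiv _ (vpEquiv P).symm

theorem frey_card_lt (P : FreyPackage) : Nat.card (Vp P) < P.p ^ 3 := by
  have h := ((M0 P).finite_torsion (cast_a₄Z_ne_zero P)
    (n := P.p) (by have := P.hp5; omega)).2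
  rw [Nat.card_congr (vpEquiv P), Nat.card_coe_set_eq]
  refine lt_of_le_of_lt h ?_
  have h5 := P.hp5
  have h1 : 2 * P.p ^ 2 < P.p ^ 3 := by nlinarith [sq_nonneg P.p, pow_pos (by omega : 0 < P.p) 2]
  omega

theorem frey_integral (P : FreyPackage) (A : ValuationSubring Qbar)
    (hp : A.valuation (P.p : Qbar) = 1) {Q : EPt P} (hQ : Q ≠ 0) (hpQ : P.p • Q = 0) :
    A.valuation ((M0 P).X Q) ≤ 1 :=
  (M0 P).integral_of_torsion A.valuation (cast_a₄Z_ne_zero P)
    (Fermat.Agent.S05.valuation_intCast_le_one A 1)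
    (Fermat.Agent.S05.valuation_intCast_le_one A _)
    (Fermat.Agent.S05.valuation_intCast_le_one A _) hp hQ hpQ

end Fermat.Agent.S13
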