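import Mathlib

/-!
# S13: linear algebra over `ZMod p` used in the final assembly
-/

set_option autoImplicit false

namespace Fermat.Agent.S13

variable {p : ℕ} [Fact p.Prime] {V : Type*} [AddCommGroup V] [Module (ZMod p) V]

/-- A finite `ZMod p`-space with fewer than `p ^ 3` elements has dimension at most `2`. -/
theorem finrank_le_two_of_card_lt [Finite V] (hcard : Nat.card V < p ^ 3) :
    Module.finrank (ZMod p) V ≤ 2 := by
  have h := Module.natCard_eq_pow_finrank (K := ZMod p) (V := V)
  rw [Nat.card_zmod] at h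
  rw [h] at hcard
  have := (Nat.pow_lt_pow_iff_right (Fact.out (p := p.Prime)).one_lt).mp hcard
  omega

/-- In a space of dimension at most `2`, a proper nonzero subspace is a line and together with
any vector outside of it spans everything. -/
theorem exists_line_data [Finite V] (hcard : Nat.card V < p ^ 3) (N : Submodule (ZMod p) V)
    (hbot : N ≠ ⊥) (htop : N ≠ ⊤) :
    ∃ e : V, e ≠ 0 ∧ e ∈ N ∧ (∀ y ∈ N, ∃ c : ZMod p, y = c • e) ∧
      ∀ x : V, x ∉ N → ∀ y : V, ∃ a b : ZMod p, y = a • e + b • x := by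
  have hV : Module.finrank (ZMod p) V ≤ 2 := finrank_le_two_of_card_lt hcard
  have hfin : Module.Finite (ZMod p) V := Module.Finite.of_finite
  have hlt : Module.finrank (ZMod p) N < Module.finrank (ZMod p) V :=
    Submodule.finrank_lt htop
  have hpos : 0 < Module.finrank (ZMod p) N := by
    rw [Module.finrank_pos_iff]
    exact Submodule.nontrivial_iff_ne_bot.mpr hbot
  have hN1 : Module.finrank (ZMod p) N = 1 := by omega
  have hV2 : Module.finrank (ZMod p) V = 2 := by omega
  obtain ⟨⟨e, heN⟩, he0, hspan⟩ := finrank_eq_one_iff'.mp hN1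
  have he0' : e ≠ 0 := fun h => he0 (Subtype.ext h)
  have hNe : ∀ y ∈ N, ∃ c : ZMod p, y = c • e := by
    intro y hy
    obtain ⟨c, hc⟩ := hspan ⟨y, hy⟩
    exact ⟨c, (congrArg Subtype.val hc).symm⟩
  refine ⟨e, he0', heN, hNe, ?_⟩
  intro x hx y
  have hNspan : N = Submodule.span (ZMod p) {e} := by
    apply le_antisymm
    · intro y hy
      obtain ⟨c, rfl⟩ := hNe y hy
      exact Submodule.smul_mem _ _ (Submodule.mem_span_singleton_self e)
    · rw [Submodule.span_singleton_le_iff_mem]; exact heN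
  have hlt2 : N < N ⊔ Submodule.span (ZMod p) {x} := by
    refine lt_of_le_of_ne le_sup_left ?_
    intro h
    apply hx
    rw [h]
    exact Submodule.mem_sup_right (Submodule.mem_span_singleton_self x)
  have h2 : Module.finrank (ZMod p) N <
      Module.finrank (ZMod p) (N ⊔ Submodule.span (ZMod p) {x} : Submodule (ZMod p) V) :=
    Submodule.finrank_lt_finrank_of_lt hlt2
  have htop2 : (N ⊔ Submodule.span (ZMod p) {x} : Submodule (ZMod p) V) = ⊤ := by
    apply Submodule.eq_top_of_finrank_eq
    have := Submodule.finrank_le (N ⊔ Submodule.span (ZMod p) {x} : Submodule (ZMod p) V)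
    omega
  have hy : y ∈ (N ⊔ Submodule.span (ZMod p) {x} : Submodule (ZMod p) V) := by
    rw [htop2]; trivial
  obtain ⟨n, hn, z, hz, rfl⟩ := Submodule.mem_sup.mp hy
  obtain ⟨a, rfl⟩ := hNe n hn
  obtain ⟨b, rfl⟩ := Submodule.mem_span_singleton.mp hz
  exact ⟨a, b, rfl⟩

/-- additive maps are `ZMod p`-linear -/
theorem map_zmod_smul (f : V →+ V) (c : ZMod p) (x : V) : f (c • x) = c • f x :=
  (AddMonoidHom.toZModLinearMap p f).map_smul c x

/-- A unipotent additive automorphism preserving a line `N` of a plane acts trivially on `N`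
and on the quotient. -/
theorem unipotent_line [Finite V] (hcard : Nat.card V < p ^ 3) (N : Submodule (ZMod p) V)
    (hbot : N ≠ ⊥) (htop : N ≠ ⊤) (f : V →+ V) (hfN : ∀ x ∈ N, f x ∈ N)
    (hf : ∀ x, f (f x - x) = f x - x) :
    (∀ x ∈ N, f x = x) ∧ ∀ x, f x - x ∈ N := by
  obtain ⟨e, he0, heN, hNe, hspan⟩ := exists_line_data hcard N hbot htop
  have hfe : f e = e := by
    obtain ⟨c, hc⟩ := hNe (f e) (hfN e heN)
    have h := hf e
    rw [hc, map_sub, map_zmod_smul, hc] at h
    have h2 : ((c - 1) * (c - 1)) • e = 0 := by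
      have : ((c - 1) * (c - 1)) • e = c • c • e - c • e - (c • e - e) := by
        simp only [sub_smul, mul_smul, one_smul, mul_sub, sub_mul, mul_one, one_mul]
      rw [this, h, sub_self]
    have h3 : (c - 1) * (c - 1) = 0 := (smul_eq_zero.mp h2).resolve_right he0
    have h4 : c = 1 := by
      have := mul_self_eq_zero.mp h3
      exact sub_eq_zero.mp this
    rw [hc, h4, one_smul]
  have hfN' : ∀ x ∈ N, f x = x := by
    intro x hx
    obtain ⟨c, rfl⟩ := hNe x hx
    rw [map_zmod_smul, hfe]
  refine ⟨hfN', ?_⟩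
  intro x
  by_cases hx : x ∈ N
  · rw [hfN' x hx, sub_self]; exact N.zero_mem
  obtain ⟨a, b, hab⟩ := hspan x hx (f x - x)
  have h := hf x
  have h1 : f (f x - x) - (f x - x) = b • (f x - x) := by
    have : f (f x - x) = a • e + b • f x := by
      rw [hab, map_add, map_zmod_smul, map_zmod_smul, hfe]
    rw [this]
    nth_rewrite 1 [hab]
    rw [smul_sub]
    abel
  rw [h, sub_self] at h1
  rcases smul_eq_zero.mp h1.symm with hb | hb
  · rw [hab, hb, zero_smul, add_zero]
    exact N.smul_mem a heN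
  · rw [hb]; exact N.zero_mem

/-- If a family of additive maps moves every vector by an element of a proper subgroup `V₁`, then
either all of them fix the line `N` pointwise or all of them act trivially on the quotient. -/
theorem fix_or_cofix [Finite V] (hcard : Nat.card V < p ^ 3) (N : Submodule (ZMod p) V)
    (hbot : N ≠ ⊥) (htop : N ≠ ⊤) (V₁ : AddSubgroup V) (hV₁ : ∃ x, x ∉ V₁)
    (S : Set (V →+ V)) (hSN : ∀ f ∈ S, ∀ x ∈ N, f x ∈ N) (hS : ∀ f ∈ S, ∀ x, f x - x ∈ V₁) :
    (∀ f ∈ S, ∀ x ∈ N, f x = x) ∨ (∀ f ∈ S, ∀ x, f x - x ∈ N) := by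
  obtain ⟨e, he0, heN, hNe, hspan⟩ := exists_line_data hcard N hbot htop
  have hsmul : ∀ (c : ZMod p) (x : V), x ∈ V₁ → c • x ∈ V₁ := by
    intro c x hx
    have : c • x = c.val • x := by
      conv_lhs => rw [← ZMod.natCast_zmod_val c]
      rw [Nat.cast_smul_eq_nsmul]
    rw [this]
    exact V₁.nsmul_mem hx _
  by_cases he : e ∈ V₁
  · right
    intro f hf x
    by_contra hcon
    -- `f x - x ∈ V₁ \ N`, so `V₁` contains `e` and a vector outside `N`, hence everything
    obtain ⟨y, hy⟩ := hV₁
    obtain ⟨a, b, rfl⟩ := hspan (f x - x) hcon y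
    exact hy (V₁.add_mem (hsmul a e he) (hsmul b _ (hS f hf x)))
  · left
    intro f hf x hx
    have h1 : f x - x ∈ N := N.sub_mem (hSN f hf x hx) hx
    obtain ⟨c, hc⟩ := hNe _ h1
    by_cases hc0 : c = 0
    · rw [hc0, zero_smul] at hc
      exact sub_eq_zero.mp hc
    · exfalso
      apply he
      have h2 : c • e ∈ V₁ := hc ▸ hS f hf x
      have := hsmul c⁻¹ _ h2
      rwa [smul_smul, inv_mul_cancel₀ hc0, one_smul] at this

end Fermat.Agent.S13
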