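import Fermat.Agent.S13.Model

/-!
# S13, task T10 (abstract part, owner: helper47)

A small piece of Newton polygon theory: an integer polynomial with leading coefficient `p`, all of
whose roots have valuation `> 1`, has all its roots of valuation `v(p)^(-1/D)`.
-/

set_option autoImplicit false

open Polynomial

namespace Fermat.Agent.S13

section

variable {K : Type*} [Field K] {Γ₀ : Type*} [LinearOrderedCommGroupWithZero Γ₀]
  (v : Valuation K Γ₀)

/-- The constant coefficient strictly dominates all the others. -/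
def ConstDom (f : K[X]) : Prop :=
  f.coeff 0 ≠ 0 ∧ ∀ i, 0 < i → v (f.coeff i) < v (f.coeff 0)

variable {v}

theorem ConstDom.le {f : K[X]} (hf : ConstDom v f) (i : ℕ) : v (f.coeff i) ≤ v (f.coeff 0) := by
  rcases Nat.eq_zero_or_pos i with rfl | hi
  · exact le_rfl
  · exact (hf.2 i hi).le

theorem constDom_C {c : K} (hc : c ≠ 0) : ConstDom v (C c) := by
  refine ⟨by simpa using hc, fun i hi => ?_⟩
  rw [coeff_C_of_ne_zero hi.ne', map_zero, coeff_C_zero]
  exact zero_lt_iff.mpr ((Valuation.ne_zero_iff v).mpr hc)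

theorem constDom_X_sub_C {r : K} (hr : 1 < v r) : ConstDom v (X - C r) := by
  have hr0 : r ≠ 0 := by
    rintro rfl
    simp at hr
  refine ⟨by simpa using hr0, fun i hi => ?_⟩
  have h0 : v ((X - C r : K[X]).coeff 0) = v r := by simp
  rw [h0]
  rcases Nat.lt_or_ge 1 i with h1 | h1
  · have : (X - C r : K[X]).coeff i = 0 := by
      rw [coeff_sub, coeff_X, coeff_C_of_ne_zero hi.ne', if_neg (by omega), sub_zero]
    rw [this, map_zero]
    exact lt_trans zero_lt_one hr
  · have hi1 : i = 1 := by omega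
    subst hi1
    simpa using hr

theorem ConstDom.mul {f g : K[X]} (hf : ConstDom v f) (hg : ConstDom v g) :
    ConstDom v (f * g) := by
  have h0 : (f * g).coeff 0 = f.coeff 0 * g.coeff 0 := mul_coeff_zero f g
  have hf0 : 0 < v (f.coeff 0) := zero_lt_iff.mpr ((Valuation.ne_zero_iff v).mpr hf.1)
  have hg0 : 0 < v (g.coeff 0) := zero_lt_iff.mpr ((Valuation.ne_zero_iff v).mpr hg.1)
  refine ⟨by rw [h0]; exact mul_ne_zero hf.1 hg.1, fun i hi => ?_⟩
  rw [h0, coeff_mul, map_mul]
  refine Valuation.map_sum_lt v (mul_pos hf0 hg0).ne' ?_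
  rintro ⟨a, b⟩ hab
  rw [Finset.HasAntidiagonal.mem_antidiagonal] at hab
  simp only at hab ⊢
  rw [map_mul]
  rcases Nat.eq_zero_or_pos a with rfl | ha
  · have hb : 0 < b := by omega
    exact mul_lt_mul_of_le_of_lt_of_nonneg_of_pos le_rfl (hg.2 b hb) zero_le hf0
  · exact mul_lt_mul_of_lt_of_le_of_nonneg_of_pos (hf.2 a ha) (hg.le b) zero_le hg0

theorem constDom_multiset_prod (s : Multiset K) (hs : ∀ r ∈ s, 1 < v r) :
    ConstDom v (s.map (fun a => X - C a)).prod := by
  induction s using Multiset.induction_on with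
  | empty =>
    simpa using constDom_C (v := v) (one_ne_zero : (1 : K) ≠ 0)
  | cons a s ih =>
    rw [Multiset.map_cons, Multiset.prod_cons]
    exact (constDom_X_sub_C (hs a (Multiset.mem_cons_self a s))).mul
      (ih fun r hr => hs r (Multiset.mem_cons_of_mem hr))

/-- (b) A nonzero polynomial over an algebraically closed field all of whose roots have
valuation `> 1` has a strictly dominant constant coefficient. -/
theorem constDom_of_roots [IsAlgClosed K] {f : K[X]} (hf : f ≠ 0)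
    (hroots : ∀ r : K, f.eval r = 0 → 1 < v r) : ConstDom v f := by
  rw [(IsAlgClosed.splits f).eq_prod_roots]
  refine (constDom_C (leadingCoeff_ne_zero.mpr hf)).mul (constDom_multiset_prod _ ?_)
  intro r hr
  exact hroots r ((mem_roots hf).mp hr)

/-- The abstract Newton polygon statement. -/
theorem val_root_pow_mul_eq_one [IsAlgClosed K] (H : ℤ[X]) (D p : ℕ) (hD : 0 < D)
    (hdeg : H.natDegree ≤ D) (hlead : H.coeff D = (p : ℤ)) (hp0 : (p : K) ≠ 0)
    (hint : ∀ n : ℤ, v (n : K) ≤ 1) (hunit : ∀ n : ℤ, ¬ (p : ℤ) ∣ n → v (n : K) = 1)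
    (hroots : ∀ r : K, (H.map (Int.castRingHom K)).eval r = 0 → 1 < v r) :
    ∀ x : K, (H.map (Int.castRingHom K)).eval x = 0 → v x ^ D * v (p : K) = 1 := by
  intro x hx
  set f : K[X] := H.map (Int.castRingHom K) with hfdef
  have hcoeff : ∀ i, f.coeff i = ((H.coeff i : ℤ) : K) := fun i => by
    rw [hfdef, coeff_map]; rfl
  have hfD : f.coeff D = (p : K) := by rw [hcoeff, hlead]; simp
  have hf0 : f ≠ 0 := by
    intro h
    rw [h, coeff_zero] at hfD
    exact hp0 hfD.symm
  have hdom : ConstDom v f := constDom_of_roots hf0 hroots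
  have hvp0 : 0 < v (p : K) := zero_lt_iff.mpr ((Valuation.ne_zero_iff v).mpr hp0)
  -- divisibility gives the bound by `v p`
  have hdvd : ∀ n : ℤ, (p : ℤ) ∣ n → v (n : K) ≤ v (p : K) := by
    rintro n ⟨m, rfl⟩
    have : v (((p : ℤ) * m : ℤ) : K) = v (p : K) * v (m : K) := by
      rw [← map_mul]; push_cast; rfl
    rw [this]
    exact mul_le_of_le_one_right' (hint m)
  -- (c)
  have h0 : v (f.coeff 0) = 1 := by
    rw [hcoeff]
    apply hunit
    intro hdiv
    have h1 := hdvd _ hdiv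
    have h2 := hdom.2 D hD
    rw [hfD, hcoeff] at h2
    exact absurd h1 (not_le.mpr h2)
  have hi : ∀ i, 0 < i → v (f.coeff i) ≤ v (p : K) := by
    intro i hi
    have h1 := hdom.2 i hi
    rw [h0, hcoeff] at h1
    rw [hcoeff]
    apply hdvd
    by_contra hnd
    exact absurd (hunit _ hnd) h1.ne
  -- (d)
  have hvx : 1 < v x := hroots x hx
  have hvx0 : 0 < v x := lt_trans zero_lt_one hvx
  obtain ⟨D', rfl⟩ : ∃ D', D = D' + 1 := ⟨D - 1, by omega⟩
  have hfdeg : f.natDegree < D' + 1 + 1 :=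
    lt_of_le_of_lt (natDegree_map_le) (Nat.lt_succ_of_le hdeg)
  have hsum := eval_eq_sum_range' hfdeg x
  rw [hx, Finset.sum_range_succ, Finset.sum_range_succ'] at hsum
  set A : K := ∑ i ∈ Finset.range D', f.coeff (i + 1) * x ^ (i + 1) with hA
  set B : K := f.coeff (D' + 1) * x ^ (D' + 1) with hB
  have hvB : v B = v (p : K) * v x ^ (D' + 1) := by rw [hB, hfD, map_mul, map_pow]
  have hvA : v A < v B := by
    rw [hvB]
    refine Valuation.map_sum_lt v (mul_pos hvp0 (pow_pos hvx0 _)).ne' ?_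
    intro i hiD
    rw [Finset.mem_range] at hiD
    rw [map_mul, map_pow]
    exact mul_lt_mul_of_le_of_lt_of_nonneg_of_pos (hi (i + 1) (Nat.succ_pos i))
      (pow_lt_pow_right₀ hvx (by omega)) zero_le hvp0
  have hAB : v (A + B) = v B := Valuation.map_add_eq_of_lt_right v hvA
  have hc0 : f.coeff 0 = -(A + B) := by
    have : A + f.coeff 0 * x ^ 0 + B = 0 := hsum.symm
    rw [pow_zero, mul_one] at this
    linear_combination this
  rw [hc0, Valuation.map_neg, hAB, hvB] at h0
  rw [mul_comm]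
  exact h0

end

/-- Over an algebraically closed field every `x` is the abscissa of a point. -/
theorem Model.exists_point_X {K : Type*} [Field K] [IsAlgClosed K] {a₁ a₂ a₄ : K} {G : Type*}
    [AddCommGroup G] (M : Model K a₁ a₂ a₄ G) (x : K) : ∃ P : G, P ≠ 0 ∧ M.X P = x := by
  obtain ⟨y, hy⟩ : ∃ y : K, y ^ 2 + a₁ * x * y = x ^ 3 + a₂ * x ^ 2 + a₄ * x := by
    let q : K[X] := Polynomial.X ^ 2 + C (a₁ * x) * Polynomial.X
      - C (x ^ 3 + a₂ * x ^ 2 + a₄ * x)
    have hq : q.degree ≠ 0 := by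
      have : q.degree = 2 := by
        have h1 : q = C 1 * Polynomial.X ^ 2 + C (a₁ * x) * Polynomial.X
            + C (-(x ^ 3 + a₂ * x ^ 2 + a₄ * x)) := by
          simp only [q, C_neg, C_1]; ring
        rw [h1]
        exact degree_quadratic one_ne_zero
      rw [this]; decide
    obtain ⟨y, hy⟩ := IsAlgClosed.exists_root q hq
    refine ⟨y, ?_⟩
    simp only [q, IsRoot.def, eval_sub, eval_add, eval_pow, eval_X, eval_mul, eval_C] at hy
    linear_combination hy
  obtain ⟨P, hP, hX, -⟩ := M.exists_point x y hy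
  exact ⟨P, hP, hX⟩

/-- Version of T10 with an abstract integer polynomial `H` cutting out the `p`-torsion. -/
theorem Model.val_X_pow_mul_eq_one_of_poly {K : Type*} [Field K] [IsAlgClosed K]
    {Γ₀ : Type*} [LinearOrderedCommGroupWithZero Γ₀] (v : Valuation K Γ₀) {G : Type*}
    [AddCommGroup G] {a₁ a₂ a₄ : K} (M : Model K a₁ a₂ a₄ G)
    (H : ℤ[X]) (D p : ℕ) (hD : 0 < D) (hdeg : H.natDegree ≤ D) (hlead : H.coeff D = (p : ℤ))
    (hp0 : (p : K) ≠ 0)
    (hH : ∀ P : G, P ≠ 0 → (p • P = 0 ↔ (H.map (Int.castRingHom K)).eval (M.X P) = 0))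
    (hint : ∀ n : ℤ, v (n : K) ≤ 1) (hunit : ∀ n : ℤ, ¬ (p : ℤ) ∣ n → v (n : K) = 1)
    (hall : ∀ P : G, P ≠ 0 → p • P = 0 → 1 < v (M.X P)) :
    ∀ P : G, P ≠ 0 → p • P = 0 → v (M.X P) ^ D * v (p : K) = 1 := by
  intro P hP hpP
  refine val_root_pow_mul_eq_one (v := v) H D p hD hdeg hlead hp0 hint hunit ?_ (M.X P)
    ((hH P hP).mp hpP)
  intro r hr
  obtain ⟨Q, hQ, rfl⟩ := M.exists_point_X r
  exact hall Q hQ ((hH Q hQ).mpr hr)

end Fermat.Agent.S13
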