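import Fermat.Agent.S13.Ladder
import Fermat.Agent.S13.NewtonPoly

/-!
# S13, task T10 (owner: helper47)

If all the `p`-torsion lies in the kernel of reduction then `v(x_P)^((p^2-1)/2) v(p) = 1`.
-/

set_option autoImplicit false

open Polynomial

namespace Fermat.Agent.S13

/-- T10, with the pointwise property of the ladder polynomials as an explicit hypothesis `hlad`
(it is `fun P hP => M.nsmul_eq_zero_iff h₄K hP _`). -/
theorem Model.val_X_pow_mul_eq_one_of_lad {K : Type*} [Field K] [IsAlgClosed K] [CharZero K]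
    {Γ₀ : Type*} [LinearOrderedCommGroupWithZero Γ₀] (v : Valuation K Γ₀) {G : Type*}
    [AddCommGroup G] (a₁ a₂ a₄ : ℤ) (M : Model K (a₁ : K) (a₂ : K) (a₄ : K) G)
    {k : ℕ} (hk : 0 < k)
    (hlad : ∀ P : G, P ≠ 0 → ((2 * k + 1) • P = 0 ↔
      (ladG ((a₁ : K) ^ 2 + 4 * (a₂ : K)) (a₄ : K) (2 * k + 1)).eval (M.X P) = 0))
    (hint : ∀ n : ℤ, v (n : K) ≤ 1)
    (hunit : ∀ n : ℤ, ¬ ((2 * k + 1 : ℕ) : ℤ) ∣ n → v (n : K) = 1)
    (hall : ∀ P : G, P ≠ 0 → (2 * k + 1) • P = 0 → 1 < v (M.X P)) :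
    ∀ P : G, P ≠ 0 → (2 * k + 1) • P = 0 →
      v (M.X P) ^ (2 * k ^ 2 + 2 * k) * v ((2 * k + 1 : ℕ) : K) = 1 := by
  have hmap : (ladH (a₁ ^ 2 + 4 * a₂) a₄ k).map (Int.castRingHom K)
      = ladH ((a₁ : K) ^ 2 + 4 * (a₂ : K)) (a₄ : K) k := by
    rw [ladH_map]; simp
  refine M.val_X_pow_mul_eq_one_of_poly v (ladH (a₁ ^ 2 + 4 * a₂) a₄ k) (2 * k ^ 2 + 2 * k)
    (2 * k + 1) (by positivity) (ladH_natDegree_le _ _ _) (ladH_coeff _ _ _)
    (Nat.cast_ne_zero.mpr (Nat.succ_ne_zero _)) ?_ hint hunit hall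
  intro P hP
  rw [hlad P hP, ladG_odd, hmap, eval_pow]
  exact pow_eq_zero_iff two_ne_zero

end Fermat.Agent.S13
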