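import Mathlib
import Fermat.Prelude.Def_FLTPrelim_Ramification
import Fermat.Agent.S05.Inertia

/-!
# S13-T18: Galois-fixed elements are rational; valuations of rationals in `Qbar`
(owner: helper270)
-/

set_option autoImplicit false

namespace Fermat.Agent.S13

local notation "Qbar" => AlgebraicClosure ℚ

theorem exists_rat_of_fixed (x : Qbar) (h : ∀ σ : Qbar ≃ₐ[ℚ] Qbar, σ x = x) :
    ∃ r : ℚ, algebraMap ℚ Qbar r = x := by
  have hcl : IsAlgClosure ℚ Qbar := by
    have h : (DivisionRing.toRatAlgebra : Algebra ℚ Qbar) =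
        AlgebraicClosure.instAlgebra ℚ := Subsingleton.elim _ _
    rw [h]
    infer_instance
  have : IsGalois ℚ Qbar := IsAlgClosure.isGalois ℚ Qbar
  exact (InfiniteGalois.mem_range_algebraMap_iff_fixed x).mpr h

section

variable (A : ValuationSubring Qbar) {ℓ : ℕ}

theorem valuation_prime_lt_one (hA : A.LiesOverPrime ℓ) : A.valuation (ℓ : Qbar) < 1 :=
  A.mem_nonunits_iff.mp hA

theorem valuation_prime_pos (hℓ : ℓ.Prime) : 0 < A.valuation (ℓ : Qbar) := by
  rw [zero_lt_iff, Valuation.ne_zero_iff]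
  exact_mod_cast hℓ.ne_zero

theorem valuation_int_eq_pow (hℓ : ℓ.Prime) (hA : A.LiesOverPrime ℓ) (a : ℤ) (ha : a ≠ 0) :
    ∃ s : ℕ, A.valuation ((a : ℤ) : Qbar) = A.valuation (ℓ : Qbar) ^ s := by
  have hfin : FiniteMultiplicity (ℓ : ℤ) a :=
    Int.finiteMultiplicity_iff.mpr ⟨by simpa using hℓ.ne_one, ha⟩
  obtain ⟨c, hc, hnd⟩ := hfin.exists_eq_pow_mul_and_not_dvd
  refine ⟨multiplicity (ℓ : ℤ) a, ?_⟩
  have h1 : ((a : ℤ) : Qbar) = (ℓ : Qbar) ^ multiplicity (ℓ : ℤ) a * ((c : ℤ) : Qbar) := by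
    conv_lhs => rw [hc]
    push_cast
    ring
  rw [h1, map_mul, map_pow, Fermat.Agent.S05.valuation_intCast_eq_one A hℓ hA hnd, mul_one]

theorem valuation_rat_eq_zpow (hℓ : ℓ.Prime) (hA : A.LiesOverPrime ℓ) (r : ℚ) (hr : r ≠ 0) :
    ∃ j : ℤ, A.valuation (algebraMap ℚ Qbar r) = A.valuation (ℓ : Qbar) ^ j := by
  obtain ⟨s, hs⟩ := valuation_int_eq_pow A hℓ hA r.num (Rat.num_ne_zero.mpr hr)
  obtain ⟨t, ht⟩ := valuation_int_eq_pow A hℓ hA (r.den : ℤ) (by exact_mod_cast r.den_ne_zero)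
  refine ⟨(s : ℤ) - t, ?_⟩
  have h1 : algebraMap ℚ Qbar r = ((r.num : ℤ) : Qbar) / (((r.den : ℤ)) : Qbar) := by
    conv_lhs => rw [← Rat.num_div_den r]
    simp
  have hpos := (valuation_prime_pos A hℓ).ne'
  rw [h1, map_div₀, hs, ht, zpow_sub₀ hpos, zpow_natCast, zpow_natCast]

theorem valuation_rat_two (hA : A.LiesOverPrime 2) (r : ℚ)
    (hr : A.valuation (algebraMap ℚ Qbar r) ≤ 1) :
    A.valuation (algebraMap ℚ Qbar r) < 1 ∨ A.valuation (algebraMap ℚ Qbar r - 1) < 1 := by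
  have h2 : Nat.Prime 2 := Nat.prime_two
  have h1 : algebraMap ℚ Qbar r = ((r.num : ℤ) : Qbar) / (((r.den : ℤ)) : Qbar) := by
    conv_lhs => rw [← Rat.num_div_den r]
    simp
  have hden0 : (((r.den : ℤ)) : Qbar) ≠ 0 := by exact_mod_cast r.den_ne_zero
  -- the denominator is odd
  have hodd : ¬ ((2 : ℕ) : ℤ) ∣ (r.den : ℤ) := by
    intro hd
    have hnum : ¬ ((2 : ℕ) : ℤ) ∣ r.num := by
      intro hn
      have hcop := r.reduced
      have h2n : 2 ∣ r.num.natAbs := by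
        have := Int.natAbs_dvd_natAbs.mpr hn
        simpa using this
      have h2d : 2 ∣ r.den := by exact_mod_cast hd
      have := Nat.dvd_gcd h2n h2d
      rw [hcop] at this
      omega
    have hv1 := Fermat.Agent.S05.valuation_intCast_eq_one A h2 hA hnum
    have hv2 := Fermat.Agent.S05.valuation_intCast_lt_one A hA hd
    rw [h1, map_div₀, hv1] at hr
    have hv3 : 0 < A.valuation (((r.den : ℤ)) : Qbar) := by
      rw [zero_lt_iff, Valuation.ne_zero_iff]; exact hden0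
    rw [div_le_one₀ hv3] at hr
    exact absurd hv2 (not_lt.mpr hr)
  have hvden := Fermat.Agent.S05.valuation_intCast_eq_one A h2 hA hodd
  by_cases hn : ((2 : ℕ) : ℤ) ∣ r.num
  · left
    rw [h1, map_div₀, hvden, div_one]
    exact Fermat.Agent.S05.valuation_intCast_lt_one A hA hn
  · right
    have h3 : algebraMap ℚ Qbar r - 1 = (((r.num - r.den : ℤ)) : Qbar) / (((r.den : ℤ)) : Qbar) := by
      rw [h1]
      push_cast
      field_simp
    rw [h3, map_div₀, hvden, div_one]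
    apply Fermat.Agent.S05.valuation_intCast_lt_one A hA
    push_cast at hn hodd ⊢
    omega

theorem valuation_prime_zpow_inj (hℓ : ℓ.Prime) (hA : A.LiesOverPrime ℓ) {i j : ℤ}
    (h : A.valuation (ℓ : Qbar) ^ i = A.valuation (ℓ : Qbar) ^ j) : i = j :=
  zpow_right_injective₀ (valuation_prime_pos A hℓ) (valuation_prime_lt_one A hA).ne h

theorem valuation_prime_zpow_le_iff (hℓ : ℓ.Prime) (hA : A.LiesOverPrime ℓ) {i j : ℤ} :
    A.valuation (ℓ : Qbar) ^ i ≤ A.valuation (ℓ : Qbar) ^ j ↔ j ≤ i :=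
  zpow_le_zpow_iff_right_of_lt_one₀ (valuation_prime_pos A hℓ) (valuation_prime_lt_one A hA)

theorem valuation_prime_zpow_lt_iff (hℓ : ℓ.Prime) (hA : A.LiesOverPrime ℓ) {i j : ℤ} :
    A.valuation (ℓ : Qbar) ^ i < A.valuation (ℓ : Qbar) ^ j ↔ j < i :=
  zpow_lt_zpow_iff_right_of_lt_one₀ (valuation_prime_pos A hℓ) (valuation_prime_lt_one A hA)

end

end Fermat.Agent.S13
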