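import Fermat.Agent.S13.FreyDefs
import Fermat.Agent.S13.Newton
import Fermat.Agent.S13.LinAlg
import Fermat.Agent.S13.RatVal
import Fermat.Agent.S13.FreyTorsion

/-!
# S13, task T15: a stable line forces a `p`-torsion point outside the kernel of reduction

If all of `E[p]` were contained in the kernel of reduction `E₁` at a place above `p`, then
`v(x_Q)^((p²-1)/2) v(p) = 1` for all nonzero `Q ∈ E[p]` (T10).  The product of the `x_Q` over the
`p - 1` nonzero points of a Galois stable line is a rational number, so its valuation is an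
integral power of `v(p)`; this is incompatible with the previous formula.
-/

set_option autoImplicit false

open WeierstrassCurve WeierstrassCurve.Affine WeierstrassCurve.Affine.Point

namespace Fermat.Agent.S13

local notation "Qbar" => AlgebraicClosure ℚ

/-- the arithmetic contradiction at the end of the argument -/
theorem FreyNewton.arith {j : ℤ} {k : ℕ} (hk : 2 ≤ k)
    (h : j * ((2 * k ^ 2 + 2 * k : ℕ) : ℤ) + ((2 * k : ℕ) : ℤ) = 0) : False := by
  push_cast at h
  have hk0 : (2 * (k : ℤ)) ≠ 0 := by positivity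
  have h1 : 2 * (k : ℤ) * (j * ((k : ℤ) + 1) + 1) = 0 := by linear_combination h
  have h2 : j * ((k : ℤ) + 1) + 1 = 0 := (mul_eq_zero.mp h1).resolve_left hk0
  have h3 : ((k : ℤ) + 1) ∣ 1 := ⟨-j, by linear_combination h2⟩
  have h4 := Int.le_of_dvd one_pos h3
  omega

/-- a proper nonzero subspace of `E[p]` has `p` elements -/
theorem FreyNewton.card_line (P : FreyPackage) (N : Submodule (ZMod P.p) (Vp P))
    (hbot : N ≠ ⊥) (htop : N ≠ ⊤) : Nat.card N = P.p := by
  have : Fact P.p.Prime := ⟨P.pp⟩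
  have := frey_finite P
  have hV : Module.finrank (ZMod P.p) (Vp P) ≤ 2 := finrank_le_two_of_card_lt (frey_card_lt P)
  have hfin : Module.Finite (ZMod P.p) (Vp P) := Module.Finite.of_finite
  have hlt : Module.finrank (ZMod P.p) N < Module.finrank (ZMod P.p) (Vp P) :=
    Submodule.finrank_lt htop
  have hpos : 0 < Module.finrank (ZMod P.p) N := by
    rw [Module.finrank_pos_iff]
    exact Submodule.nontrivial_iff_ne_bot.mpr hbot
  have hN1 : Module.finrank (ZMod P.p) N = 1 := by omega
  have h := Module.natCard_eq_pow_finrank (K := ZMod P.p) (V := N)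
  rw [Nat.card_zmod, hN1, pow_one] at h
  exact h

theorem frey_exists_not_inE1 (P : FreyPackage) (A : ValuationSubring Qbar)
    (hA : A.LiesOverPrime P.p) (N : Submodule (ZMod P.p) (Vp P)) (hN : IsGaloisStable ℚ N)
    (hbot : N ≠ ⊥) (htop : N ≠ ⊤) : ∃ x : Vp P, ¬ InE1 P A (x : EPt P) := by
  classical
  by_contra hcon
  push Not at hcon
  have : Fact P.p.Prime := ⟨P.pp⟩
  have := frey_finite P
  obtain ⟨k, hk⟩ := P.hp_odd
  have hk2 : 2 ≤ k := by have := P.hp5; omega
  have h₄K : ((a₄Z P : ℤ) : Qbar) ≠ 0 := Int.cast_ne_zero.mpr (a₄Z_ne_zero P)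
  have hall : ∀ Q : EPt P, Q ≠ 0 → (2 * k + 1) • Q = 0 → 1 < A.valuation ((M0 P).X Q) := by
    intro Q hQ hpQ
    have hmem : Q ∈ Submodule.torsionBy ℤ (EPt P) P.p := mem_Vp_of_nsmul P (by rw [hk]; exact hpQ)
    rcases hcon ⟨Q, hmem⟩ with h | h
    · exact absurd h hQ
    · exact h
  have key := Model.val_X_pow_mul_eq_one_of_lad A.valuation 1 (a₂Z P) (a₄Z P) (M0 P) (k := k)
    (by omega) (fun Q hQ => (M0 P).nsmul_eq_zero_iff h₄K hQ _) (S05.valuation_intCast_le_one A)
    (fun n hn => S05.valuation_intCast_eq_one A P.pp hA (by rwa [hk])) hall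
  have : Fintype N := Fintype.ofFinite N
  -- the product of the abscissas
  set S : Finset N := (Finset.univ : Finset N).erase 0 with hS
  set z : Qbar := ∏ x ∈ S, (M0 P).X ((x : Vp P) : EPt P) with hz
  have hcard : S.card = 2 * k := by
    rw [hS, Finset.card_erase_of_mem (Finset.mem_univ _), Finset.card_univ, ← Nat.card_eq_fintype_card,
      FreyNewton.card_line P N hbot htop, hk]
    omega
  have hne : ∀ x ∈ S, ((x : Vp P) : EPt P) ≠ 0 := by
    intro x hx h
    rw [hS, Finset.mem_erase] at hx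
    exact hx.1 (Subtype.ext (Subtype.ext h))
  have htor : ∀ x : N, (2 * k + 1) • ((x : Vp P) : EPt P) = 0 := by
    intro x
    rw [← hk]
    exact nsmul_eq_zero_of_mem P x
  -- rationality
  have hfix : ∀ σ : GQ, σ z = z := by
    intro σ
    rw [hz, map_prod]
    refine Finset.prod_nbij' (fun x => ⟨σ • (x : Vp P), hN σ x x.2⟩)
      (fun x => ⟨σ⁻¹ • (x : Vp P), hN σ⁻¹ x x.2⟩) ?_ ?_ ?_ ?_ ?_
    · intro x hx
      rw [hS, Finset.mem_erase] at hx ⊢
      refine ⟨fun h => hx.1 ?_, Finset.mem_univ _⟩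
      have h1 : σ • (x : Vp P) = 0 := congrArg Subtype.val h
      exact Subtype.ext ((smul_eq_zero_iff_eq σ).mp h1)
    · intro x hx
      rw [hS, Finset.mem_erase] at hx ⊢
      refine ⟨fun h => hx.1 ?_, Finset.mem_univ _⟩
      have h1 : σ⁻¹ • (x : Vp P) = 0 := congrArg Subtype.val h
      exact Subtype.ext ((smul_eq_zero_iff_eq σ⁻¹).mp h1)
    · intro x _
      exact Subtype.ext (inv_smul_smul σ (x : Vp P))
    · intro x _
      exact Subtype.ext (smul_inv_smul σ (x : Vp P))
    · intro x _
      exact (M0_X_smul P σ _).symm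
  obtain ⟨r, hr⟩ := exists_rat_of_fixed z hfix
  have hz0 : z ≠ 0 := by
    rw [hz, Finset.prod_ne_zero_iff]
    intro x hx h0
    have := hall _ (hne x hx) (htor x)
    rw [h0, _root_.map_zero] at this
    exact absurd this (not_lt.mpr zero_le)
  have hr0 : r ≠ 0 := by
    rintro rfl
    rw [_root_.map_zero] at hr
    exact hz0 hr.symm
  obtain ⟨j, hj⟩ := valuation_rat_eq_zpow A P.pp hA r hr0
  rw [hr] at hj
  -- the valuation of the product
  have hprod : A.valuation z ^ (2 * k ^ 2 + 2 * k) * A.valuation ((P.p : ℕ) : Qbar) ^ S.card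
      = 1 := by
    rw [hz, map_prod, ← Finset.prod_pow, ← Finset.prod_const, ← Finset.prod_mul_distrib]
    refine Finset.prod_eq_one ?_
    intro x hx
    have := key _ (hne x hx) (htor x)
    rwa [← hk] at this
  rw [hcard] at hprod
  rw [hj, ← zpow_natCast, ← zpow_natCast, ← zpow_mul] at hprod
  have hp0 : A.valuation ((P.p : ℕ) : Qbar) ≠ 0 := by
    rw [Valuation.ne_zero_iff]
    exact Nat.cast_ne_zero.mpr P.hp0
  rw [← zpow_add₀ hp0] at hprod
  have hfin := valuation_prime_zpow_inj A P.pp hA (hprod.trans (zpow_zero _).symm)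
  exact FreyNewton.arith hk2 hfin

end Fermat.Agent.S13
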