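import Fermat.Agent.S13.ModelOfWeierstrass
import Fermat.Prelude.Def_FLTPrelim_GaloisRep

/-!
# S13-T1 (complement): compatibility of the `Model` coordinates with the Galois action
-/

set_option autoImplicit false

namespace Fermat.Agent.S13

open WeierstrassCurve WeierstrassCurve.Affine WeierstrassCurve.Affine.Point

universe r s v

variable {R : Type r} {S : Type s} {K : Type v} [CommRing R] [CommRing S] [Field K]
  {W' : Affine R} [Algebra R S] [Algebra R K] [Algebra S K] [IsScalarTower R S K]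

theorem algEquiv_algebraMap_base (σ : K ≃ₐ[S] K) (c : R) :
    σ (algebraMap R K c) = algebraMap R K c := by
  rw [IsScalarTower.algebraMap_apply R S K, σ.commutes]

variable [DecidableEq K]

theorem ptX_smul_some (σ : K ≃ₐ[S] K) (r₀ : K) {x y : K} (h : (W'⁄K).Nonsingular x y) :
    ptX (W'⁄K) r₀ (σ • (Point.some x y h : (W'⁄K).Point)) = σ x - r₀ :=
  rfl

theorem ptY_smul_some (σ : K ≃ₐ[S] K) (s₀ : K) {x y : K} (h : (W'⁄K).Nonsingular x y) :
    ptY (W'⁄K) s₀ (σ • (Point.some x y h : (W'⁄K).Point)) = σ y - s₀ :=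
  rfl

theorem smul_ne_zero (σ : K ≃ₐ[S] K) {P : (W'⁄K).Point} (hP : P ≠ 0) : σ • P ≠ 0 := by
  intro h
  apply hP
  have := congrArg (fun Q => σ⁻¹ • Q) h
  simpa using this

theorem ptX_smul (σ : K ≃ₐ[S] K) {r₀ : K} (hr₀ : σ r₀ = r₀) (P : (W'⁄K).Point) :
    ptX (W'⁄K) r₀ (σ • P) = σ (ptX (W'⁄K) r₀ P) := by
  rcases P with _ | ⟨x, y, h⟩
  · exact (map_zero σ).symm
  · rw [ptX_smul_some, ptX_some, map_sub, hr₀]

theorem ptY_smul (σ : K ≃ₐ[S] K) {s₀ : K} (hs₀ : σ s₀ = s₀) (P : (W'⁄K).Point) :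
    ptY (W'⁄K) s₀ (σ • P) = σ (ptY (W'⁄K) s₀ P) := by
  rcases P with _ | ⟨x, y, h⟩
  · exact (map_zero σ).symm
  · rw [ptY_smul_some, ptY_some, map_sub, hs₀]

end Fermat.Agent.S13
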