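import Fermat.Prelude.Def_FLTPrelim_FreyPackage
import Fermat.Prelude.Def_FLTPrelim_GaloisRep
import Fermat.Prelude.Def_FLTPrelim_Ramification
import Fermat.Agent.S13.ModelGalois
import Fermat.Agent.S05.Inertia

/-!
# S13: the Frey curve as a `Model`

Basic definitions for the Frey-level part of S13: the group `EPt P` of `ℚ̄`-points of the Frey
curve, its `p`-torsion `Vp P`, the integral coefficients `a₂Z P`, `a₄Z P`, the model `M0 P`
(the curve itself, `Y² + XY = X³ + a₂ X² + a₄ X`) and the translated model `Mc P` (the node is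
moved to the origin at the primes dividing `c`), and their compatibility with the Galois action.
-/

set_option autoImplicit false

open WeierstrassCurve WeierstrassCurve.Affine WeierstrassCurve.Affine.Point

namespace Fermat.Agent.S13

local notation "Qbar" => AlgebraicClosure ℚ

/-- the points of the Frey curve over `ℚ̄` -/
abbrev EPt (P : FreyPackage) : Type := ((P.freyCurve)⁄(AlgebraicClosure ℚ)).Point

/-- the `p`-torsion of the Frey curve -/
abbrev Vp (P : FreyPackage) : Type := Submodule.torsionBy ℤ (EPt P) P.p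

/-- the absolute Galois group of `ℚ` -/
abbrev GQ : Type := AlgebraicClosure ℚ ≃ₐ[ℚ] AlgebraicClosure ℚ

/-! ## Arithmetic of the coefficients -/

/-- the integer `a₂ = (b^p - 1 - a^p) / 4` -/
def a₂Z (P : FreyPackage) : ℤ := (P.b ^ P.p - 1 - P.a ^ P.p) / 4

/-- the integer `a₄ = - a^p b^p / 16` -/
def a₄Z (P : FreyPackage) : ℤ := -(P.a ^ P.p) * (P.b ^ P.p) / 16

theorem two_dvd_b (P : FreyPackage) : (2 : ℤ) ∣ P.b :=
  (ZMod.intCast_zmod_eq_zero_iff_dvd P.b 2).1 P.hb2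

theorem thirtytwo_dvd_b_pow (P : FreyPackage) : (32 : ℤ) ∣ P.b ^ P.p := by
  have h1 : (2 : ℤ) ^ 5 ∣ P.b ^ 5 := pow_dvd_pow_of_dvd (two_dvd_b P) 5
  have h2 : P.b ^ 5 ∣ P.b ^ P.p := pow_dvd_pow _ P.hp5
  exact (by norm_num : (32 : ℤ) = 2 ^ 5) ▸ h1.trans h2

theorem four_dvd_a_pow_add_one (P : FreyPackage) : (4 : ℤ) ∣ P.a ^ P.p + 1 := by
  have h : ((P.a ^ P.p + 1 : ℤ) : ZMod 4) = 0 := by
    push_cast
    rw [P.ha4]
    have h3 : (3 : ZMod 4) = -1 := by decide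
    rw [h3, P.hp_odd.neg_one_pow]
    ring
  exact (ZMod.intCast_zmod_eq_zero_iff_dvd _ 4).1 h

theorem not_two_dvd_a (P : FreyPackage) : ¬ (2 : ℤ) ∣ P.a := by
  intro h
  have h1 : (2 : ℤ) ∣ 1 := by
    have := dvd_gcd h (two_dvd_b P)
    rwa [P.hgcdab] at this
  norm_num at h1

theorem four_mul_a₂Z (P : FreyPackage) : 4 * a₂Z P = P.b ^ P.p - 1 - P.a ^ P.p := by
  apply Int.mul_ediv_cancel'
  obtain ⟨m, hm⟩ := thirtytwo_dvd_b_pow P
  obtain ⟨n, hn⟩ := four_dvd_a_pow_add_one P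
  exact ⟨8 * m - n, by linarith⟩

theorem sixteen_mul_a₄Z (P : FreyPackage) : 16 * a₄Z P = -(P.a ^ P.p) * (P.b ^ P.p) := by
  apply Int.mul_ediv_cancel'
  obtain ⟨m, hm⟩ := thirtytwo_dvd_b_pow P
  exact ⟨-(P.a ^ P.p) * (2 * m), by rw [hm]; ring⟩

theorem a₄Z_ne_zero (P : FreyPackage) : a₄Z P ≠ 0 := by
  intro h
  have := sixteen_mul_a₄Z P
  rw [h, mul_zero] at this
  have h1 : P.a ^ P.p ≠ 0 := pow_ne_zero _ P.ha0
  have h2 : P.b ^ P.p ≠ 0 := pow_ne_zero _ P.hb0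
  exact mul_ne_zero (neg_ne_zero.mpr h1) h2 this.symm

/-- `b₂ = 1 + 4 a₂ = b^p - a^p` -/
theorem one_add_four_mul_a₂Z (P : FreyPackage) : 1 + 4 * a₂Z P = P.b ^ P.p - P.a ^ P.p := by
  rw [four_mul_a₂Z]; ring

/-- `b₂² - 64 a₄ = c^(2p)` -/
theorem disc_a₂Z_a₄Z (P : FreyPackage) :
    (1 + 4 * a₂Z P) ^ 2 - 64 * a₄Z P = (P.c ^ P.p) ^ 2 := by
  have h := sixteen_mul_a₄Z P
  rw [one_add_four_mul_a₂Z, ← P.hFLT]
  linear_combination (-4) * h

/-! ## The coefficients of the Frey curve over `ℚ̄` -/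

theorem frey_a₁ (P : FreyPackage) : (P.freyCurve⁄Qbar).a₁ = ((1 : ℤ) : Qbar) := by
  simp [FreyPackage.freyCurve, WeierstrassCurve.baseChange, WeierstrassCurve.map]

theorem frey_a₃ (P : FreyPackage) : (P.freyCurve⁄Qbar).a₃ = 0 := by
  simp [FreyPackage.freyCurve, WeierstrassCurve.baseChange, WeierstrassCurve.map]

theorem frey_a₆ (P : FreyPackage) : (P.freyCurve⁄Qbar).a₆ = 0 := by
  simp [FreyPackage.freyCurve, WeierstrassCurve.baseChange, WeierstrassCurve.map]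

theorem frey_a₂ (P : FreyPackage) : (P.freyCurve⁄Qbar).a₂ = ((a₂Z P : ℤ) : Qbar) := by
  have h : (4 : Qbar) * ((a₂Z P : ℤ) : Qbar) = (P.b : Qbar) ^ P.p - 1 - (P.a : Qbar) ^ P.p := by
    exact_mod_cast congrArg (Int.cast : ℤ → Qbar) (four_mul_a₂Z P)
  have h2 : (P.freyCurve⁄Qbar).a₂ = ((P.b : Qbar) ^ P.p - 1 - (P.a : Qbar) ^ P.p) / 4 := by
    simp [FreyPackage.freyCurve, WeierstrassCurve.baseChange, WeierstrassCurve.map]
  rw [h2, ← h]
  ring

theorem frey_a₄ (P : FreyPackage) : (P.freyCurve⁄Qbar).a₄ = ((a₄Z P : ℤ) : Qbar) := by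
  have h : (16 : Qbar) * ((a₄Z P : ℤ) : Qbar) = -((P.a : Qbar) ^ P.p) * (P.b : Qbar) ^ P.p := by
    exact_mod_cast congrArg (Int.cast : ℤ → Qbar) (sixteen_mul_a₄Z P)
  have h2 : (P.freyCurve⁄Qbar).a₄ = -((P.a : Qbar) ^ P.p) * (P.b : Qbar) ^ P.p / 16 := by
    simp [FreyPackage.freyCurve, WeierstrassCurve.baseChange, WeierstrassCurve.map]
  rw [h2, ← h]
  ring

theorem frey_Δ (P : FreyPackage) : (P.freyCurve⁄Qbar).Δ =
    (((a₄Z P) ^ 2 * (P.c ^ P.p) ^ 2 : ℤ) : Qbar) := by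
  rw [← disc_a₂Z_a₄Z]
  simp only [WeierstrassCurve.Δ, WeierstrassCurve.b₂, WeierstrassCurve.b₄, WeierstrassCurve.b₆,
    WeierstrassCurve.b₈, frey_a₁, frey_a₂, frey_a₃, frey_a₄, frey_a₆]
  push_cast
  ring

theorem frey_Δ_ne_zero (P : FreyPackage) : (P.freyCurve⁄Qbar).Δ ≠ 0 := by
  rw [frey_Δ]
  exact_mod_cast mul_ne_zero (pow_ne_zero 2 (a₄Z_ne_zero P)) (pow_ne_zero 2 (pow_ne_zero _ P.hc0))

/-! ## The two models -/

/-- The Frey curve `Y² + XY = X³ + a₂ X² + a₄ X` itself, as a `Model` with integer coefficients. -/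
noncomputable def M0 (P : FreyPackage) :
    Model Qbar ((1 : ℤ) : Qbar) ((a₂Z P : ℤ) : Qbar) ((a₄Z P : ℤ) : Qbar) (EPt P) :=
  (modelOfWeierstrass (P.freyCurve⁄Qbar) 0 0 (frey_Δ_ne_zero P)
    (by rw [equation_iff, frey_a₆]; ring) (by rw [frey_a₃]; ring)).congr
    (frey_a₁ P) (by rw [frey_a₂]; ring) (by rw [frey_a₄]; ring)

/-- the abscissa `a^p / 4` of the `2`-torsion point which is a node modulo the primes
dividing `c` -/
noncomputable def rc (P : FreyPackage) : Qbar := (P.a : Qbar) ^ P.p / 4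

/-- the ordinate `- a^p / 8` of that point -/
noncomputable def sc (P : FreyPackage) : Qbar := -((P.a : Qbar) ^ P.p) / 8

/-- the coefficient `a₂` of the translated model -/
noncomputable def a₂c (P : FreyPackage) : Qbar :=
  ((P.b : Qbar) ^ P.p - 1 + 2 * (P.a : Qbar) ^ P.p) / 4

/-- the coefficient `a₄` of the translated model -/
noncomputable def a₄c (P : FreyPackage) : Qbar := (P.a : Qbar) ^ P.p * (P.c : Qbar) ^ P.p / 16

theorem cast_a₂Z (P : FreyPackage) :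
    ((a₂Z P : ℤ) : Qbar) = ((P.b : Qbar) ^ P.p - 1 - (P.a : Qbar) ^ P.p) / 4 := by
  have h : (4 : Qbar) * ((a₂Z P : ℤ) : Qbar) = (P.b : Qbar) ^ P.p - 1 - (P.a : Qbar) ^ P.p := by
    exact_mod_cast congrArg (Int.cast : ℤ → Qbar) (four_mul_a₂Z P)
  rw [← h]; ring

theorem cast_a₄Z (P : FreyPackage) :
    ((a₄Z P : ℤ) : Qbar) = -((P.a : Qbar) ^ P.p) * (P.b : Qbar) ^ P.p / 16 := by
  have h : (16 : Qbar) * ((a₄Z P : ℤ) : Qbar) = -((P.a : Qbar) ^ P.p) * (P.b : Qbar) ^ P.p := by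
    exact_mod_cast congrArg (Int.cast : ℤ → Qbar) (sixteen_mul_a₄Z P)
  rw [← h]; ring

theorem cast_hFLT (P : FreyPackage) :
    (P.a : Qbar) ^ P.p + (P.b : Qbar) ^ P.p = (P.c : Qbar) ^ P.p := by
  exact_mod_cast congrArg (Int.cast : ℤ → Qbar) P.hFLT

/-- The Frey curve translated by the `2`-torsion point `(a^p/4, -a^p/8)`:
`Y² + XY = X³ + a₂c X² + a₄c X`. -/
noncomputable def Mc (P : FreyPackage) : Model Qbar (1 : Qbar) (a₂c P) (a₄c P) (EPt P) :=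
  (modelOfWeierstrass (P.freyCurve⁄Qbar) (rc P) (sc P) (frey_Δ_ne_zero P)
    (by
      rw [equation_iff, frey_a₆, frey_a₁, frey_a₂, frey_a₃, frey_a₄, cast_a₂Z, cast_a₄Z, rc, sc]
      push_cast
      ring)
    (by rw [frey_a₃, frey_a₁, rc, sc]; push_cast; ring)).congr
    (by rw [frey_a₁]; push_cast; ring)
    (by rw [frey_a₂, cast_a₂Z, rc, a₂c]; ring)
    (by
      rw [frey_a₄, frey_a₂, frey_a₁, cast_a₂Z, cast_a₄Z, rc, sc, a₄c, ← cast_hFLT]
      push_cast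
      ring)

theorem M0_X (P : FreyPackage) : (M0 P).X = ptX (P.freyCurve⁄Qbar) 0 := rfl
theorem M0_Y (P : FreyPackage) : (M0 P).Y = ptY (P.freyCurve⁄Qbar) 0 := rfl
theorem Mc_X (P : FreyPackage) : (Mc P).X = ptX (P.freyCurve⁄Qbar) (rc P) := rfl
theorem Mc_Y (P : FreyPackage) : (Mc P).Y = ptY (P.freyCurve⁄Qbar) (sc P) := rfl

theorem Mc_X_eq (P : FreyPackage) {Q : EPt P} (hQ : Q ≠ 0) : (Mc P).X Q = (M0 P).X Q - rc P := by
  rcases Q with _ | ⟨x, y, h⟩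
  · exact absurd rfl hQ
  · rw [Mc_X, M0_X, ptX_some, ptX_some, sub_zero]

theorem Mc_Y_eq (P : FreyPackage) {Q : EPt P} (hQ : Q ≠ 0) : (Mc P).Y Q = (M0 P).Y Q - sc P := by
  rcases Q with _ | ⟨x, y, h⟩
  · exact absurd rfl hQ
  · rw [Mc_Y, M0_Y, ptY_some, ptY_some, sub_zero]

/-! ## Galois action -/

/-- the action of `σ` on points, as an additive map -/
noncomputable def actE (P : FreyPackage) (σ : GQ) : EPt P →+ EPt P :=
  DistribSMul.toAddMonoidHom (EPt P) σ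

@[simp] theorem actE_apply (P : FreyPackage) (σ : GQ) (Q : EPt P) : actE P σ Q = σ • Q := rfl

theorem actE_ne_zero (P : FreyPackage) (σ : GQ) (Q : EPt P) (hQ : Q ≠ 0) : actE P σ Q ≠ 0 :=
  smul_ne_zero σ hQ

theorem M0_X_smul (P : FreyPackage) (σ : GQ) (Q : EPt P) : (M0 P).X (σ • Q) = σ ((M0 P).X Q) :=
  ptX_smul σ (map_zero σ) Q

theorem M0_Y_smul (P : FreyPackage) (σ : GQ) (Q : EPt P) : (M0 P).Y (σ • Q) = σ ((M0 P).Y Q) :=
  ptY_smul σ (map_zero σ) Q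

theorem Mc_X_smul (P : FreyPackage) (σ : GQ) (Q : EPt P) : (Mc P).X (σ • Q) = σ ((Mc P).X Q) :=
  ptX_smul σ (by rw [rc, map_div₀, map_pow, map_intCast, map_ofNat]) Q

theorem Mc_Y_smul (P : FreyPackage) (σ : GQ) (Q : EPt P) : (Mc P).Y (σ • Q) = σ ((Mc P).Y Q) :=
  ptY_smul σ (by rw [sc, map_div₀, map_neg, map_pow, map_intCast, map_ofNat]) Q

/-- membership in `Vp` in terms of `nsmul` -/
theorem nsmul_eq_zero_of_mem (P : FreyPackage) (x : Vp P) : P.p • (x : EPt P) = 0 := by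
  have h := x.2
  rw [Submodule.mem_torsionBy_iff] at h
  rw [← Nat.cast_smul_eq_nsmul ℤ]
  exact h

theorem mem_Vp_of_nsmul (P : FreyPackage) {Q : EPt P} (h : P.p • Q = 0) :
    Q ∈ Submodule.torsionBy ℤ (EPt P) P.p := by
  rw [Submodule.mem_torsionBy_iff, Nat.cast_smul_eq_nsmul ℤ]
  exact h

theorem coe_smul_Vp (P : FreyPackage) (σ : GQ) (x : Vp P) :
    ((σ • x : Vp P) : EPt P) = σ • (x : EPt P) := rfl

/-- The kernel of reduction at `A`, in the coordinates of the Frey curve. -/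
def InE1 (P : FreyPackage) (A : ValuationSubring Qbar) (Q : EPt P) : Prop :=
  (M0 P).InE1 A.valuation Q

end Fermat.Agent.S13
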