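import Mathlib

/-!
# S13: the abstract assembly lemma

Pure group theory / linear algebra.  `Γ` acts on a finite `𝔽_p`-vector space `V` with fewer than
`p^3` elements, `N` is a proper nonzero stable subspace.  Given

* a "Minkowski" principle for a family `I q` of subgroups (inertia groups),
* unipotence of `I q` for `q ≠ p`,
* `(σ - 1) V ⊆ W` for `σ ∈ I p`, with `W` a proper subgroup of `V`,
* no nonzero `Γ`-fixed vector,

we conclude that `Γ` acts trivially on `V / N`.
-/

set_option autoImplicit false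

namespace Fermat.Agent.S13

section Lines

variable {p : ℕ} [Fact p.Prime] {V : Type*} [AddCommGroup V] [Module (ZMod p) V]

/-- A proper nonzero subspace of a space with fewer than `p^3` elements is an atom and a coatom. -/
theorem isAtom_and_isCoatom_of_card_lt [Finite V] (hcard : Nat.card V < p ^ 3)
    (N : Submodule (ZMod p) V) (hN0 : N ≠ ⊥) (hN1 : N ≠ ⊤) : IsAtom N ∧ IsCoatom N := by
  have hp : 1 < p := (Fact.out : p.Prime).one_lt
  have : Module.Finite (ZMod p) V := Module.Finite.of_finite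
  have hd : Module.finrank (ZMod p) V < 3 := by
    rw [Module.natCard_eq_pow_finrank (K := ZMod p) (V := V), Nat.card_zmod] at hcard
    exact (Nat.pow_lt_pow_iff_right hp).mp hcard
  have h1 : 0 < Module.finrank (ZMod p) N := by
    rw [Nat.pos_iff_ne_zero]
    intro h
    exact hN0 (Submodule.finrank_eq_zero.mp h)
  have h2 : Module.finrank (ZMod p) N < Module.finrank (ZMod p) V :=
    Submodule.finrank_lt hN1
  refine ⟨⟨hN0, ?_⟩, ⟨hN1, ?_⟩⟩
  · intro M hM
    have h3 := Submodule.finrank_lt_finrank_of_lt hM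
    exact Submodule.finrank_eq_zero.mp (by omega)
  · intro M hM
    have h3 := Submodule.finrank_lt_finrank_of_lt hM
    have h4 := Submodule.finrank_le M
    exact Submodule.eq_top_of_finrank_eq (by omega)

/-- A square-zero endomorphism preserving an atom kills it. -/
theorem apply_eq_zero_of_sq_zero_of_isAtom (N : Submodule (ZMod p) V) (hN : IsAtom N)
    (T : V →ₗ[ZMod p] V) (hT : ∀ x, T (T x) = 0) (hTN : ∀ x ∈ N, T x ∈ N) :
    ∀ x ∈ N, T x = 0 := by
  rcases hN.le_iff.mp (inf_le_right : LinearMap.ker T ⊓ N ≤ N) with h | h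
  · exfalso
    apply hN.1
    rw [eq_bot_iff]
    intro x hx
    have h1 : T x ∈ LinearMap.ker T ⊓ N := ⟨by simpa using hT x, hTN x hx⟩
    rw [h] at h1
    have h2 : x ∈ LinearMap.ker T ⊓ N := ⟨by simpa using h1, hx⟩
    rwa [h] at h2
  · intro x hx
    have : x ∈ LinearMap.ker T ⊓ N := by rw [h]; exact hx
    simpa using this.1

/-- A square-zero endomorphism preserving a coatom maps everything into it. -/
theorem apply_mem_of_sq_zero_of_isCoatom (N : Submodule (ZMod p) V) (hN : IsCoatom N)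
    (T : V →ₗ[ZMod p] V) (hT : ∀ x, T (T x) = 0) (hTN : ∀ x ∈ N, T x ∈ N) :
    ∀ x, T x ∈ N := by
  have hle : N ≤ N.comap T := fun x hx => hTN x hx
  rcases hN.le_iff.mp hle with h | h
  · intro x
    have : x ∈ N.comap T := by rw [h]; trivial
    exact this
  · exfalso
    apply hN.1
    rw [eq_top_iff]
    intro x _
    have h1 : T x ∈ N.comap T := by
      change T (T x) ∈ N
      rw [hT]; exact N.zero_mem
    rw [h] at h1
    have h2 : x ∈ N.comap T := h1
    rwa [h] at h2

end Lines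

section Action

variable {Γ V : Type*} [Group Γ] {p : ℕ} [AddCommGroup V] [Module (ZMod p) V]
  [DistribMulAction Γ V]

/-- The subgroup acting trivially on a stable subspace `N`. -/
def fixSub (N : Submodule (ZMod p) V) : Subgroup Γ where
  carrier := {σ | ∀ x ∈ N, σ • x = x}
  one_mem' := fun x _ => one_smul _ x
  mul_mem' := by
    intro σ τ hσ hτ x hx
    rw [mul_smul, hτ x hx, hσ x hx]
  inv_mem' := by
    intro σ hσ x hx
    rw [inv_smul_eq_iff, hσ x hx]

theorem mem_fixSub {N : Submodule (ZMod p) V} {σ : Γ} :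
    σ ∈ fixSub (Γ := Γ) N ↔ ∀ x ∈ N, σ • x = x := Iff.rfl

theorem fixSub_normal (N : Submodule (ZMod p) V) (hNst : ∀ σ : Γ, ∀ x ∈ N, σ • x ∈ N) :
    (fixSub (Γ := Γ) N).Normal := by
  constructor
  intro σ hσ τ x hx
  rw [mul_smul, mul_smul, hσ _ (hNst τ⁻¹ x hx), smul_inv_smul]

/-- The subgroup acting trivially on `V / N`, for a stable subspace `N`. -/
def cofixSub (N : Submodule (ZMod p) V) (hNst : ∀ σ : Γ, ∀ x ∈ N, σ • x ∈ N) : Subgroup Γ where
  carrier := {σ | ∀ x : V, σ • x - x ∈ N}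
  one_mem' := fun x => by simp
  mul_mem' := by
    intro σ τ hσ hτ x
    have h : (σ * τ) • x - x = σ • (τ • x - x) + (σ • x - x) := by
      rw [mul_smul, smul_sub]; abel
    rw [h]
    exact N.add_mem (hNst σ _ (hτ x)) (hσ x)
  inv_mem' := by
    intro σ hσ x
    have h : σ⁻¹ • x - x = -(σ⁻¹ • (σ • x - x)) := by
      rw [smul_sub, inv_smul_smul]; abel
    rw [h]
    exact N.neg_mem (hNst σ⁻¹ _ (hσ x))

theorem mem_cofixSub {N : Submodule (ZMod p) V} {hNst : ∀ σ : Γ, ∀ x ∈ N, σ • x ∈ N} {σ : Γ} :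
    σ ∈ cofixSub N hNst ↔ ∀ x : V, σ • x - x ∈ N := Iff.rfl

theorem cofixSub_normal (N : Submodule (ZMod p) V) (hNst : ∀ σ : Γ, ∀ x ∈ N, σ • x ∈ N) :
    (cofixSub N hNst).Normal := by
  constructor
  intro σ hσ τ x
  have h : (τ * σ * τ⁻¹) • x - x = τ • (σ • (τ⁻¹ • x) - τ⁻¹ • x) := by
    rw [mul_smul, mul_smul, smul_sub, smul_inv_smul]
  rw [h]
  exact hNst τ _ (hσ _)

variable (p) in
/-- `σ - 1` as a linear map. -/
noncomputable def subOne (σ : Γ) : V →ₗ[ZMod p] V :=
  (DistribSMul.toAddMonoidHom V σ - AddMonoidHom.id V).toZModLinearMap p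

@[simp] theorem subOne_apply (σ : Γ) (x : V) : subOne p σ x = σ • x - x := rfl

variable [Fact p.Prime]

/-- **Abstract assembly for S13.** -/
theorem cofixed_of_local [Finite V] (hcard : Nat.card V < p ^ 3)
    (N : Submodule (ZMod p) V) (hNst : ∀ σ : Γ, ∀ x ∈ N, σ • x ∈ N) (hN0 : N ≠ ⊥) (hN1 : N ≠ ⊤)
    (I : ℕ → Subgroup Γ)
    (hmink : ∀ J : Subgroup Γ, J.Normal → (∀ σ : Γ, (∀ x : V, σ • x = x) → σ ∈ J) →
      (∀ q : ℕ, q.Prime → I q ≤ J) → J = ⊤)
    (hunip : ∀ q : ℕ, q.Prime → q ≠ p → ∀ σ ∈ I q, ∀ x : V, σ • (σ • x - x) = σ • x - x)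
    (W : AddSubgroup V) (hW : ∃ x, x ∉ W) (hp : ∀ σ ∈ I p, ∀ x : V, σ • x - x ∈ W)
    (hrat : ∀ x : V, (∀ σ : Γ, σ • x = x) → x = 0) :
    ∀ (σ : Γ) (x : V), σ • x - x ∈ N := by
  obtain ⟨hatom, hcoatom⟩ := isAtom_and_isCoatom_of_card_lt hcard N hN0 hN1
  -- unipotent elements lie in both subgroups
  have hsq : ∀ q : ℕ, q.Prime → q ≠ p → ∀ σ ∈ I q, ∀ x : V, subOne p σ (subOne p σ x) = 0 := by
    intro q hq hqp σ hσ x
    simp only [subOne_apply]
    rw [hunip q hq hqp σ hσ x, sub_self]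
  have hst : ∀ σ : Γ, ∀ x ∈ N, subOne p σ x ∈ N := fun σ x hx =>
    N.sub_mem (hNst σ x hx) hx
  have hJ1 : ∀ q : ℕ, q.Prime → q ≠ p → I q ≤ fixSub N := by
    intro q hq hqp σ hσ x hx
    have := apply_eq_zero_of_sq_zero_of_isAtom N hatom (subOne p σ) (hsq q hq hqp σ hσ) (hst σ) x hx
    rwa [subOne_apply, sub_eq_zero] at this
  have hJ2 : ∀ q : ℕ, q.Prime → q ≠ p → I q ≤ cofixSub N hNst := by
    intro q hq hqp σ hσ x
    exact apply_mem_of_sq_zero_of_isCoatom N hcoatom (subOne p σ) (hsq q hq hqp σ hσ) (hst σ) x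
  -- the subgroup fixing `N` is not everything
  have hJ1top : fixSub (Γ := Γ) N ≠ ⊤ := by
    intro h
    apply hN0
    rw [eq_bot_iff]
    intro x hx
    have : ∀ σ : Γ, σ • x = x := fun σ => by
      have hσ : σ ∈ fixSub (Γ := Γ) N := by rw [h]; trivial
      exact hσ x hx
    simpa using hrat x this
  -- at `p`
  have hpcase : I p ≤ fixSub N ∨ I p ≤ cofixSub N hNst := by
    set W' : Submodule (ZMod p) V := AddSubgroup.toZModSubmodule p W with hW'
    rcases hatom.le_iff.mp (inf_le_left : N ⊓ W' ≤ N) with h | h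
    · left
      intro σ hσ x hx
      have h1 : σ • x - x ∈ N ⊓ W' := ⟨N.sub_mem (hNst σ x hx) hx, hp σ hσ x⟩
      rw [h] at h1
      exact sub_eq_zero.mp (by simpa using h1)
    · right
      have hle : N ≤ W' := inf_eq_left.mp h
      rcases hcoatom.le_iff.mp hle with h2 | h2
      · exfalso
        obtain ⟨x, hx⟩ := hW
        apply hx
        have : x ∈ W' := by rw [h2]; trivial
        exact this
      · intro σ hσ x
        have : σ • x - x ∈ W' := hp σ hσ x
        rwa [h2] at this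
  have hJ2top : cofixSub N hNst = ⊤ := by
    rcases hpcase with h | h
    · exfalso
      apply hJ1top
      apply hmink _ (fixSub_normal N hNst)
      · intro σ hσ x _
        exact hσ x
      · intro q hq
        by_cases hqp : q = p
        · rw [hqp]; exact h
        · exact hJ1 q hq hqp
    · apply hmink _ (cofixSub_normal N hNst)
      · intro σ hσ x
        rw [hσ x, sub_self]; exact N.zero_mem
      · intro q hq
        by_cases hqp : q = p
        · rw [hqp]; exact h
        · exact hJ2 q hq hqp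
  intro σ x
  have : σ ∈ cofixSub N hNst := by rw [hJ2top]; trivial
  exact this x

end Action

end Fermat.Agent.S13
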