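import Fermat.Agent.S13.Model
import Fermat.Agent.S05.Component

/-!
# S13: the abstract "component" computation for the `a₁`-model

Pure valuation theory in a field: no elliptic curve appears here.
`Q μ = Γ₀ˣ / ⟨μ²⟩`, `cl x` the class of `v x` (both from `Fermat.Agent.S05.Component`).
The two branches at the node are `α`, `β`, the roots of `t^2 + a₁ t - a₂`; we only use
`α + β = -a₁`, `α β = -a₂` and `v (α - β) = 1`.  No hypothesis on `v 2`.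
-/

set_option autoImplicit false

namespace Fermat.Agent.S13

open Fermat.Agent.S05 (Q cl cl_of_ne cl_mul cl_congr cl_eq_one cl_mul_self cl_inv_eq
  exists_zpow_of_cl_pow_eq_one val_mul_lt_one_left val_mul_lt_one_right)

variable {K : Type*} [Field K] {Γ₀ : Type*} [LinearOrderedCommGroupWithZero Γ₀]

variable (v : Valuation K Γ₀) (μ : Γ₀ˣ)

/-- The characterising properties of the component class `c` of a point with coordinate `X`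
and `η = Y / X`; `α`, `β` are the two tangent slopes at the node. -/
structure IsC (α β X η : K) (c : Q μ) : Prop where
  of_one : v X = 1 → c = 1
  of_mu : v X = μ → c = cl v μ X
  of_pos : v (η - α) < 1 → c = cl v μ X
  of_neg : v (η - β) < 1 → c = (cl v μ X)⁻¹

variable {v μ}

theorem val_two_le_one : v (2 : K) ≤ 1 := by
  have : (2 : K) = 1 + 1 := by norm_num
  rw [this]
  exact v.map_add_le (by rw [map_one]) (by rw [map_one])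

theorem val_sub_or_sub_lt_one {a₁ a₂ α β x : K} (hsum : α + β = -a₁) (hprod : α * β = -a₂)
    (h : v (x ^ 2 + a₁ * x - a₂) < 1) : v (x - α) < 1 ∨ v (x - β) < 1 := by
  by_contra hcon
  rw [not_or, not_lt, not_lt] at hcon
  have : x ^ 2 + a₁ * x - a₂ = (x - α) * (x - β) := by
    linear_combination x * hsum - hprod
  rw [this, map_mul] at h
  exact absurd h (not_lt.mpr (one_le_mul_of_one_le_of_one_le hcon.1 hcon.2))

/-- A root of a monic quadratic congruence with integral coefficients is integral. -/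
theorem val_le_one_of_quadratic {a₁ a₂ x : K} (h₁ : v a₁ ≤ 1) (h₂ : v a₂ ≤ 1)
    (h : v (x ^ 2 + a₁ * x - a₂) ≤ 1) : v x ≤ 1 := by
  by_contra hcon
  rw [not_le] at hcon
  have hx2 : v x < v (x ^ 2) := by
    rw [map_pow, pow_two]
    exact lt_mul_of_one_lt_left (lt_trans zero_lt_one hcon) hcon
  have h1 : v (a₁ * x) < v (x ^ 2) := by
    rw [map_mul]
    exact lt_of_le_of_lt (mul_le_of_le_one_left' h₁) hx2
  have h2 : v a₂ < v (x ^ 2) := lt_of_le_of_lt h₂ (lt_trans hcon hx2)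
  have h3 : v (x ^ 2 + a₁ * x - a₂) = v (x ^ 2) := by
    rw [v.map_sub_eq_of_lt_left (by rw [v.map_add_eq_of_lt_left h1]; exact h2),
      v.map_add_eq_of_lt_left h1]
  rw [h3] at h
  exact absurd (lt_trans hcon hx2) (not_lt.mpr h)

section Cases

variable {a₁ a₂ a₄ α β l κ₁ κ₂ κ₃ : K} {c₁ c₂ c₃ : Q μ}

/-- swapping the two branches inverts the class -/
theorem IsC.swap {X η : K} {c : Q μ} (H : IsC v μ α β X η c) : IsC v μ β α X η c⁻¹ where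
  of_one h := by rw [H.of_one h, inv_one]
  of_mu h := by rw [H.of_mu h, cl_inv_eq v μ h]
  of_pos h := by rw [H.of_neg h, inv_inv]
  of_neg h := by rw [H.of_pos h]

/-- Case A with `l ≡ α`: no `κ` is a unit. -/
theorem triple_caseA_aux (hsum : α + β = -a₁) (hαβ : v (α - β) = 1) (hμ : v a₄ = μ)
    (h10 : κ₁ ≠ 0) (h20 : κ₂ ≠ 0) (h30 : κ₃ ≠ 0)
    (hb : a₄ = κ₁ * κ₂ * κ₃ * (κ₁ + κ₂ + κ₃ + 2 * l + a₁))
    (H1 : IsC v μ α β (κ₂ * κ₃) (l + κ₁) c₁) (H2 : IsC v μ α β (κ₁ * κ₃) (l + κ₂) c₂)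
    (H3 : IsC v μ α β (κ₁ * κ₂) (l + κ₃) c₃)
    (k1 : v κ₁ < 1) (k2 : v κ₂ < 1) (k3 : v κ₃ < 1) (h : v (l - α) < 1) : c₁ * c₂ * c₃ = 1 := by
  have hw : v (κ₁ + κ₂ + κ₃ + 2 * l + a₁) = 1 := by
    have e : κ₁ + κ₂ + κ₃ + 2 * l + a₁ = (κ₁ + κ₂ + κ₃ + 2 * (l - α)) + (α - β) := by
      linear_combination hsum
    rw [e, v.map_add_eq_of_lt_right, hαβ]
    rw [hαβ]
    exact v.map_add_lt (v.map_add_lt (v.map_add_lt k1 k2) k3)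
      (val_mul_lt_one_right val_two_le_one h)
  have hprod : v (κ₁ * κ₂ * κ₃) = μ := by
    rw [← hμ, hb, map_mul v (κ₁ * κ₂ * κ₃), hw, mul_one]
  have hsq : cl v μ (κ₂ * κ₃) * cl v μ (κ₁ * κ₃) * cl v μ (κ₁ * κ₂) = 1 := by
    have := cl_mul_self v μ hprod
    rw [cl_mul v μ (mul_ne_zero h10 h20) h30, cl_mul v μ h10 h20] at this
    rw [cl_mul v μ h20 h30, cl_mul v μ h10 h30, cl_mul v μ h10 h20, ← this]
    ac_rfl
  have e1 : v (l + κ₁ - α) < 1 := by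
    have : l + κ₁ - α = (l - α) + κ₁ := by ring
    rw [this]; exact v.map_add_lt h k1
  have e2 : v (l + κ₂ - α) < 1 := by
    have : l + κ₂ - α = (l - α) + κ₂ := by ring
    rw [this]; exact v.map_add_lt h k2
  have e3 : v (l + κ₃ - α) < 1 := by
    have : l + κ₃ - α = (l - α) + κ₃ := by ring
    rw [this]; exact v.map_add_lt h k3
  rw [H1.of_pos e1, H2.of_pos e2, H3.of_pos e3, hsq]

/-- Case B with `l ≡ α`: exactly `κ₃` is a unit. -/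
theorem triple_caseB_aux (hsum : α + β = -a₁) (hμ : v a₄ = μ)
    (h10 : κ₁ ≠ 0) (h20 : κ₂ ≠ 0) (h30 : κ₃ ≠ 0) (hl : v l ≤ 1) (h₁ : v a₁ ≤ 1)
    (hb : a₄ = κ₁ * κ₂ * κ₃ * (κ₁ + κ₂ + κ₃ + 2 * l + a₁))
    (H1 : IsC v μ α β (κ₂ * κ₃) (l + κ₁) c₁) (H2 : IsC v μ α β (κ₁ * κ₃) (l + κ₂) c₂)
    (H3 : IsC v μ α β (κ₁ * κ₂) (l + κ₃) c₃)
    (k1 : v κ₁ < 1) (k2 : v κ₂ < 1) (k3 : v κ₃ = 1) (h : v (l - α) < 1) : c₁ * c₂ * c₃ = 1 := by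
  have hX1 : cl v μ (κ₂ * κ₃) = cl v μ κ₂ := by
    rw [cl_mul v μ h20 h30, cl_eq_one v μ k3, mul_one]
  have hX2 : cl v μ (κ₁ * κ₃) = cl v μ κ₁ := by
    rw [cl_mul v μ h10 h30, cl_eq_one v μ k3, mul_one]
  have hX3 : cl v μ (κ₁ * κ₂) = cl v μ κ₁ * cl v μ κ₂ := cl_mul v μ h10 h20
  have hw1 : v (κ₁ + κ₂ + κ₃ + 2 * l + a₁) ≤ 1 := by
    refine v.map_add_le (v.map_add_le (v.map_add_le (v.map_add_le k1.le k2.le) k3.le) ?_) h₁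
    rw [map_mul]; exact mul_le_one' val_two_le_one hl
  have e1 : v (l + κ₁ - α) < 1 := by
    have : l + κ₁ - α = (l - α) + κ₁ := by ring
    rw [this]; exact v.map_add_lt h k1
  have e2 : v (l + κ₂ - α) < 1 := by
    have : l + κ₂ - α = (l - α) + κ₂ := by ring
    rw [this]; exact v.map_add_lt h k2
  rcases hw1.lt_or_eq with hw | hw
  · have e3 : v (l + κ₃ - β) < 1 := by
      have : l + κ₃ - β = (κ₁ + κ₂ + κ₃ + 2 * l + a₁) - (κ₁ + κ₂) - (l - α) := by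
        linear_combination -hsum
      rw [this]; exact v.map_sub_lt (v.map_sub_lt hw (v.map_add_lt k1 k2)) h
    rw [H1.of_pos e1, H2.of_pos e2, H3.of_neg e3, hX1, hX2, hX3, mul_comm (cl v μ κ₂)]
    exact mul_inv_cancel _
  · have hX3μ : v (κ₁ * κ₂) = μ := by
      rw [← hμ, hb, map_mul v (κ₁ * κ₂ * κ₃), hw, mul_one, map_mul v (κ₁ * κ₂), k3, mul_one]
    have hsq := cl_mul_self v μ hX3μ
    rw [H1.of_pos e1, H2.of_pos e2, H3.of_mu hX3μ, hX1, hX2, mul_comm (cl v μ κ₂), ← hX3, hsq]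

theorem val_q_lt_one (hE1 : κ₂ * κ₃ + κ₁ * κ₃ + κ₁ * κ₂ = l ^ 2 + a₁ * l - a₂)
    (k1 : v κ₁ < 1) (k2 : v κ₂ < 1) (k3 : v κ₃ ≤ 1) : v (l ^ 2 + a₁ * l - a₂) < 1 := by
  rw [← hE1]
  exact v.map_add_lt (v.map_add_lt (val_mul_lt_one_left k2 k3) (val_mul_lt_one_left k1 k3))
    (val_mul_lt_one_left k1 k2.le)

theorem eq_one_of_inv_mul_inv_mul_inv (h : c₁⁻¹ * c₂⁻¹ * c₃⁻¹ = 1) : c₁ * c₂ * c₃ = 1 := by
  rw [← mul_inv, ← mul_inv, inv_eq_one] at h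
  exact h

/-- Case A: no `κ` is a unit. -/
theorem triple_caseA (hsum : α + β = -a₁) (hprod : α * β = -a₂) (hαβ : v (α - β) = 1)
    (hμ : v a₄ = μ) (h10 : κ₁ ≠ 0) (h20 : κ₂ ≠ 0) (h30 : κ₃ ≠ 0)
    (hE1 : κ₂ * κ₃ + κ₁ * κ₃ + κ₁ * κ₂ = l ^ 2 + a₁ * l - a₂)
    (hb : a₄ = κ₁ * κ₂ * κ₃ * (κ₁ + κ₂ + κ₃ + 2 * l + a₁))
    (H1 : IsC v μ α β (κ₂ * κ₃) (l + κ₁) c₁) (H2 : IsC v μ α β (κ₁ * κ₃) (l + κ₂) c₂)
    (H3 : IsC v μ α β (κ₁ * κ₂) (l + κ₃) c₃)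
    (k1 : v κ₁ < 1) (k2 : v κ₂ < 1) (k3 : v κ₃ < 1) : c₁ * c₂ * c₃ = 1 := by
  rcases val_sub_or_sub_lt_one hsum hprod (val_q_lt_one hE1 k1 k2 k3.le) with h | h
  · exact triple_caseA_aux hsum hαβ hμ h10 h20 h30 hb H1 H2 H3 k1 k2 k3 h
  · exact eq_one_of_inv_mul_inv_mul_inv
      (triple_caseA_aux (by rw [add_comm]; exact hsum) (by rw [← Valuation.map_neg, neg_sub]; exact hαβ)
        hμ h10 h20 h30 hb H1.swap H2.swap H3.swap k1 k2 k3 h)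

/-- Case B: exactly `κ₃` is a unit. -/
theorem triple_caseB (hsum : α + β = -a₁) (hprod : α * β = -a₂) (hμ : v a₄ = μ)
    (h10 : κ₁ ≠ 0) (h20 : κ₂ ≠ 0) (h30 : κ₃ ≠ 0) (hl : v l ≤ 1) (h₁ : v a₁ ≤ 1)
    (hE1 : κ₂ * κ₃ + κ₁ * κ₃ + κ₁ * κ₂ = l ^ 2 + a₁ * l - a₂)
    (hb : a₄ = κ₁ * κ₂ * κ₃ * (κ₁ + κ₂ + κ₃ + 2 * l + a₁))
    (H1 : IsC v μ α β (κ₂ * κ₃) (l + κ₁) c₁) (H2 : IsC v μ α β (κ₁ * κ₃) (l + κ₂) c₂)
    (H3 : IsC v μ α β (κ₁ * κ₂) (l + κ₃) c₃)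
    (k1 : v κ₁ < 1) (k2 : v κ₂ < 1) (k3 : v κ₃ = 1) : c₁ * c₂ * c₃ = 1 := by
  rcases val_sub_or_sub_lt_one hsum hprod (val_q_lt_one hE1 k1 k2 k3.le) with h | h
  · exact triple_caseB_aux hsum hμ h10 h20 h30 hl h₁ hb H1 H2 H3 k1 k2 k3 h
  · exact eq_one_of_inv_mul_inv_mul_inv
      (triple_caseB_aux (by rw [add_comm]; exact hsum) hμ h10 h20 h30 hl h₁ hb
        H1.swap H2.swap H3.swap k1 k2 k3 h)

/-- Case C: exactly `κ₂`, `κ₃` are units. -/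
theorem triple_caseC (hsum : α + β = -a₁) (hprod : α * β = -a₂) (hμ : v a₄ = μ)
    (h10 : κ₁ ≠ 0) (h20 : κ₂ ≠ 0) (h30 : κ₃ ≠ 0) (hl : v l ≤ 1) (h₁ : v a₁ ≤ 1)
    (hE1 : κ₂ * κ₃ + κ₁ * κ₃ + κ₁ * κ₂ = l ^ 2 + a₁ * l - a₂)
    (hb : a₄ = κ₁ * κ₂ * κ₃ * (κ₁ + κ₂ + κ₃ + 2 * l + a₁))
    (H1 : IsC v μ α β (κ₂ * κ₃) (l + κ₁) c₁) (H2 : IsC v μ α β (κ₁ * κ₃) (l + κ₂) c₂)
    (H3 : IsC v μ α β (κ₁ * κ₂) (l + κ₃) c₃)
    (k1 : v κ₁ < 1) (k2 : v κ₂ = 1) (k3 : v κ₃ = 1) : c₁ * c₂ * c₃ = 1 := by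
  have hc1 : c₁ = 1 := H1.of_one (by rw [map_mul, k2, k3, one_mul])
  have hX2 : cl v μ (κ₁ * κ₃) = cl v μ κ₁ := by
    rw [cl_mul v μ h10 h30, cl_eq_one v μ k3, mul_one]
  have hX3 : cl v μ (κ₁ * κ₂) = cl v μ κ₁ := by
    rw [cl_mul v μ h10 h20, cl_eq_one v μ k2, mul_one]
  have hw1 : v (κ₁ + κ₂ + κ₃ + 2 * l + a₁) ≤ 1 := by
    refine v.map_add_le (v.map_add_le (v.map_add_le (v.map_add_le k1.le k2.le) k3.le) ?_) h₁
    rw [map_mul]; exact mul_le_one' val_two_le_one hl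
  rw [hc1, one_mul]
  rcases hw1.lt_or_eq with hw | hw
  · have hη2 : v ((l + κ₂) ^ 2 + a₁ * (l + κ₂) - a₂) < 1 := by
      have : (l + κ₂) ^ 2 + a₁ * (l + κ₂) - a₂
          = κ₂ * (κ₁ + κ₂ + κ₃ + 2 * l + a₁) + κ₁ * κ₃ := by
        linear_combination -hE1
      rw [this]
      exact v.map_add_lt (val_mul_lt_one_right k2.le hw) (val_mul_lt_one_left k1 k3.le)
    rcases val_sub_or_sub_lt_one hsum hprod hη2 with h | h
    · have e3 : v (l + κ₃ - β) < 1 := by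
        have : l + κ₃ - β = (κ₁ + κ₂ + κ₃ + 2 * l + a₁) - κ₁ - (l + κ₂ - α) := by
          linear_combination -hsum
        rw [this]; exact v.map_sub_lt (v.map_sub_lt hw k1) h
      rw [H2.of_pos h, H3.of_neg e3, hX2, hX3]
      exact mul_inv_cancel _
    · have e3 : v (l + κ₃ - α) < 1 := by
        have : l + κ₃ - α = (κ₁ + κ₂ + κ₃ + 2 * l + a₁) - κ₁ - (l + κ₂ - β) := by
          linear_combination -hsum
        rw [this]; exact v.map_sub_lt (v.map_sub_lt hw k1) h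
      rw [H2.of_neg h, H3.of_pos e3, hX2, hX3]
      exact inv_mul_cancel _
  · have hκ1 : v κ₁ = μ := by
      rw [← hμ, hb, map_mul v (κ₁ * κ₂ * κ₃), hw, mul_one, map_mul v (κ₁ * κ₂), k3, mul_one,
        map_mul, k2, mul_one]
    have hX2μ : v (κ₁ * κ₃) = μ := by rw [map_mul, k3, mul_one, hκ1]
    have hX3μ : v (κ₁ * κ₂) = μ := by rw [map_mul, k2, mul_one, hκ1]
    rw [H2.of_mu hX2μ, H3.of_mu hX3μ, hX2, hX3]
    exact cl_mul_self v μ hκ1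

/-- Case D: all `κ` are units. -/
theorem triple_caseD
    (H1 : IsC v μ α β (κ₂ * κ₃) (l + κ₁) c₁) (H2 : IsC v μ α β (κ₁ * κ₃) (l + κ₂) c₂)
    (H3 : IsC v μ α β (κ₁ * κ₂) (l + κ₃) c₃)
    (k1 : v κ₁ = 1) (k2 : v κ₂ = 1) (k3 : v κ₃ = 1) : c₁ * c₂ * c₃ = 1 := by
  rw [H1.of_one (by rw [map_mul, k2, k3, one_mul]), H2.of_one (by rw [map_mul, k1, k3, one_mul]),
    H3.of_one (by rw [map_mul, k1, k2, one_mul]), one_mul, one_mul]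

/-- The abstract additivity statement. -/
theorem triple_main (hsum : α + β = -a₁) (hprod : α * β = -a₂) (hαβ : v (α - β) = 1)
    (hμ : v a₄ = μ) (h10 : κ₁ ≠ 0) (h20 : κ₂ ≠ 0) (h30 : κ₃ ≠ 0) (hl : v l ≤ 1) (h₁ : v a₁ ≤ 1)
    (hE1 : κ₂ * κ₃ + κ₁ * κ₃ + κ₁ * κ₂ = l ^ 2 + a₁ * l - a₂)
    (hb : a₄ = κ₁ * κ₂ * κ₃ * (κ₁ + κ₂ + κ₃ + 2 * l + a₁))
    (H1 : IsC v μ α β (κ₂ * κ₃) (l + κ₁) c₁) (H2 : IsC v μ α β (κ₁ * κ₃) (l + κ₂) c₂)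
    (H3 : IsC v μ α β (κ₁ * κ₂) (l + κ₃) c₃)
    (k1 : v κ₁ ≤ 1) (k2 : v κ₂ ≤ 1) (k3 : v κ₃ ≤ 1) : c₁ * c₂ * c₃ = 1 := by
  rcases k1.lt_or_eq with k1 | k1 <;> rcases k2.lt_or_eq with k2 | k2 <;>
    rcases k3.lt_or_eq with k3 | k3
  · exact triple_caseA hsum hprod hαβ hμ h10 h20 h30 hE1 hb H1 H2 H3 k1 k2 k3
  · exact triple_caseB hsum hprod hμ h10 h20 h30 hl h₁ hE1 hb H1 H2 H3 k1 k2 k3
  · -- unit: κ₂ ; order (κ₁, κ₃, κ₂)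
    have := triple_caseB (κ₁ := κ₁) (κ₂ := κ₃) (κ₃ := κ₂) (c₁ := c₁) (c₂ := c₃) (c₃ := c₂)
      hsum hprod hμ h10 h30 h20 hl h₁ (by linear_combination hE1) (by rw [hb]; ring)
      (by rwa [mul_comm]) H3 H2 k1 k3 k2
    rw [← this]; ac_rfl
  · exact triple_caseC hsum hprod hμ h10 h20 h30 hl h₁ hE1 hb H1 H2 H3 k1 k2 k3
  · -- unit: κ₁ ; order (κ₂, κ₃, κ₁)
    have := triple_caseB (κ₁ := κ₂) (κ₂ := κ₃) (κ₃ := κ₁) (c₁ := c₂) (c₂ := c₃) (c₃ := c₁)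
      hsum hprod hμ h20 h30 h10 hl h₁ (by linear_combination hE1) (by rw [hb]; ring)
      (by rwa [mul_comm]) (by rwa [mul_comm]) H1 k2 k3 k1
    rw [← this]; ac_rfl
  · -- nonunit: κ₂ ; order (κ₂, κ₁, κ₃)
    have := triple_caseC (κ₁ := κ₂) (κ₂ := κ₁) (κ₃ := κ₃) (c₁ := c₂) (c₂ := c₁) (c₃ := c₃)
      hsum hprod hμ h20 h10 h30 hl h₁ (by linear_combination hE1) (by rw [hb]; ring)
      H2 H1 (by rwa [mul_comm]) k2 k1 k3
    rw [← this]; ac_rfl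
  · -- nonunit: κ₃ ; order (κ₃, κ₁, κ₂)
    have := triple_caseC (κ₁ := κ₃) (κ₂ := κ₁) (κ₃ := κ₂) (c₁ := c₃) (c₂ := c₁) (c₃ := c₂)
      hsum hprod hμ h30 h10 h20 hl h₁ (by linear_combination hE1) (by rw [hb]; ring)
      H3 (by rwa [mul_comm]) (by rwa [mul_comm]) k3 k1 k2
    rw [← this]; ac_rfl
  · exact triple_caseD H1 H2 H3 k1 k2 k3

end Cases

end Fermat.Agent.S13
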