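import Fermat.Agent.S13.Component

/-!
# S13: the component homomorphism for the `a₁`-model

`Y^2 + a₁ X Y = X^3 + a₂ X^2 + a₄ X` with `v a₄ < 1` and `v (a₁^2 + 4 a₂) = 1`
(multiplicative reduction, node at `(0,0)`, tangent slopes `α`, `β = -a₁ - α`).
On a subgroup `S` all of whose nonzero points satisfy `v a₄ ≤ v X ≤ 1` the signed class of `v X`
in `Γ₀ˣ / ⟨(v a₄)^2⟩` is a homomorphism.  No hypothesis on `v 2`.
-/

set_option autoImplicit false

namespace Fermat.Agent.S13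

open Fermat.Agent.S05 (Q cl cl_of_ne cl_mul cl_congr cl_eq_one cl_mul_self cl_inv_eq
  exists_zpow_of_cl_pow_eq_one val_mul_lt_one_left val_mul_lt_one_right)

namespace Model

variable {K : Type*} [Field K] {Γ₀ : Type*} [LinearOrderedCommGroupWithZero Γ₀]
  (v : Valuation K Γ₀) {a₁ a₂ a₄ : K} {G : Type*} [AddCommGroup G] (M : Model K a₁ a₂ a₄ G)
  (μ : Γ₀ˣ) (α : K)

open Classical in
/-- The signed component class of a point. -/
noncomputable def comp (P : G) : Q μ :=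
  if P = 0 then 1
  else if v (M.Y P / M.X P - α) < 1 then cl v μ (M.X P) else (cl v μ (M.X P))⁻¹

theorem comp_zero : M.comp v μ α 0 = 1 := by
  rw [comp, if_pos rfl]

variable {v μ α}

theorem comp_eq_or {P : G} (hP : P ≠ 0) :
    M.comp v μ α P = cl v μ (M.X P) ∨ M.comp v μ α P = (cl v μ (M.X P))⁻¹ := by
  rw [comp, if_neg hP]
  split_ifs
  · exact Or.inl rfl
  · exact Or.inr rfl

theorem isC_comp {β : K} (hαβ : v (α - β) = 1) {P : G} (hP : P ≠ 0) :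
    IsC v μ α β (M.X P) (M.Y P / M.X P) (M.comp v μ α P) where
  of_one h := by
    rcases M.comp_eq_or (v := v) (μ := μ) (α := α) hP with h' | h' <;> rw [h', cl_eq_one v μ h]
    exact inv_one
  of_mu h := by
    rcases M.comp_eq_or (v := v) (μ := μ) (α := α) hP with h' | h' <;> rw [h']
    exact cl_inv_eq v μ h
  of_pos h := by rw [comp, if_neg hP, if_pos h]
  of_neg h := by
    have : ¬ v (M.Y P / M.X P - α) < 1 := by
      intro h'
      have e : α - β = (M.Y P / M.X P - β) - (M.Y P / M.X P - α) := by ring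
      rw [e] at hαβ
      exact absurd hαβ (v.map_sub_lt h h').ne
    rw [comp, if_neg hP, if_neg this]

include M in
/-- `η = Y / X` satisfies `q(η) = X + a₄ / X`. -/
theorem eta_eqn {P : G} (hP : P ≠ 0) (hX : M.X P ≠ 0) :
    (M.Y P / M.X P) ^ 2 + a₁ * (M.Y P / M.X P) - a₂ = M.X P + a₄ / M.X P := by
  have h := M.eqn P hP
  field_simp
  linear_combination h

include M in
/-- `η = Y / X` is integral when `v a₄ ≤ v X ≤ 1`. -/
theorem val_eta_le_one (h₁ : v a₁ ≤ 1) (h₂ : v a₂ ≤ 1) {P : G} (hP : P ≠ 0) (hX : M.X P ≠ 0)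
    (hlo : v a₄ ≤ v (M.X P)) (hhi : v (M.X P) ≤ 1) : v (M.Y P / M.X P) ≤ 1 := by
  refine val_le_one_of_quadratic h₁ h₂ ?_
  rw [M.eta_eqn hP hX]
  refine v.map_add_le hhi ?_
  rw [map_div₀]
  exact (div_le_one₀ (zero_lt_iff.mpr (v.ne_zero_iff.mpr hX))).mpr hlo

include M in
/-- For a point with `v a₄ ≤ v X ≤ 1` one of the four defining cases of `IsC` applies. -/
theorem good_cases {β : K} (hsum : α + β = -a₁) (hprod : α * β = -a₂) (hμ : v a₄ = μ)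
    {P : G} (hP : P ≠ 0) (hlo : v a₄ ≤ v (M.X P)) (hhi : v (M.X P) ≤ 1) :
    v (M.X P) = 1 ∨ v (M.X P) = μ ∨ v (M.Y P / M.X P - α) < 1 ∨ v (M.Y P / M.X P - β) < 1 := by
  have hvX0 : v (M.X P) ≠ 0 := by
    intro h
    rw [h, hμ] at hlo
    exact μ.ne_zero (le_zero_iff.mp hlo)
  have hX0 : M.X P ≠ 0 := v.ne_zero_iff.mp hvX0
  rcases hhi.lt_or_eq with h4 | h4
  · rcases hlo.lt_or_eq with h3 | h3
    · right; right
      apply val_sub_or_sub_lt_one hsum hprod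
      rw [M.eta_eqn hP hX0]
      refine v.map_add_lt h4 ?_
      rw [map_div₀]
      exact (div_lt_one₀ (zero_lt_iff.mpr hvX0)).mpr h3
    · right; left
      rw [← h3, hμ]
  · exact Or.inl h4

theorem comp_neg {β : K} (hsum : α + β = -a₁) (hprod : α * β = -a₂) (hαβ : v (α - β) = 1)
    (hμ : v a₄ = μ) {P : G} (hP : P ≠ 0) (hlo : v a₄ ≤ v (M.X P)) (hhi : v (M.X P) ≤ 1) :
    M.comp v μ α (-P) = (M.comp v μ α P)⁻¹ := by
  have hnP : -P ≠ 0 := neg_ne_zero.mpr hP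
  have hvX0 : v (M.X P) ≠ 0 := by
    intro h
    rw [h, hμ] at hlo
    exact μ.ne_zero (le_zero_iff.mp hlo)
  have hX0 : M.X P ≠ 0 := v.ne_zero_iff.mp hvX0
  have H := M.isC_comp (μ := μ) hαβ hP
  have H' := M.isC_comp (μ := μ) hαβ hnP
  rw [M.X_neg P hP, M.Y_neg P hP] at H'
  rcases M.good_cases hsum hprod hμ hP hlo hhi with h | h | h | h
  · rw [H.of_one h, H'.of_one h, inv_one]
  · rw [H.of_mu h, H'.of_mu h, cl_inv_eq v μ h]
  · have : v ((-M.Y P - a₁ * M.X P) / M.X P - β) < 1 := by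
      have e1 : (-M.Y P - a₁ * M.X P) / M.X P - β = -(M.Y P / M.X P - α) := by
        field_simp
        linear_combination (-M.X P) * hsum
      rwa [e1, Valuation.map_neg]
    rw [H.of_pos h, H'.of_neg this]
  · have : v ((-M.Y P - a₁ * M.X P) / M.X P - α) < 1 := by
      have e1 : (-M.Y P - a₁ * M.X P) / M.X P - α = -(M.Y P / M.X P - β) := by
        field_simp
        linear_combination (-M.X P) * hsum
      rwa [e1, Valuation.map_neg]
    rw [H.of_neg h, H'.of_pos this, inv_inv]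

theorem comp_triple {β : K} (h₁ : v a₁ ≤ 1) (h₂ : v a₂ ≤ 1)
    (hsum : α + β = -a₁) (hprod : α * β = -a₂) (hαβ : v (α - β) = 1) (hμ : v a₄ = μ)
    {P₁ P₂ P₃ : G} (h1 : P₁ ≠ 0) (h2 : P₂ ≠ 0) (h3 : P₃ ≠ 0)
    (lo1 : v a₄ ≤ v (M.X P₁)) (hi1 : v (M.X P₁) ≤ 1)
    (lo2 : v a₄ ≤ v (M.X P₂)) (hi2 : v (M.X P₂) ≤ 1)
    (lo3 : v a₄ ≤ v (M.X P₃)) (hi3 : v (M.X P₃) ≤ 1) (hsum0 : P₁ + P₂ + P₃ = 0) :
    M.comp v μ α P₁ * M.comp v μ α P₂ * M.comp v μ α P₃ = 1 := by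
  obtain ⟨l, n, hY1, hY2, hY3, hE1, hE2, hE3⟩ := M.line P₁ P₂ P₃ h1 h2 h3 hsum0
  have hne : ∀ {R : G}, v a₄ ≤ v (M.X R) → M.X R ≠ 0 := by
    intro R hlo
    apply v.ne_zero_iff.mp
    intro h
    rw [h, hμ] at hlo
    exact μ.ne_zero (le_zero_iff.mp hlo)
  have x1 := hne lo1
  have x2 := hne lo2
  have x3 := hne lo3
  have hl : v l ≤ 1 := by
    refine val_le_one_of_quadratic h₁ h₂ ?_
    rw [← hE1]
    exact v.map_add_le (v.map_add_le hi1 hi2) hi3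
  have hn : n ≠ 0 := by
    intro h
    rw [h] at hE3
    have : M.X P₁ * M.X P₂ * M.X P₃ ≠ 0 := mul_ne_zero (mul_ne_zero x1 x2) x3
    exact this (by rw [hE3]; ring)
  have hη : ∀ {R : G}, R ≠ 0 → v a₄ ≤ v (M.X R) → v (M.X R) ≤ 1 → M.X R ≠ 0 →
      M.Y R = l * M.X R + n → M.Y R / M.X R = l + n / M.X R ∧ v (n / M.X R) ≤ 1 := by
    intro R hR hlo hhi hx hY
    have h1 : M.Y R / M.X R = l + n / M.X R := by
      rw [hY]; field_simp
    refine ⟨h1, ?_⟩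
    have h2 : n / M.X R = M.Y R / M.X R - l := by rw [h1]; ring
    rw [h2]
    exact v.map_sub_le (M.val_eta_le_one h₁ h₂ hR hx hlo hhi) hl
  obtain ⟨e1, k1⟩ := hη h1 lo1 hi1 x1 hY1
  obtain ⟨e2, k2⟩ := hη h2 lo2 hi2 x2 hY2
  obtain ⟨e3, k3⟩ := hη h3 lo3 hi3 x3 hY3
  have H1 := M.isC_comp (μ := μ) hαβ h1
  have H2 := M.isC_comp (μ := μ) hαβ h2
  have H3 := M.isC_comp (μ := μ) hαβ h3
  have X1 : M.X P₁ = (n / M.X P₂) * (n / M.X P₃) := by
    field_simp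
    linear_combination hE3
  have X2 : M.X P₂ = (n / M.X P₁) * (n / M.X P₃) := by
    field_simp
    linear_combination hE3
  have X3 : M.X P₃ = (n / M.X P₁) * (n / M.X P₂) := by
    field_simp
    linear_combination hE3
  rw [e1] at H1
  rw [e2] at H2
  rw [e3] at H3
  refine triple_main (a₁ := a₁) (a₂ := a₂) (a₄ := a₄) (l := l) (κ₁ := n / M.X P₁)
    (κ₂ := n / M.X P₂) (κ₃ := n / M.X P₃) hsum hprod hαβ hμ (div_ne_zero hn x1) (div_ne_zero hn x2)
    (div_ne_zero hn x3) hl h₁ ?_ ?_ (X1 ▸ H1) (X2 ▸ H2) (X3 ▸ H3) k1 k2 k3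
  · rw [← X1, ← X2, ← X3, ← hE1]
  · have hnn : n / M.X P₁ * (n / M.X P₂) * (n / M.X P₃) = n := by
      field_simp
      linear_combination -hE3
    rw [hnn]
    have : n * (n / M.X P₁ + n / M.X P₂ + n / M.X P₃) =
        M.X P₁ * M.X P₂ + M.X P₁ * M.X P₃ + M.X P₂ * M.X P₃ := by
      field_simp
      rw [← hE3]
      ring
    linear_combination -hE2 - this

section Subgroup

variable {β : K} {S : AddSubgroup G}

theorem comp_add (h₁ : v a₁ ≤ 1) (h₂ : v a₂ ≤ 1)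
    (hsum : α + β = -a₁) (hprod : α * β = -a₂) (hαβ : v (α - β) = 1) (hμ : v a₄ = μ)
    (hS : ∀ P ∈ S, P ≠ 0 → v a₄ ≤ v (M.X P) ∧ v (M.X P) ≤ 1)
    {P R : G} (hPS : P ∈ S) (hRS : R ∈ S) :
    M.comp v μ α (P + R) = M.comp v μ α P * M.comp v μ α R := by
  by_cases hP : P = 0
  · rw [hP, zero_add, comp_zero, one_mul]
  by_cases hR : R = 0
  · rw [hR, add_zero, comp_zero, mul_one]
  by_cases hPR : P + R = 0
  · have : R = -P := eq_neg_of_add_eq_zero_right hPR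
    rw [hPR, comp_zero, this, M.comp_neg hsum hprod hαβ hμ hP (hS P hPS hP).1 (hS P hPS hP).2,
      mul_inv_cancel]
  · have hPRS : P + R ∈ S := S.add_mem hPS hRS
    have hn := hS _ hPRS hPR
    have h := M.comp_triple h₁ h₂ hsum hprod hαβ hμ hP hR (neg_ne_zero.mpr hPR)
      (hS P hPS hP).1 (hS P hPS hP).2 (hS R hRS hR).1 (hS R hRS hR).2
      (by rw [M.X_neg _ hPR]; exact hn.1) (by rw [M.X_neg _ hPR]; exact hn.2) (add_neg_cancel _)
    rw [M.comp_neg hsum hprod hαβ hμ hPR hn.1 hn.2] at h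
    exact (mul_inv_eq_one.mp h).symm

theorem comp_nsmul (h₁ : v a₁ ≤ 1) (h₂ : v a₂ ≤ 1)
    (hsum : α + β = -a₁) (hprod : α * β = -a₂) (hαβ : v (α - β) = 1) (hμ : v a₄ = μ)
    (hS : ∀ P ∈ S, P ≠ 0 → v a₄ ≤ v (M.X P) ∧ v (M.X P) ≤ 1)
    {P : G} (hPS : P ∈ S) (k : ℕ) :
    M.comp v μ α (k • P) = M.comp v μ α P ^ k := by
  induction k with
  | zero => rw [zero_smul, comp_zero, pow_zero]
  | succ k ih =>
    rw [succ_nsmul, M.comp_add h₁ h₂ hsum hprod hαβ hμ hS (S.nsmul_mem hPS k) hPS, ih]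
    exact (pow_succ _ k).symm

end Subgroup

include M in
/-- In the multiplicative case, `(v X_P)^p` is an even power of `v a₄` for a point `P` killed by
`p`, provided all nonzero points killed by `p` satisfy `v a₄ ≤ v X ≤ 1`. -/
theorem exists_val_X_pow_eq_zpow_of_bounds (h₁ : v a₁ ≤ 1) (h₂ : v a₂ ≤ 1) (h₄0 : a₄ ≠ 0)
    (hb₂ : v (a₁ ^ 2 + 4 * a₂) = 1) (α : K) (hα : α ^ 2 + a₁ * α - a₂ = 0) {p : ℕ}
    (hS : ∀ P : G, P ≠ 0 → p • P = 0 → v a₄ ≤ v (M.X P) ∧ v (M.X P) ≤ 1)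
    {P : G} (hP : P ≠ 0) (hpP : p • P = 0) : ∃ m : ℤ, v (M.X P) ^ p = v a₄ ^ (2 * m) := by
  set β : K := -a₁ - α with hβ
  have hsum : α + β = -a₁ := by rw [hβ]; ring
  have hprod : α * β = -a₂ := by rw [hβ]; linear_combination -hα
  have hαβ : v (α - β) = 1 := by
    have e : (α - β) ^ 2 = a₁ ^ 2 + 4 * a₂ := by rw [hβ]; linear_combination 4 * hα
    have := congrArg v e
    rw [map_pow, hb₂] at this
    exact (pow_left_inj (two_ne_zero)).mp (by rw [this, one_pow])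
  have hb0 : v a₄ ≠ 0 := v.ne_zero_iff.mpr h₄0
  set μ : Γ₀ˣ := Units.mk0 (v a₄) hb0 with hμdef
  have hμ : v a₄ = μ := rfl
  let S : AddSubgroup G := (nsmulAddMonoidHom (α := G) p).ker
  have hmem : ∀ R : G, R ∈ S ↔ p • R = 0 := fun R => by
    simp [S, AddMonoidHom.mem_ker]
  have hS' : ∀ R ∈ S, R ≠ 0 → v a₄ ≤ v (M.X R) ∧ v (M.X R) ≤ 1 :=
    fun R hR hR0 => hS R hR0 ((hmem R).mp hR)
  have hX0 : M.X P ≠ 0 := by
    apply v.ne_zero_iff.mp
    intro h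
    have hlo := (hS P hP hpP).1
    rw [h] at hlo
    exact hb0 (le_zero_iff.mp hlo)
  have hpow : M.comp v μ α P ^ p = 1 := by
    rw [← M.comp_nsmul h₁ h₂ hsum hprod hαβ hμ hS' ((hmem P).mpr hpP) p, hpP, comp_zero]
  have hcl : cl v μ (M.X P) ^ p = 1 := by
    rcases M.comp_eq_or (v := v) (μ := μ) (α := α) hP with h | h
    · rwa [h] at hpow
    · rw [h, inv_pow, inv_eq_one] at hpow
      exact hpow
  obtain ⟨k, hk⟩ := exists_zpow_of_cl_pow_eq_one v μ hX0 hcl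
  exact ⟨k, hk⟩

end Model

end Fermat.Agent.S13
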