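import Fermat.Agent.S13.FreyDefs
import Fermat.Agent.S13.FreyTorsion

/-!
# S13: the Galois action on `Vp` factors through a finite extension

`frey_open_of_finite`: if `Vp P` is finite then there is a finite extension `L / ℚ` inside `ℚ̄`
whose fixing subgroup acts trivially on `Vp P` (adjoin all coordinates of the points of `Vp P`).
-/

set_option autoImplicit false

open WeierstrassCurve WeierstrassCurve.Affine WeierstrassCurve.Affine.Point

namespace Fermat.Agent.S13

local notation "Qbar" => AlgebraicClosure ℚ

/-- the finite set of all coordinates of the points of `Vp P` -/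
noncomputable def coordSet (P : FreyPackage) : Set Qbar :=
  Set.range (fun x : Vp P => (M0 P).X (x : EPt P)) ∪ Set.range (fun x : Vp P => (M0 P).Y (x : EPt P))

theorem coordSet_finite (P : FreyPackage) [Finite (Vp P)] : (coordSet P).Finite :=
  (Set.finite_range _).union (Set.finite_range _)

theorem isIntegral_Qbar (x : Qbar) : IsIntegral ℚ x := by
  have h : IsAlgebraic ℚ x := by
    have := AlgebraicClosure.isAlgebraic ℚ
    exact this.isAlgebraic x
  exact h.isIntegral

theorem frey_open_of_finite (P : FreyPackage) [Finite (Vp P)] :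
    ∃ L : IntermediateField ℚ (AlgebraicClosure ℚ), FiniteDimensional ℚ L ∧
      ∀ σ ∈ L.fixingSubgroup, ∀ x : Vp P, σ • x = x := by
  refine ⟨IntermediateField.adjoin ℚ (coordSet P), ?_, ?_⟩
  · have : Finite (coordSet P) := (coordSet_finite P).to_subtype
    exact IntermediateField.finiteDimensional_adjoin (fun x _ => isIntegral_Qbar x)
  · intro σ hσ x
    rw [IntermediateField.mem_fixingSubgroup_iff] at hσ
    apply Subtype.ext
    rw [coe_smul_Vp]
    by_cases hx : (x : EPt P) = 0
    · rw [hx]
      exact (actE P σ).map_zero
    · refine (M0 P).ext _ _ (actE_ne_zero P σ _ hx) hx ?_ ?_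
      · rw [M0_X_smul]
        exact hσ _ (IntermediateField.subset_adjoin _ _ (Or.inl ⟨x, rfl⟩))
      · rw [M0_Y_smul]
        exact hσ _ (IntermediateField.subset_adjoin _ _ (Or.inr ⟨x, rfl⟩))

/-- There is a finite extension `L / ℚ` whose fixing subgroup acts trivially on `Vp P`. -/
theorem frey_open (P : FreyPackage) :
    ∃ L : IntermediateField ℚ (AlgebraicClosure ℚ), FiniteDimensional ℚ L ∧
      ∀ σ ∈ L.fixingSubgroup, ∀ x : Vp P, σ • x = x :=
  have := frey_finite P
  frey_open_of_finite P

end Fermat.Agent.S13
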