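import Fermat.Agent.S13.Model

/-!
# S13-T4: the kernel of reduction `E_1` is a subgroup

Pure valuation estimates on the Vieta relations `Model.line`.
-/

set_option autoImplicit false

namespace Fermat.Agent.S13

namespace Model

variable {K : Type*} [Field K] {Γ₀ : Type*} [LinearOrderedCommGroupWithZero Γ₀]
  (v : Valuation K Γ₀) {a₁ a₂ a₄ : K} {G : Type*} [AddCommGroup G] (M : Model K a₁ a₂ a₄ G)

/-- Abstract valuation estimate behind `inE1_add`: in a Vieta triple with integral coefficients,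
if two of the `X`-coordinates are non-integral then so is the third one. -/
theorem one_lt_of_vieta (h₁ : v a₁ ≤ 1) (h₂ : v a₂ ≤ 1) (h₄ : v a₄ ≤ 1)
    {x₁ x₂ x₃ l n : K} (hx₁ : 1 < v x₁) (hx₂ : 1 < v x₂)
    (e₁ : x₁ + x₂ + x₃ = l ^ 2 + a₁ * l - a₂)
    (e₂ : x₁ * x₂ + x₁ * x₃ + x₂ * x₃ = a₄ - 2 * l * n - a₁ * n)
    (e₃ : x₁ * x₂ * x₃ = n ^ 2) : 1 < v x₃ := by
  by_contra hx₃
  rw [not_lt] at hx₃
  have hr1pos : 0 < v x₁ := lt_trans zero_lt_one hx₁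
  have hr2pos : 0 < v x₂ := lt_trans zero_lt_one hx₂
  -- `R = v x₁ * v x₂`
  have hR1 : v x₁ < v x₁ * v x₂ := by
    calc v x₁ = v x₁ * 1 := (mul_one _).symm
      _ < v x₁ * v x₂ := by gcongr
  have hR2 : v x₂ < v x₁ * v x₂ := by
    calc v x₂ = 1 * v x₂ := (one_mul _).symm
      _ < v x₁ * v x₂ := by gcongr
  have hR : 1 < v x₁ * v x₂ := lt_trans hx₁ hR1
  have hRpos : 0 < v x₁ * v x₂ := lt_trans zero_lt_one hR
  -- Step 1
  have h13 : v (x₁ * x₃) < v x₁ * v x₂ := by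
    rw [map_mul]
    calc v x₁ * v x₃ ≤ v x₁ * 1 := by gcongr
      _ = v x₁ := mul_one _
      _ < _ := hR1
  have h23 : v (x₂ * x₃) < v x₁ * v x₂ := by
    rw [map_mul]
    calc v x₂ * v x₃ ≤ v x₂ * 1 := by gcongr
      _ = v x₂ := mul_one _
      _ < _ := hR2
  have hE2 : v (x₁ * x₂ + x₁ * x₃ + x₂ * x₃) = v x₁ * v x₂ := by
    have : v (x₁ * x₃ + x₂ * x₃) < v (x₁ * x₂) := by
      rw [map_mul v x₁ x₂]
      exact lt_of_le_of_lt (v.map_add _ _) (max_lt h13 h23)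
    rw [add_assoc, Valuation.map_add_eq_of_lt_left v this, map_mul]
  -- Step 2
  have hnm : v n * v (2 * l + a₁) = v x₁ * v x₂ := by
    have hn : n * (2 * l + a₁) = a₄ - (x₁ * x₂ + x₁ * x₃ + x₂ * x₃) := by rw [e₂]; ring
    rw [← map_mul, hn, Valuation.map_sub_eq_of_lt_right v (by rw [hE2]; exact lt_of_le_of_lt h₄ hR),
      hE2]
  -- Step 3
  have hn2 : v n ^ 2 ≤ v x₁ * v x₂ := by
    rw [← map_pow, ← e₃, map_mul, map_mul]
    calc v x₁ * v x₂ * v x₃ ≤ v x₁ * v x₂ * 1 := by gcongr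
      _ = _ := mul_one _
  -- Step 4
  have hm2 : v x₁ * v x₂ ≤ v (2 * l + a₁) ^ 2 := by
    have h : (v x₁ * v x₂) * (v x₁ * v x₂) ≤ (v x₁ * v x₂) * v (2 * l + a₁) ^ 2 := by
      calc (v x₁ * v x₂) * (v x₁ * v x₂) = (v n * v (2 * l + a₁)) * (v n * v (2 * l + a₁)) := by
            rw [hnm]
        _ = v n ^ 2 * v (2 * l + a₁) ^ 2 := by rw [sq, sq, mul_mul_mul_comm]
        _ ≤ (v x₁ * v x₂) * v (2 * l + a₁) ^ 2 := by gcongr
    exact le_of_mul_le_mul_left h hRpos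
  -- Step 5
  have hm1 : 1 < v (2 * l + a₁) := by
    by_contra hcon
    rw [not_lt] at hcon
    have : v (2 * l + a₁) ^ 2 ≤ 1 := pow_le_one' hcon 2
    exact absurd (lt_of_lt_of_le hR (le_trans hm2 this)) (lt_irrefl _)
  have hv2 : v (2 : K) ≤ 1 := by
    have : (2 : K) = 1 + 1 := by norm_num
    rw [this]
    exact le_trans (v.map_add _ _) (by simp)
  have hml : v (2 * l + a₁) ≤ v l := by
    have h := v.map_add (2 * l) a₁
    rcases le_max_iff.mp h with h | h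
    · refine le_trans h ?_
      rw [map_mul]
      calc v 2 * v l ≤ 1 * v l := by gcongr
        _ = v l := one_mul _
    · exact absurd (lt_of_lt_of_le hm1 (le_trans h h₁)) (lt_irrefl _)
  have hl1 : 1 < v l := lt_of_lt_of_le hm1 hml
  have hlpos : 0 < v l := lt_trans zero_lt_one hl1
  have hl2 : v x₁ * v x₂ ≤ v l ^ 2 := le_trans hm2 (by gcongr)
  -- Step 6
  have hll : v l < v l ^ 2 := by
    calc v l = v l * 1 := (mul_one _).symm
      _ < v l * v l := by gcongr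
      _ = v l ^ 2 := (sq _).symm
  have hq : v (l ^ 2 + a₁ * l - a₂) = v l ^ 2 := by
    have h1 : v (a₁ * l) < v (l ^ 2) := by
      rw [map_mul, map_pow]
      calc v a₁ * v l ≤ 1 * v l := by gcongr
        _ = v l := one_mul _
        _ < _ := hll
    have h2 : v a₂ < v (l ^ 2 + a₁ * l) := by
      rw [Valuation.map_add_eq_of_lt_left v h1, map_pow]
      exact lt_of_le_of_lt h₂ (lt_trans hl1 hll)
    rw [Valuation.map_sub_eq_of_lt_left v h2, Valuation.map_add_eq_of_lt_left v h1, map_pow]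
  -- Step 7
  have hE1 : v (x₁ + x₂ + x₃) < v x₁ * v x₂ := by
    refine lt_of_le_of_lt (v.map_add _ _) (max_lt ?_ (lt_of_le_of_lt hx₃ hR))
    exact lt_of_le_of_lt (v.map_add _ _) (max_lt hR1 hR2)
  rw [e₁, hq] at hE1
  exact absurd (lt_of_lt_of_le hE1 hl2) (lt_irrefl _)

theorem inE1_zero : M.InE1 v 0 := Or.inl rfl

theorem inE1_neg {P : G} (h : M.InE1 v P) : M.InE1 v (-P) := by
  rcases h with rfl | h
  · left; simp
  · by_cases hP : P = 0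
    · left; simp [hP]
    · right; rwa [M.X_neg P hP]

theorem inE1_add (h₁ : v a₁ ≤ 1) (h₂ : v a₂ ≤ 1) (h₄ : v a₄ ≤ 1) {P Q : G}
    (hP : M.InE1 v P) (hQ : M.InE1 v Q) : M.InE1 v (P + Q) := by
  by_cases hP0 : P = 0
  · rwa [hP0, zero_add]
  by_cases hQ0 : Q = 0
  · rwa [hQ0, add_zero]
  by_cases hPQ : P + Q = 0
  · exact Or.inl hPQ
  obtain ⟨l, n, -, -, -, e₁, e₂, e₃⟩ := M.line_add hP0 hQ0 hPQ
  exact Or.inr (one_lt_of_vieta v h₁ h₂ h₄ (hP.resolve_left hP0) (hQ.resolve_left hQ0) e₁ e₂ e₃)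

theorem inE1_sub (h₁ : v a₁ ≤ 1) (h₂ : v a₂ ≤ 1) (h₄ : v a₄ ≤ 1) {P Q : G}
    (hP : M.InE1 v P) (hQ : M.InE1 v Q) : M.InE1 v (P - Q) := by
  rw [sub_eq_add_neg]
  exact M.inE1_add v h₁ h₂ h₄ hP (M.inE1_neg v hQ)

theorem inE1_nsmul (h₁ : v a₁ ≤ 1) (h₂ : v a₂ ≤ 1) (h₄ : v a₄ ≤ 1) {P : G}
    (hP : M.InE1 v P) (k : ℕ) : M.InE1 v (k • P) := by
  induction k with
  | zero => rw [zero_smul]; exact M.inE1_zero v
  | succ k ih => rw [succ_nsmul]; exact M.inE1_add v h₁ h₂ h₄ ih hP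

theorem inE1_zsmul (h₁ : v a₁ ≤ 1) (h₂ : v a₂ ≤ 1) (h₄ : v a₄ ≤ 1) {P : G}
    (hP : M.InE1 v P) (k : ℤ) : M.InE1 v (k • P) := by
  cases k with
  | ofNat k => simpa using M.inE1_nsmul v h₁ h₂ h₄ hP k
  | negSucc k =>
    rw [negSucc_zsmul]
    exact M.inE1_neg v (M.inE1_nsmul v h₁ h₂ h₄ hP (k + 1))

/-- The kernel of reduction as an additive subgroup. -/
def E1 (h₁ : v a₁ ≤ 1) (h₂ : v a₂ ≤ 1) (h₄ : v a₄ ≤ 1) : AddSubgroup G where
  carrier := {P | M.InE1 v P}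
  zero_mem' := M.inE1_zero v
  add_mem' := fun hP hQ => M.inE1_add v h₁ h₂ h₄ hP hQ
  neg_mem' := fun hP => M.inE1_neg v hP

theorem mem_E1 (h₁ : v a₁ ≤ 1) (h₂ : v a₂ ≤ 1) (h₄ : v a₄ ≤ 1) {P : G} :
    P ∈ M.E1 v h₁ h₂ h₄ ↔ M.InE1 v P := Iff.rfl

end Model

end Fermat.Agent.S13
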