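import Fermat.Agent.S13.Model

/-!
# S13-T5: two integral points with the same nonsingular reduction differ by an element of the
kernel of reduction; nonsingularity criteria.
-/

set_option autoImplicit false

namespace Fermat.Agent.S13

namespace Red

variable {K : Type*} [Field K] {Γ₀ : Type*} [LinearOrderedCommGroupWithZero Γ₀] (v : Valuation K Γ₀)

theorem le_add {x y : K} (hx : v x ≤ 1) (hy : v y ≤ 1) : v (x + y) ≤ 1 :=
  (v.map_add x y).trans (max_le hx hy)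

theorem le_sub {x y : K} (hx : v x ≤ 1) (hy : v y ≤ 1) : v (x - y) ≤ 1 :=
  (v.map_sub x y).trans (max_le hx hy)

theorem le_neg {x : K} (hx : v x ≤ 1) : v (-x) ≤ 1 := by rwa [v.map_neg]

theorem le_mul {x y : K} (hx : v x ≤ 1) (hy : v y ≤ 1) : v (x * y) ≤ 1 := by
  rw [v.map_mul]; exact mul_le_one' hx hy

theorem le_pow {x : K} (hx : v x ≤ 1) (n : ℕ) : v (x ^ n) ≤ 1 := by
  rw [v.map_pow]; exact pow_le_one' hx n

theorem le_nat (n : ℕ) : v (n : K) ≤ 1 := by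
  induction n with
  | zero => simp
  | succ n ih => push_cast; exact le_add v ih (by simp)

theorem le_ofNat (n : ℕ) [n.AtLeastTwo] : v (OfNat.ofNat n : K) ≤ 1 := by
  have := le_nat v n
  rwa [← Nat.cast_ofNat (R := K)]

theorem lt_add {x y : K} (hx : v x < 1) (hy : v y < 1) : v (x + y) < 1 :=
  v.map_add_lt hx hy

theorem lt_sub {x y : K} (hx : v x < 1) (hy : v y < 1) : v (x - y) < 1 :=
  v.map_sub_lt hx hy

theorem lt_neg {x : K} (hx : v x < 1) : v (-x) < 1 := by rwa [v.map_neg]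

theorem lt_mul_left {x y : K} (hx : v x < 1) (hy : v y ≤ 1) : v (x * y) < 1 := by
  rw [v.map_mul]; exact mul_lt_one_of_lt_of_le hx hy

theorem lt_mul_right {x y : K} (hx : v x ≤ 1) (hy : v y < 1) : v (x * y) < 1 := by
  rw [mul_comm]; exact lt_mul_left v hy hx

theorem lt_pow {x : K} (hx : v x < 1) {n : ℕ} (hn : n ≠ 0) : v (x ^ n) < 1 := by
  rw [v.map_pow]; exact pow_lt_one' hx hn

/-- The valuation ring is integrally closed (quadratic case). -/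
theorem le_one_of_sq_add_mul {l b : K} (hb : v b ≤ 1) (hc : v (l ^ 2 + b * l) ≤ 1) : v l ≤ 1 := by
  by_contra hl
  rw [not_le] at hl
  have h1 : v (b * l) < v (l ^ 2) := by
    rw [v.map_mul, v.map_pow, sq]
    have hl0 : 0 < v l := lt_trans zero_lt_one hl
    calc v b * v l ≤ 1 * v l := by gcongr
      _ = v l := one_mul _
      _ = 1 * v l := (one_mul _).symm
      _ < v l * v l := by gcongr
  have h2 : v (l ^ 2 + b * l) = v (l ^ 2) := v.map_add_eq_of_lt_left h1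
  rw [h2, v.map_pow] at hc
  exact absurd hc (not_le.mpr (one_lt_pow' hl two_ne_zero))

end Red

namespace Model

open Red

variable {K : Type*} [Field K] {Γ₀ : Type*} [LinearOrderedCommGroupWithZero Γ₀] (v : Valuation K Γ₀)
  {a₁ a₂ a₄ : K} {G : Type*} [AddCommGroup G] (M : Model K a₁ a₂ a₄ G)

/-- `Y` is integral as soon as `X` is. -/
theorem val_Y_le_one (h₁ : v a₁ ≤ 1) (h₂ : v a₂ ≤ 1) (h₄ : v a₄ ≤ 1) {P : G} (hP : P ≠ 0)
    (hXP : v (M.X P) ≤ 1) : v (M.Y P) ≤ 1 := by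
  apply le_one_of_sq_add_mul v (b := a₁ * M.X P) (le_mul v h₁ hXP)
  rw [M.eqn P hP]
  exact le_add v (le_add v (le_pow v hXP 3) (le_mul v h₂ (le_pow v hXP 2))) (le_mul v h₄ hXP)

set_option linter.unusedVariables false in
/-- Two integral points with the same nonsingular reduction differ by an element of the kernel
of reduction. -/
theorem inE1_sub_of_congr (h₁ : v a₁ ≤ 1) (h₂ : v a₂ ≤ 1) (h₄ : v a₄ ≤ 1) {P Q : G} (hP : P ≠ 0)
    (hQ : Q ≠ 0) (hXP : v (M.X P) ≤ 1) (hX : v (M.X Q - M.X P) < 1) (hY : v (M.Y Q - M.Y P) < 1)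
    (hns : v (2 * M.Y P + a₁ * M.X P) = 1 ∨
      v (3 * M.X P ^ 2 + 2 * a₂ * M.X P + a₄ - a₁ * M.Y P) = 1) : M.InE1 v (Q - P) := by
  by_contra hcon
  unfold InE1 at hcon
  rw [not_or, not_lt] at hcon
  obtain ⟨hD, hXD⟩ := hcon
  have hsum : Q + -P + -(Q - P) = 0 := by abel
  obtain ⟨l, n, e1, e2, -, s1, s2, -⟩ :=
    M.line Q (-P) (-(Q - P)) hQ (neg_ne_zero.mpr hP) (neg_ne_zero.mpr hD) hsum
  rw [M.X_neg _ hP, M.X_neg _ hD] at s1 s2
  rw [M.X_neg _ hP, M.Y_neg _ hP] at e2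
  have hXQ : v (M.X Q) ≤ 1 := by
    have : M.X Q = (M.X Q - M.X P) + M.X P := by ring
    rw [this]
    exact le_add v hX.le hXP
  -- `l` is integral
  have hl : v l ≤ 1 := by
    apply le_one_of_sq_add_mul v h₁
    have : l ^ 2 + a₁ * l = M.X Q + M.X P + M.X (Q - P) + a₂ := by linear_combination -s1
    rw [this]
    exact le_add v (le_add v (le_add v hXQ hXP) hXD) h₂
  have hψ : 2 * M.Y P + a₁ * M.X P = l * (M.X Q - M.X P) - (M.Y Q - M.Y P) := by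
    linear_combination e1 - e2
  have hψv : v (2 * M.Y P + a₁ * M.X P) < 1 := by
    rw [hψ]
    exact lt_sub v (lt_mul_right v hl hX) hY
  have hω : 3 * M.X P ^ 2 + 2 * a₂ * M.X P + a₄ - a₁ * M.Y P =
      (M.X Q - M.X P) * (l ^ 2 + a₁ * l - a₂ - 3 * M.X P - (M.X Q - M.X P)) -
        (a₁ + l) * (2 * M.Y P + a₁ * M.X P) := by
    linear_combination -s2 + (M.X Q + M.X P) * s1 - (2 * l + a₁) * e2
  have hωv : v (3 * M.X P ^ 2 + 2 * a₂ * M.X P + a₄ - a₁ * M.Y P) < 1 := by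
    rw [hω]
    refine lt_sub v (lt_mul_left v hX ?_) (lt_mul_right v (le_add v h₁ hl) hψv)
    exact le_sub v (le_sub v (le_sub v (le_add v (le_pow v hl 2) (le_mul v h₁ hl)) h₂)
      (le_mul v (le_ofNat v 3) hXP)) hX.le
  rcases hns with h | h
  · exact absurd h hψv.ne
  · exact absurd h hωv.ne

/-- the two partial derivatives are integral at an integral point -/
theorem val_partials_le_one (h₁ : v a₁ ≤ 1) (h₂ : v a₂ ≤ 1) (h₄ : v a₄ ≤ 1) {P : G} (hP : P ≠ 0)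
    (hXP : v (M.X P) ≤ 1) : v (2 * M.Y P + a₁ * M.X P) ≤ 1 ∧
      v (3 * M.X P ^ 2 + 2 * a₂ * M.X P + a₄ - a₁ * M.Y P) ≤ 1 := by
  have hY := M.val_Y_le_one v h₁ h₂ h₄ hP hXP
  refine ⟨le_add v (le_mul v (le_ofNat v 2) hY) (le_mul v h₁ hXP), ?_⟩
  exact le_sub v (le_add v (le_add v (le_mul v (le_ofNat v 3) (le_pow v hXP 2))
    (le_mul v (le_mul v (le_ofNat v 2) h₂) hXP)) h₄) (le_mul v h₁ hY)

/-- Multiplicative reduction: the points with unit `X` reduce to nonsingular points. -/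
theorem nonsing_of_mult (h₁ : v a₁ ≤ 1) (h₂ : v a₂ ≤ 1) (h₄ : v a₄ < 1)
    (hb₂ : v (a₁ ^ 2 + 4 * a₂) = 1) {P : G} (hP : P ≠ 0) (hXP : v (M.X P) = 1) :
    v (2 * M.Y P + a₁ * M.X P) = 1 ∨
      v (3 * M.X P ^ 2 + 2 * a₂ * M.X P + a₄ - a₁ * M.Y P) = 1 := by
  obtain ⟨hψ1, hω1⟩ := M.val_partials_le_one v h₁ h₂ h₄.le hP hXP.le
  by_contra hcon
  rw [not_or] at hcon
  have hψ : v (2 * M.Y P + a₁ * M.X P) < 1 := lt_of_le_of_ne hψ1 hcon.1
  have hω : v (3 * M.X P ^ 2 + 2 * a₂ * M.X P + a₄ - a₁ * M.Y P) < 1 := lt_of_le_of_ne hω1 hcon.2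
  have hE := M.eqn P hP
  -- `4 X + b₂` is a non-unit
  have k1 : v (4 * M.X P + (a₁ ^ 2 + 4 * a₂)) < 1 := by
    have e : M.X P ^ 2 * (4 * M.X P + (a₁ ^ 2 + 4 * a₂)) =
        (2 * M.Y P + a₁ * M.X P) ^ 2 - 4 * a₄ * M.X P := by linear_combination -4 * hE
    have h : v (M.X P ^ 2 * (4 * M.X P + (a₁ ^ 2 + 4 * a₂))) < 1 := by
      rw [e]
      exact lt_sub v (lt_pow v hψ two_ne_zero)
        (lt_mul_left v (lt_mul_right v (le_ofNat v 4) h₄) hXP.le)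
    rwa [v.map_mul, v.map_pow, hXP, one_pow, one_mul] at h
  -- `6 X + b₂` is a non-unit
  have k2 : v (6 * M.X P + (a₁ ^ 2 + 4 * a₂)) < 1 := by
    have e : M.X P * (6 * M.X P + (a₁ ^ 2 + 4 * a₂)) =
        2 * (3 * M.X P ^ 2 + 2 * a₂ * M.X P + a₄ - a₁ * M.Y P) +
          a₁ * (2 * M.Y P + a₁ * M.X P) - 2 * a₄ := by ring
    have h : v (M.X P * (6 * M.X P + (a₁ ^ 2 + 4 * a₂))) < 1 := by
      rw [e]
      exact lt_sub v (lt_add v (lt_mul_right v (le_ofNat v 2) hω) (lt_mul_right v h₁ hψ))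
        (lt_mul_right v (le_ofNat v 2) h₄)
    rwa [v.map_mul, hXP, one_mul] at h
  have k3 : v (2 * M.X P) < 1 := by
    have e : 2 * M.X P = (6 * M.X P + (a₁ ^ 2 + 4 * a₂)) - (4 * M.X P + (a₁ ^ 2 + 4 * a₂)) := by
      ring
    rw [e]
    exact lt_sub v k2 k1
  have k4 : v (a₁ ^ 2 + 4 * a₂) < 1 := by
    have e : a₁ ^ 2 + 4 * a₂ = (4 * M.X P + (a₁ ^ 2 + 4 * a₂)) - 2 * (2 * M.X P) := by ring
    rw [e]
    exact lt_sub v k1 (lt_mul_right v (le_ofNat v 2) k3)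
  exact absurd hb₂ k4.ne

/-- Good reduction: every integral point reduces to a nonsingular point. -/
theorem nonsing_of_good (h₁ : v a₁ ≤ 1) (h₂ : v a₂ ≤ 1) (h₄ : v a₄ = 1)
    (hd : v ((a₁ ^ 2 + 4 * a₂) ^ 2 - 64 * a₄) = 1) {P : G} (hP : P ≠ 0) (hXP : v (M.X P) ≤ 1) :
    v (2 * M.Y P + a₁ * M.X P) = 1 ∨
      v (3 * M.X P ^ 2 + 2 * a₂ * M.X P + a₄ - a₁ * M.Y P) = 1 := by
  obtain ⟨hψ1, hω1⟩ := M.val_partials_le_one v h₁ h₂ h₄.le hP hXP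
  by_contra hcon
  rw [not_or] at hcon
  have hψ : v (2 * M.Y P + a₁ * M.X P) < 1 := lt_of_le_of_ne hψ1 hcon.1
  have hω : v (3 * M.X P ^ 2 + 2 * a₂ * M.X P + a₄ - a₁ * M.Y P) < 1 := lt_of_le_of_ne hω1 hcon.2
  have hE := M.eqn P hP
  set X := M.X P with hXdef
  set Y := M.Y P with hYdef
  set ψ := 2 * Y + a₁ * X with hψdef
  set ω := 3 * X ^ 2 + 2 * a₂ * X + a₄ - a₁ * Y with hωdef
  set A₂ := a₂ + 3 * X with hA₂
  set B₂ := a₁ ^ 2 + 4 * A₂ with hB₂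
  set B₄ := 2 * ω + a₁ * ψ with hB₄
  set B₆ := ψ ^ 2 with hB₆
  set B₈ := -a₁ * ψ * ω + A₂ * ψ ^ 2 - ω ^ 2 with hB₈
  have key : a₄ ^ 2 * ((a₁ ^ 2 + 4 * a₂) ^ 2 - 64 * a₄) =
      -B₂ ^ 2 * B₈ - 8 * B₄ ^ 3 - 27 * B₆ ^ 2 + 9 * B₂ * B₄ * B₆ := by
    simp only [hB₂, hB₄, hB₆, hB₈, hA₂, hψdef, hωdef]
    linear_combination ((a₁ ^ 2 + 4 * (a₂ + 3 * X)) ^ 3 + 216 * (2 * Y + a₁ * X) ^ 2
      - 432 * (Y ^ 2 + a₁ * X * Y - X ^ 3 - a₂ * X ^ 2 - a₄ * X)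
      - 36 * (a₁ ^ 2 + 4 * (a₂ + 3 * X)) *
        (2 * (3 * X ^ 2 + 2 * a₂ * X + a₄ - a₁ * Y) + a₁ * (2 * Y + a₁ * X))) * hE
  have hA₂v : v A₂ ≤ 1 := le_add v h₂ (le_mul v (le_ofNat v 3) hXP)
  have hB₂v : v B₂ ≤ 1 := le_add v (le_pow v h₁ 2) (le_mul v (le_ofNat v 4) hA₂v)
  have hB₄v : v B₄ < 1 := lt_add v (lt_mul_right v (le_ofNat v 2) hω) (lt_mul_right v h₁ hψ)
  have hB₆v : v B₆ < 1 := lt_pow v hψ two_ne_zero
  have hB₈v : v B₈ < 1 :=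
    lt_sub v (lt_add v (lt_mul_left v (lt_mul_right v (le_neg v h₁) hψ) hω.le)
      (lt_mul_right v hA₂v (lt_pow v hψ two_ne_zero))) (lt_pow v hω two_ne_zero)
  have hlt : v (a₄ ^ 2 * ((a₁ ^ 2 + 4 * a₂) ^ 2 - 64 * a₄)) < 1 := by
    rw [key]
    refine lt_add v (lt_sub v (lt_sub v ?_ ?_) ?_) ?_
    · exact lt_mul_right v (le_neg v (le_pow v hB₂v 2)) hB₈v
    · exact lt_mul_right v (le_ofNat v 8) (lt_pow v hB₄v three_ne_zero)
    · exact lt_mul_right v (le_ofNat v 27) (lt_pow v hB₆v two_ne_zero)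
    · exact lt_mul_right v (le_mul v (le_mul v (le_ofNat v 9) hB₂v) hB₄v.le) hB₆v
  rw [v.map_mul, v.map_pow, h₄, hd, one_pow, one_mul] at hlt
  exact lt_irrefl _ hlt

end Model

end Fermat.Agent.S13
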