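import Fermat.Agent.S13.ComponentHom
import Fermat.Agent.S13.Reduction

/-!
# S13: no rational point of order `p` (Model level)

`Y^2 + a₁ X Y = X^3 + a₂ X^2 + a₄ X` with multiplicative reduction at `v`
(`v a₄ < 1`, `v (a₁^2 + 4 a₂) = 1`).  `F` is a subfield ("the rational numbers") whose value group
is generated by `v π` and whose residue field has two elements.  If `v a₄ = (v π)^e` with
`p ∤ e`, then there is no point of order `p ≥ 5` all of whose multiples have coordinates in `F`.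

The proof: by the component homomorphism, all nonzero multiples of such a point have unit `X`;
so they reduce to one of the (at most two) points `(1, 0)`, `(1, 1)`; two among `Q, 2Q, 3Q` have
the same (nonsingular) reduction, so that their difference lies in the kernel of reduction,
which contains no nonzero point killed by `p`.
-/

set_option autoImplicit false

namespace Fermat.Agent.S13

namespace Model

variable {K : Type*} [Field K] {Γ₀ : Type*} [LinearOrderedCommGroupWithZero Γ₀]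
  {v : Valuation K Γ₀} {a₁ a₂ a₄ : K} {G : Type*} [AddCommGroup G] (M : Model K a₁ a₂ a₄ G)

/-- arithmetic core: `j p = 2 e m`, `0 ≤ j ≤ e`, `p` an odd prime not dividing `e` ⇒ `j = 0`. -/
theorem rat_arith {p : ℕ} (hp : p.Prime) (hp2 : p ≠ 2) {e j m : ℤ} (he : ¬ (p : ℤ) ∣ e)
    (h : j * p = e * (2 * m)) (h0 : 0 ≤ j) (h1 : j ≤ e) : j = 0 := by
  have hpZ : Prime (p : ℤ) := Nat.prime_iff_prime_int.mp hp
  have hdvd : (p : ℤ) ∣ e * (2 * m) := ⟨j, by rw [← h]; ring⟩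
  have h2 : ¬ (p : ℤ) ∣ 2 := by
    intro h2
    have : p ∣ 2 := by exact_mod_cast h2
    exact hp2 ((Nat.prime_dvd_prime_iff_eq hp Nat.prime_two).mp this)
  have hm : (p : ℤ) ∣ m :=
    ((hpZ.dvd_or_dvd hdvd).resolve_left he |> hpZ.dvd_or_dvd).resolve_left h2
  obtain ⟨m', rfl⟩ := hm
  have hp0 : (p : ℤ) ≠ 0 := by exact_mod_cast hp.ne_zero
  have hj : j = 2 * e * m' := by
    apply mul_right_cancel₀ hp0
    rw [h]; ring
  have he0 : 0 < e := by
    rcases (h0.trans h1).lt_or_eq with h' | h'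
    · exact h'
    · exact absurd (h' ▸ dvd_zero _) he
  have hm0 : 0 ≤ m' := by
    by_contra hneg
    rw [not_le] at hneg
    have : 2 * e * m' < 0 := mul_neg_of_pos_of_neg (by positivity) hneg
    omega
  have hm1 : m' < 1 := by
    by_contra hge
    rw [not_lt] at hge
    have : 2 * e * 1 ≤ 2 * e * m' := mul_le_mul_of_nonneg_left hge (by positivity)
    omega
  have : m' = 0 := by omega
  rw [hj, this, mul_zero]

include M in
/-- A point killed by `p` whose `X`-coordinate has valuation in `⟨v π⟩` has unit `X`. -/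
theorem val_X_eq_one_of_val_mem (h₁ : v a₁ ≤ 1) (h₂ : v a₂ ≤ 1) (h₄0 : a₄ ≠ 0)
    (hb₂ : v (a₁ ^ 2 + 4 * a₂) = 1) (α : K) (hα : α ^ 2 + a₁ * α - a₂ = 0)
    {p : ℕ} (hp : p.Prime) (hp2 : p ≠ 2)
    (hS : ∀ P : G, P ≠ 0 → p • P = 0 → v a₄ ≤ v (M.X P) ∧ v (M.X P) ≤ 1)
    {π : K} (hπ0 : π ≠ 0) (hπ : v π < 1) {e : ℤ} (he : v a₄ = v π ^ e) (hpe : ¬ (p : ℤ) ∣ e)
    {R : G} (hR : R ≠ 0) (hpR : p • R = 0) {j : ℤ} (hj : v (M.X R) = v π ^ j) :
    v (M.X R) = 1 := by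
  obtain ⟨m, hm⟩ := M.exists_val_X_pow_eq_zpow_of_bounds h₁ h₂ h₄0 hb₂ α hα hS hR hpR
  have hπpos : 0 < v π := zero_lt_iff.mpr (v.ne_zero_iff.mpr hπ0)
  obtain ⟨hlo, hhi⟩ := hS R hR hpR
  rw [hj, he, ← zpow_natCast, ← zpow_mul, ← zpow_mul] at hm
  have hjm : j * p = e * (2 * m) := zpow_right_injective₀ hπpos hπ.ne hm
  rw [hj, he, zpow_le_zpow_iff_right_of_lt_one₀ hπpos hπ] at hlo
  rw [hj, ← zpow_zero (v π), zpow_le_zpow_iff_right_of_lt_one₀ hπpos hπ] at hhi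
  rw [hj, rat_arith hp hp2 hpe hjm hhi hlo, zpow_zero]

include M in
/-- Two points killed by `p` with unit `X` and the same reduction are equal. -/
theorem eq_of_congr_of_torsion (h₁ : v a₁ ≤ 1) (h₂ : v a₂ ≤ 1) (h₄ : v a₄ < 1)
    (hb₂ : v (a₁ ^ 2 + 4 * a₂) = 1) {p : ℕ}
    (hS : ∀ P : G, P ≠ 0 → p • P = 0 → v (M.X P) ≤ 1)
    {R R' : G} (hR : R ≠ 0) (hR' : R' ≠ 0) (hpR : p • R = 0) (hpR' : p • R' = 0)
    (hX : v (M.X R) = 1) (hXX : v (M.X R' - M.X R) < 1) (hYY : v (M.Y R' - M.Y R) < 1) :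
    R' = R := by
  by_contra hne
  have hD : R' - R ≠ 0 := sub_ne_zero.mpr hne
  have hpD : p • (R' - R) = 0 := by rw [smul_sub, hpR, hpR', sub_zero]
  have h := M.inE1_sub_of_congr v h₁ h₂ h₄.le hR hR' hX.le hXX hYY
    (M.nonsing_of_mult v h₁ h₂ h₄ hb₂ hR hX)
  exact absurd (h.resolve_left hD) (not_lt.mpr (hS _ hD hpD))

include M in
/-- **No rational point of order `p`.** -/
theorem false_of_rational_torsion (h₁ : v a₁ ≤ 1) (h₂ : v a₂ ≤ 1) (h₄ : v a₄ < 1) (h₄0 : a₄ ≠ 0)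
    (hb₂ : v (a₁ ^ 2 + 4 * a₂) = 1) (α : K) (hα : α ^ 2 + a₁ * α - a₂ = 0)
    {p : ℕ} (hp : p.Prime) (hp5 : 5 ≤ p)
    (hS : ∀ P : G, P ≠ 0 → p • P = 0 → v a₄ ≤ v (M.X P) ∧ v (M.X P) ≤ 1)
    (F : Set K) {π : K} (hπ0 : π ≠ 0) (hπ : v π < 1)
    (hF : ∀ x ∈ F, x ≠ 0 → ∃ k : ℤ, v x = v π ^ k)
    (hres : ∀ x ∈ F, v x ≤ 1 → v x < 1 ∨ v (x - 1) < 1)
    {e : ℤ} (he : v a₄ = v π ^ e) (hpe : ¬ (p : ℤ) ∣ e)
    {Q : G} (hQ : Q ≠ 0) (hpQ : p • Q = 0)
    (hrat : ∀ k : ℕ, k • Q ≠ 0 → M.X (k • Q) ∈ F ∧ M.Y (k • Q) ∈ F) : False := by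
  have hp2 : p ≠ 2 := by omega
  have : Fact p.Prime := ⟨hp⟩
  have hord : addOrderOf Q = p := addOrderOf_eq_prime hpQ hQ
  have hk0 : ∀ k : ℕ, 0 < k → k < p → k • Q ≠ 0 := by
    intro k h0 hlt h
    have := addOrderOf_dvd_of_nsmul_eq_zero h
    rw [hord] at this
    exact absurd (Nat.le_of_dvd h0 this) (not_le.mpr hlt)
  have hpk : ∀ k : ℕ, p • (k • Q) = 0 := fun k => by rw [smul_comm, hpQ, smul_zero]
  have hS' : ∀ P : G, P ≠ 0 → p • P = 0 → v (M.X P) ≤ 1 := fun P h0 h => (hS P h0 h).2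
  -- all multiples have unit `X`, congruent to `1`
  have hunit : ∀ k : ℕ, k • Q ≠ 0 → v (M.X (k • Q)) = 1 := by
    intro k hk
    have hX0 : M.X (k • Q) ≠ 0 := by
      apply v.ne_zero_iff.mp
      intro h
      have hlo := (hS _ hk (hpk k)).1
      rw [h] at hlo
      exact v.ne_zero_iff.mpr h₄0 (le_zero_iff.mp hlo)
    obtain ⟨j, hj⟩ := hF _ (hrat k hk).1 hX0
    exact M.val_X_eq_one_of_val_mem h₁ h₂ h₄0 hb₂ α hα hp hp2 hS hπ0 hπ he hpe hk (hpk k) hj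
  have hX1 : ∀ k : ℕ, k • Q ≠ 0 → v (M.X (k • Q) - 1) < 1 := by
    intro k hk
    rcases hres _ (hrat k hk).1 (hunit k hk).le with h | h
    · exact absurd (hunit k hk) h.ne
    · exact h
  have hY : ∀ k : ℕ, k • Q ≠ 0 → v (M.Y (k • Q)) < 1 ∨ v (M.Y (k • Q) - 1) < 1 := by
    intro k hk
    exact hres _ (hrat k hk).2 (M.val_Y_le_one v h₁ h₂ h₄.le hk (hunit k hk).le)
  -- two multiples in the same class coincide
  have hXX : ∀ k k' : ℕ, k • Q ≠ 0 → k' • Q ≠ 0 → v (M.X (k' • Q) - M.X (k • Q)) < 1 := by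
    intro k k' hk hk'
    have e1 : M.X (k' • Q) - M.X (k • Q) = (M.X (k' • Q) - 1) - (M.X (k • Q) - 1) := by ring
    rw [e1]
    exact v.map_sub_lt (hX1 k' hk') (hX1 k hk)
  have key0 : ∀ k k' : ℕ, k • Q ≠ 0 → k' • Q ≠ 0 → v (M.Y (k • Q)) < 1 → v (M.Y (k' • Q)) < 1 →
      k' • Q = k • Q := by
    intro k k' hk hk' h h'
    exact M.eq_of_congr_of_torsion h₁ h₂ h₄ hb₂ hS' hk hk' (hpk k) (hpk k') (hunit k hk)
      (hXX k k' hk hk') (v.map_sub_lt h' h)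
  have key1 : ∀ k k' : ℕ, k • Q ≠ 0 → k' • Q ≠ 0 → v (M.Y (k • Q) - 1) < 1 →
      v (M.Y (k' • Q) - 1) < 1 → k' • Q = k • Q := by
    intro k k' hk hk' h h'
    refine M.eq_of_congr_of_torsion h₁ h₂ h₄ hb₂ hS' hk hk' (hpk k) (hpk k') (hunit k hk)
      (hXX k k' hk hk') ?_
    have e1 : M.Y (k' • Q) - M.Y (k • Q) = (M.Y (k' • Q) - 1) - (M.Y (k • Q) - 1) := by ring
    rw [e1]
    exact v.map_sub_lt h' h
  -- the three points `Q, 2Q, 3Q` are nonzero and pairwise distinct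
  have n1 := hk0 1 (by omega) (by omega)
  have n2 := hk0 2 (by omega) (by omega)
  have n3 := hk0 3 (by omega) (by omega)
  have d12 : 2 • Q ≠ 1 • Q := by
    intro h
    apply n1
    have : 2 • Q = 1 • Q + 1 • Q := by rw [← add_smul]
    rw [this] at h
    exact add_eq_left.mp h
  have d13 : 3 • Q ≠ 1 • Q := by
    intro h
    apply n2
    have : 3 • Q = 1 • Q + 2 • Q := by rw [← add_smul]
    rw [this] at h
    exact add_eq_left.mp h
  have d23 : 3 • Q ≠ 2 • Q := by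
    intro h
    apply n1
    have : 3 • Q = 2 • Q + 1 • Q := by rw [← add_smul]
    rw [this] at h
    exact add_eq_left.mp h
  rcases hY 1 n1 with a | a <;> rcases hY 2 n2 with b | b <;> rcases hY 3 n3 with c | c
  · exact d12 (key0 1 2 n1 n2 a b)
  · exact d12 (key0 1 2 n1 n2 a b)
  · exact d13 (key0 1 3 n1 n3 a c)
  · exact d23 (key1 2 3 n2 n3 b c)
  · exact d23 (key0 2 3 n2 n3 b c)
  · exact d13 (key1 1 3 n1 n3 a c)
  · exact d12 (key1 1 2 n1 n2 a b)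
  · exact d12 (key1 1 2 n1 n2 a b)

end Model

end Fermat.Agent.S13
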