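import Fermat.Agent.S13.FreyDefs
import Fermat.Agent.S13.FreyTorsion
import Fermat.Agent.S13.RatVal
import Fermat.Agent.S13.Rat
import Fermat.Agent.S13.KernelRed
import Fermat.Agent.Lib.Frobenius.Exists

/-!
# S13-T16: the Frey curve has no `G_ℚ`-fixed point of order `p`

The `2`-adic argument: the Frey curve has multiplicative reduction at `2` with
`v₂(a₄) = p e - 4` prime to `p`; we apply `Model.false_of_rational_torsion`.
-/

set_option autoImplicit false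

open WeierstrassCurve WeierstrassCurve.Affine WeierstrassCurve.Affine.Point

namespace Fermat.Agent.S13

local notation "Qbar" => AlgebraicClosure ℚ

namespace Model

variable {K : Type*} [Field K] {Γ₀ : Type*} [LinearOrderedCommGroupWithZero Γ₀]
  (v : Valuation K Γ₀) {a₁ a₂ a₄ : K} {G : Type*} [AddCommGroup G] (M : Model K a₁ a₂ a₄ G)

/-- Bounds for the `X`-coordinate of a point killed by an odd number which is a unit:
`v a₄ ≤ v X ≤ 1`. -/
theorem val_bounds_of_odd_torsion (h₁ : v a₁ ≤ 1) (h₂ : v a₂ ≤ 1) (h₄ : v a₄ ≤ 1) (h₄0 : a₄ ≠ 0)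
    {p : ℕ} (hp : Odd p) (hpv : v (p : K) = 1) {P : G} (hP0 : P ≠ 0) (hP : p • P = 0) :
    v a₄ ≤ v (M.X P) ∧ v (M.X P) ≤ 1 := by
  refine ⟨?_, M.integral_of_torsion v h₄0 h₁ h₂ h₄ hpv hP0 hP⟩
  by_contra hcon
  rw [not_le] at hcon
  obtain ⟨T, hT0, hTX, hTY⟩ := M.exists_point 0 0 (by ring)
  have hTneg : -T = T := by
    apply M.ext _ _ (neg_ne_zero.mpr hT0) hT0
    · rw [M.X_neg _ hT0]
    · rw [M.Y_neg _ hT0, hTX, hTY]; ring
  have hT2 : 2 • T = 0 := by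
    rw [two_smul]
    nth_rewrite 1 [← hTneg]
    exact neg_add_cancel T
  have hPT : P + T ≠ 0 := by
    intro h
    have hPT' : P = T := by rw [eq_neg_of_add_eq_zero_left h, hTneg]
    exact hP0 (eq_zero_of_two_nsmul_of_odd_nsmul hp (hPT' ▸ hT2) hP)
  obtain ⟨l, n, -, e2, -, -, s2, -⟩ := M.line_add hP0 hT0 hPT
  rw [hTX, hTY] at e2
  have hn : n = 0 := by linear_combination -e2
  rw [hTX, hn] at s2
  have hprod : M.X P * M.X (P + T) = a₄ := by linear_combination s2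
  have hXP0 : M.X P ≠ 0 := by
    intro h
    rw [h, zero_mul] at hprod
    exact h₄0 hprod.symm
  have hvpos : 0 < v (M.X P) := zero_lt_iff.mpr (v.ne_zero_iff.mpr hXP0)
  have hE : M.InE1 v (P + T) := by
    right
    have h := congrArg v hprod
    rw [map_mul] at h
    by_contra hle
    rw [not_lt] at hle
    have : v a₄ ≤ v (M.X P) := by
      rw [← h]
      exact mul_le_of_le_one_right' hle
    exact absurd hcon (not_lt.mpr this)
  have h2 : M.InE1 v (2 • P) := by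
    have h := M.inE1_nsmul v h₁ h₂ h₄ hE 2
    rwa [smul_add, hT2, add_zero] at h
  have h2P : 2 • P = 0 := by
    by_contra h0
    have hle := M.integral_of_torsion v h₄0 h₁ h₂ h₄ hpv h0
      (by rw [smul_comm, hP, smul_zero])
    exact absurd (h2.resolve_left h0) (not_lt.mpr hle)
  exact hP0 (eq_zero_of_two_nsmul_of_odd_nsmul hp h2P hP)

end Model

namespace FreyRational

theorem two_dvd_a₄Z (P : FreyPackage) : (2 : ℤ) ∣ a₄Z P := by
  obtain ⟨m, hm⟩ := thirtytwo_dvd_b_pow P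
  have h := sixteen_mul_a₄Z P
  rw [hm] at h
  exact ⟨-(P.a ^ P.p) * m, by linarith⟩

theorem not_two_dvd_b₂ (P : FreyPackage) : ¬ (2 : ℤ) ∣ 1 + 4 * a₂Z P := by
  omega

/-- `16 a₄ = 2^(p e) u` with `u` odd and `e > 0`. -/
theorem exists_sixteen_mul_a₄Z_eq (P : FreyPackage) :
    ∃ (e : ℕ) (u : ℤ), 0 < e ∧ ¬ (2 : ℤ) ∣ u ∧ 16 * a₄Z P = 2 ^ (P.p * e) * u := by
  have hfin : FiniteMultiplicity (2 : ℤ) P.b :=
    Int.finiteMultiplicity_iff.mpr ⟨by norm_num, P.hb0⟩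
  obtain ⟨c, hc, hnd⟩ := hfin.exists_eq_pow_mul_and_not_dvd
  have h2 : Prime (2 : ℤ) := Int.prime_two
  refine ⟨multiplicity (2 : ℤ) P.b, -(P.a ^ P.p) * c ^ P.p, ?_, ?_, ?_⟩
  · rcases Nat.eq_zero_or_pos (multiplicity (2 : ℤ) P.b) with h0 | h0
    · rw [h0, pow_zero, one_mul] at hc
      exact absurd (hc ▸ two_dvd_b P) hnd
    · exact h0
  · intro h
    rcases h2.dvd_or_dvd h with h | h
    · exact not_two_dvd_a P (h2.dvd_of_dvd_pow ((dvd_neg).mp h))
    · exact hnd (h2.dvd_of_dvd_pow h)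
  · rw [sixteen_mul_a₄Z]
    nth_rewrite 1 [hc]
    rw [mul_pow, ← pow_mul, mul_comm (multiplicity (2 : ℤ) P.b) P.p]
    ring

variable (A : ValuationSubring Qbar)

theorem val_a₄Z_two (P : FreyPackage) (hA : A.LiesOverPrime 2) :
    ∃ e : ℕ, 0 < e ∧
      A.valuation ((a₄Z P : ℤ) : Qbar) = A.valuation ((2 : ℕ) : Qbar) ^ ((P.p * e : ℤ) - 4) := by
  obtain ⟨e, u, he, hu, h⟩ := exists_sixteen_mul_a₄Z_eq P
  refine ⟨e, he, ?_⟩
  have hu1 : A.valuation ((u : ℤ) : Qbar) = 1 :=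
    Fermat.Agent.S05.valuation_intCast_eq_one A Nat.prime_two hA (by exact_mod_cast hu)
  have h' : ((2 : ℕ) : Qbar) ^ 4 * ((a₄Z P : ℤ) : Qbar) =
      ((2 : ℕ) : Qbar) ^ (P.p * e) * ((u : ℤ) : Qbar) := by
    have := congrArg (Int.cast : ℤ → Qbar) h
    push_cast at this ⊢
    rw [← this]
    norm_num
  have h'' := congrArg A.valuation h'
  rw [map_mul, map_mul, map_pow, map_pow, hu1, mul_one] at h''
  have hpos : A.valuation ((2 : ℕ) : Qbar) ≠ 0 := (valuation_prime_pos A Nat.prime_two).ne'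
  rw [zpow_sub₀ hpos, eq_div_iff (zpow_ne_zero _ hpos), mul_comm]
  have e1 : A.valuation ((2 : ℕ) : Qbar) ^ (4 : ℤ) = A.valuation ((2 : ℕ) : Qbar) ^ 4 :=
    zpow_natCast (A.valuation ((2 : ℕ) : Qbar)) 4
  have e2 : A.valuation ((2 : ℕ) : Qbar) ^ ((P.p : ℤ) * (e : ℤ)) =
      A.valuation ((2 : ℕ) : Qbar) ^ (P.p * e) := by
    rw [← Nat.cast_mul]
    exact zpow_natCast (A.valuation ((2 : ℕ) : Qbar)) (P.p * e)
  rw [e1, e2, h'']

end FreyRational

open FreyRational in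
/-- **No rational point of order `p` on the Frey curve.** -/
theorem frey_not_fixed (P : FreyPackage) (x : Vp P) (hx : x ≠ 0) : ∃ σ : GQ, σ • x ≠ x := by
  by_contra hcon
  simp only [not_exists, not_not] at hcon
  obtain ⟨A, hA⟩ := Fermat.Agent.Lib.Frobenius.exists_liesOverPrime 2 Nat.prime_two
  have hQ0 : (x : EPt P) ≠ 0 := fun h => hx (Subtype.ext h)
  have hpQ : P.p • (x : EPt P) = 0 := nsmul_eq_zero_of_mem P x
  have hfix : ∀ σ : GQ, σ • (x : EPt P) = (x : EPt P) := fun σ => by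
    rw [← coe_smul_Vp, hcon σ]
  have h₁ : A.valuation (((1 : ℤ) : Qbar)) ≤ 1 := Fermat.Agent.S05.valuation_intCast_le_one A 1
  have h₂ : A.valuation (((a₂Z P : ℤ) : Qbar)) ≤ 1 :=
    Fermat.Agent.S05.valuation_intCast_le_one A _
  have h₄ : A.valuation (((a₄Z P : ℤ) : Qbar)) < 1 :=
    Fermat.Agent.S05.valuation_intCast_lt_one A hA (by exact_mod_cast two_dvd_a₄Z P)
  have h₄0 := cast_a₄Z_ne_zero P
  have hb₂ : A.valuation ((((1 : ℤ) : Qbar)) ^ 2 + 4 * ((a₂Z P : ℤ) : Qbar)) = 1 := by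
    have h := Fermat.Agent.S05.valuation_intCast_eq_one (L := Qbar) A Nat.prime_two hA
      (n := 1 + 4 * a₂Z P) (by exact_mod_cast not_two_dvd_b₂ P)
    rw [← h]
    congr 1
    push_cast
    ring
  have hp2 : ¬ ((2 : ℕ) : ℤ) ∣ (P.p : ℤ) := by
    intro h
    have h' : 2 ∣ P.p := by exact_mod_cast h
    have := (Nat.prime_dvd_prime_iff_eq Nat.prime_two P.pp).mp h'
    have := P.hp5
    omega
  have hpv : A.valuation ((P.p : ℕ) : Qbar) = 1 := by
    have h := Fermat.Agent.S05.valuation_intCast_eq_one (L := Qbar) A Nat.prime_two hA hp2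
    exact_mod_cast h
  obtain ⟨s, hs⟩ := IsAlgClosed.exists_pow_nat_eq
    ((((1 : ℤ) : Qbar)) ^ 2 + 4 * ((a₂Z P : ℤ) : Qbar)) (n := 2) (by norm_num)
  have hα : ((s - ((1 : ℤ) : Qbar)) / 2) ^ 2 + ((1 : ℤ) : Qbar) * ((s - ((1 : ℤ) : Qbar)) / 2)
      - ((a₂Z P : ℤ) : Qbar) = 0 := by
    linear_combination (1 / 4 : Qbar) * hs
  obtain ⟨e, he0, he⟩ := val_a₄Z_two A P hA
  have hpe : ¬ ((P.p : ℕ) : ℤ) ∣ ((P.p * e : ℤ) - 4) := by
    intro h
    have h4 : (P.p : ℤ) ∣ 4 := by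
      have := dvd_sub (Dvd.intro (e : ℤ) rfl : (P.p : ℤ) ∣ (P.p : ℤ) * e) h
      simpa using this
    have h4' : P.p ∣ 4 := by exact_mod_cast h4
    have := Nat.le_of_dvd (by norm_num) h4'
    have := P.hp5
    omega
  refine (M0 P).false_of_rational_torsion (v := A.valuation) h₁ h₂ h₄ h₄0 hb₂ _ hα P.pp P.hp5
    (fun R hR hpR => (M0 P).val_bounds_of_odd_torsion A.valuation h₁ h₂ h₄.le h₄0 P.hp_odd hpv
      hR hpR)
    (Set.range (algebraMap ℚ Qbar)) (π := ((2 : ℕ) : Qbar)) (by norm_num)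
    (valuation_prime_lt_one A hA) ?_ ?_ he hpe hQ0 hpQ ?_
  · rintro _ ⟨r, rfl⟩ hr
    exact valuation_rat_eq_zpow A Nat.prime_two hA r (fun h => hr (by rw [h, _root_.map_zero]))
  · rintro _ ⟨r, rfl⟩ hr
    exact valuation_rat_two A hA r hr
  · intro k _
    have hk : ∀ σ : GQ, σ • (k • (x : EPt P)) = k • (x : EPt P) := fun σ => by
      have := (actE P σ).map_nsmul k (x : EPt P)
      rw [actE_apply, actE_apply, hfix σ] at this
      exact this
    constructor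
    · obtain ⟨r, hr⟩ := exists_rat_of_fixed ((M0 P).X (k • (x : EPt P)))
        (fun σ => by rw [← M0_X_smul, hk σ])
      exact ⟨r, hr⟩
    · obtain ⟨r, hr⟩ := exists_rat_of_fixed ((M0 P).Y (k • (x : EPt P)))
        (fun σ => by rw [← M0_Y_smul, hk σ])
      exact ⟨r, hr⟩

end Fermat.Agent.S13
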