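import Fermat.Agent.S13.FreyDefs

/-!
# S13: divisibility and valuations of the coefficients of the Frey curve

Elementary integer arithmetic of the coefficients `a₂Z P`, `a₄Z P` of the Frey curve and of the
coefficients `a₂c P`, `a₄c P`, `rc P` of the translated model, and the corresponding statements
on valuations for a valuation subring of `ℚ̄` lying over a prime `ℓ`.
-/

set_option autoImplicit false

open WeierstrassCurve WeierstrassCurve.Affine WeierstrassCurve.Affine.Point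

namespace Fermat.Agent.S13

local notation "Qbar" => AlgebraicClosure ℚ

/-! ## Integer arithmetic -/

theorem prime_intCast {ℓ : ℕ} (hℓ : ℓ.Prime) : Prime (ℓ : ℤ) := Nat.prime_iff_prime_int.mp hℓ

/-- a prime cannot divide both `a` and `b` -/
theorem not_dvd_a_and_b (P : FreyPackage) {ℓ : ℕ} (hℓ : ℓ.Prime) (ha : (ℓ : ℤ) ∣ P.a)
    (hb : (ℓ : ℤ) ∣ P.b) : False := by
  have h := dvd_gcd ha hb
  rw [P.hgcdab] at h
  exact (prime_intCast hℓ).not_isUnit (isUnit_of_dvd_one h)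

/-- a prime cannot divide both `a` and `c` -/
theorem not_dvd_a_and_c (P : FreyPackage) {ℓ : ℕ} (hℓ : ℓ.Prime) (ha : (ℓ : ℤ) ∣ P.a)
    (hc : (ℓ : ℤ) ∣ P.c) : False := by
  have h1 : (ℓ : ℤ) ∣ P.a ^ P.p := dvd_pow ha P.hp0
  have h2 : (ℓ : ℤ) ∣ P.c ^ P.p := dvd_pow hc P.hp0
  have h3 : (ℓ : ℤ) ∣ P.b ^ P.p := by
    have : P.b ^ P.p = P.c ^ P.p - P.a ^ P.p := by rw [← P.hFLT]; ring
    rw [this]
    exact dvd_sub h2 h1
  exact not_dvd_a_and_b P hℓ ha ((prime_intCast hℓ).dvd_of_dvd_pow h3)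

/-- a prime cannot divide both `b` and `c` -/
theorem not_dvd_b_and_c (P : FreyPackage) {ℓ : ℕ} (hℓ : ℓ.Prime) (hb : (ℓ : ℤ) ∣ P.b)
    (hc : (ℓ : ℤ) ∣ P.c) : False := by
  have h1 : (ℓ : ℤ) ∣ P.b ^ P.p := dvd_pow hb P.hp0
  have h2 : (ℓ : ℤ) ∣ P.c ^ P.p := dvd_pow hc P.hp0
  have h3 : (ℓ : ℤ) ∣ P.a ^ P.p := by
    have : P.a ^ P.p = P.c ^ P.p - P.b ^ P.p := by rw [← P.hFLT]; ring
    rw [this]
    exact dvd_sub h2 h1
  exact not_dvd_a_and_b P hℓ ((prime_intCast hℓ).dvd_of_dvd_pow h3) hb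

theorem not_dvd_ofNat_of_ne_two {ℓ : ℕ} (hℓ : ℓ.Prime) (h2 : ℓ ≠ 2) (k : ℕ) :
    ¬ (ℓ : ℤ) ∣ 2 ^ k := by
  intro h
  have h1 : (ℓ : ℤ) ∣ 2 := (prime_intCast hℓ).dvd_of_dvd_pow h
  have h3 : ℓ ∣ 2 := by exact_mod_cast h1
  exact h2 ((Nat.prime_dvd_prime_iff_eq hℓ Nat.prime_two).mp h3)

theorem two_dvd_a₄Z (P : FreyPackage) : (2 : ℤ) ∣ a₄Z P := by
  obtain ⟨m, hm⟩ := thirtytwo_dvd_b_pow P
  have h := sixteen_mul_a₄Z P
  rw [hm] at h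
  exact ⟨-(P.a ^ P.p) * m, by linarith⟩

theorem dvd_a₄Z_of_dvd (P : FreyPackage) {ℓ : ℕ} (hℓ : ℓ.Prime) (h : (ℓ : ℤ) ∣ P.a * P.b) :
    (ℓ : ℤ) ∣ a₄Z P := by
  rcases eq_or_ne ℓ 2 with rfl | h2
  · exact_mod_cast two_dvd_a₄Z P
  · have h1 : (ℓ : ℤ) ∣ 2 ^ 4 * a₄Z P := by
      have h3 : (2 : ℤ) ^ 4 * a₄Z P = -((P.a * P.b) ^ P.p) := by
        have := sixteen_mul_a₄Z P
        rw [mul_pow]
        linarith
      rw [h3]
      exact (dvd_pow h P.hp0).neg_right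
    exact ((prime_intCast hℓ).dvd_or_dvd h1).resolve_left (not_dvd_ofNat_of_ne_two hℓ h2 4)

theorem not_dvd_b₂_of_dvd (P : FreyPackage) {ℓ : ℕ} (hℓ : ℓ.Prime) (h : (ℓ : ℤ) ∣ P.a * P.b) :
    ¬ (ℓ : ℤ) ∣ 1 + 4 * a₂Z P := by
  rw [one_add_four_mul_a₂Z]
  intro hd
  rcases (prime_intCast hℓ).dvd_or_dvd h with ha | hb
  · have h1 : (ℓ : ℤ) ∣ P.a ^ P.p := dvd_pow ha P.hp0
    have h3 : (ℓ : ℤ) ∣ P.b ^ P.p := by
      have : P.b ^ P.p = (P.b ^ P.p - P.a ^ P.p) + P.a ^ P.p := by ring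
      rw [this]
      exact dvd_add hd h1
    exact not_dvd_a_and_b P hℓ ha ((prime_intCast hℓ).dvd_of_dvd_pow h3)
  · have h1 : (ℓ : ℤ) ∣ P.b ^ P.p := dvd_pow hb P.hp0
    have h3 : (ℓ : ℤ) ∣ P.a ^ P.p := by
      have : P.a ^ P.p = P.b ^ P.p - (P.b ^ P.p - P.a ^ P.p) := by ring
      rw [this]
      exact dvd_sub h1 hd
    exact not_dvd_a_and_b P hℓ ((prime_intCast hℓ).dvd_of_dvd_pow h3) hb

theorem not_dvd_a₄Z_of_not_dvd (P : FreyPackage) {ℓ : ℕ} (hℓ : ℓ.Prime)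
    (h : ¬ (ℓ : ℤ) ∣ P.a * P.b) : ¬ (ℓ : ℤ) ∣ a₄Z P := by
  intro hd
  apply h
  have h1 : (ℓ : ℤ) ∣ (P.a * P.b) ^ P.p := by
    have h3 : (P.a * P.b) ^ P.p = -(16 * a₄Z P) := by
      rw [sixteen_mul_a₄Z, mul_pow]; ring
    rw [h3]
    exact (hd.mul_left 16).neg_right
  exact (prime_intCast hℓ).dvd_of_dvd_pow h1

theorem not_dvd_disc_of_not_dvd (P : FreyPackage) {ℓ : ℕ} (hℓ : ℓ.Prime)
    (h : ¬ (ℓ : ℤ) ∣ P.c) : ¬ (ℓ : ℤ) ∣ (1 + 4 * a₂Z P) ^ 2 - 64 * a₄Z P := by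
  rw [disc_a₂Z_a₄Z]
  intro hd
  exact h ((prime_intCast hℓ).dvd_of_dvd_pow ((prime_intCast hℓ).dvd_of_dvd_pow hd))

theorem exists_b_eq (P : FreyPackage) :
    ∃ (e : ℕ) (b' : ℤ), 0 < e ∧ ¬ (2 : ℤ) ∣ b' ∧ P.b = 2 ^ e * b' := by
  have hfin : FiniteMultiplicity (2 : ℤ) P.b :=
    Int.finiteMultiplicity_iff.mpr ⟨by decide, P.hb0⟩
  obtain ⟨b', hb, hb'⟩ := hfin.exists_eq_pow_mul_and_not_dvd
  refine ⟨multiplicity (2 : ℤ) P.b, b', ?_, hb', hb⟩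
  exact Nat.pos_of_ne_zero (multiplicity_ne_zero.mpr (two_dvd_b P))

theorem exists_a₄Z_eq (P : FreyPackage) :
    ∃ (e : ℕ) (u : ℤ), 0 < e ∧ ¬ (2 : ℤ) ∣ u ∧ 16 * a₄Z P = 2 ^ (P.p * e) * u := by
  obtain ⟨e, b', he, hb', hb⟩ := exists_b_eq P
  refine ⟨e, -(P.a ^ P.p) * b' ^ P.p, he, ?_, ?_⟩
  · intro h
    rcases Int.prime_two.dvd_or_dvd h with h1 | h1
    · exact not_two_dvd_a P (Int.prime_two.dvd_of_dvd_pow ((dvd_neg).mp h1))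
    · exact hb' (Int.prime_two.dvd_of_dvd_pow h1)
  · rw [sixteen_mul_a₄Z]
    conv_lhs => rw [hb]
    rw [mul_pow, ← pow_mul, mul_comm e P.p]
    ring

/-! ## Valuations -/

section Val

variable (P : FreyPackage) {ℓ : ℕ} (hℓ : ℓ.Prime) (A : ValuationSubring Qbar)
  (hA : A.LiesOverPrime ℓ)

include hℓ hA

theorem val_a₄Z_lt_one (h : (ℓ : ℤ) ∣ P.a * P.b) : A.valuation ((a₄Z P : ℤ) : Qbar) < 1 :=
  S05.valuation_intCast_lt_one A hA (dvd_a₄Z_of_dvd P hℓ h)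

theorem val_b₂_eq_one (h : (ℓ : ℤ) ∣ P.a * P.b) :
    A.valuation ((((1 : ℤ) : Qbar)) ^ 2 + 4 * ((a₂Z P : ℤ) : Qbar)) = 1 := by
  have h1 := S05.valuation_intCast_eq_one (L := Qbar) A hℓ hA (not_dvd_b₂_of_dvd P hℓ h)
  have h2 : (((1 : ℤ) : Qbar)) ^ 2 + 4 * ((a₂Z P : ℤ) : Qbar) = ((1 + 4 * a₂Z P : ℤ) : Qbar) := by
    push_cast; ring
  rw [h2]
  exact h1

theorem val_a₄Z_eq_one (h : ¬ (ℓ : ℤ) ∣ P.a * P.b) : A.valuation ((a₄Z P : ℤ) : Qbar) = 1 :=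
  S05.valuation_intCast_eq_one A hℓ hA (not_dvd_a₄Z_of_not_dvd P hℓ h)

theorem val_disc_eq_one (h : ¬ (ℓ : ℤ) ∣ P.c) :
    A.valuation (((((1 : ℤ) : Qbar)) ^ 2 + 4 * ((a₂Z P : ℤ) : Qbar)) ^ 2
      - 64 * ((a₄Z P : ℤ) : Qbar)) = 1 := by
  have h1 := S05.valuation_intCast_eq_one (L := Qbar) A hℓ hA (not_dvd_disc_of_not_dvd P hℓ h)
  have h2 : ((((1 : ℤ) : Qbar)) ^ 2 + 4 * ((a₂Z P : ℤ) : Qbar)) ^ 2 - 64 * ((a₄Z P : ℤ) : Qbar)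
      = (((1 + 4 * a₂Z P) ^ 2 - 64 * a₄Z P : ℤ) : Qbar) := by
    push_cast; ring
  rw [h2]
  exact h1

/-- powers of `2` are units at an odd prime -/
theorem val_two_pow_eq_one (h2 : ℓ ≠ 2) (k : ℕ) : A.valuation ((2 : Qbar) ^ k) = 1 := by
  have h1 := S05.valuation_intCast_eq_one (L := Qbar) A hℓ hA (not_dvd_ofNat_of_ne_two hℓ h2 k)
  have h3 : (((2 : ℤ) ^ k : ℤ) : Qbar) = (2 : Qbar) ^ k := by push_cast; ring
  rwa [h3] at h1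

theorem val_a₂c_le_one (h2 : ℓ ≠ 2) : A.valuation (a₂c P) ≤ 1 := by
  have h4 : A.valuation ((2 : Qbar) ^ 2) = 1 := val_two_pow_eq_one hℓ A hA h2 2
  have h5 : a₂c P = ((P.b ^ P.p - 1 + 2 * P.a ^ P.p : ℤ) : Qbar) / (2 : Qbar) ^ 2 := by
    rw [a₂c]; push_cast; norm_num
  rw [h5, map_div₀, h4, div_one]
  exact S05.valuation_intCast_le_one A _

theorem val_rc_le_one (h2 : ℓ ≠ 2) : A.valuation (rc P) ≤ 1 := by
  have h4 : A.valuation ((2 : Qbar) ^ 2) = 1 := val_two_pow_eq_one hℓ A hA h2 2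
  have h5 : rc P = ((P.a ^ P.p : ℤ) : Qbar) / (2 : Qbar) ^ 2 := by
    rw [rc]; push_cast; norm_num
  rw [h5, map_div₀, h4, div_one]
  exact S05.valuation_intCast_le_one A _

theorem val_sc_le_one (h2 : ℓ ≠ 2) : A.valuation (sc P) ≤ 1 := by
  have h4 : A.valuation ((2 : Qbar) ^ 3) = 1 := val_two_pow_eq_one hℓ A hA h2 3
  have h5 : sc P = ((-(P.a ^ P.p) : ℤ) : Qbar) / (2 : Qbar) ^ 3 := by
    rw [sc]; push_cast; norm_num
  rw [h5, map_div₀, h4, div_one]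
  exact S05.valuation_intCast_le_one A _

theorem val_a₄c_lt_one (h2 : ℓ ≠ 2) (hc : (ℓ : ℤ) ∣ P.c) : A.valuation (a₄c P) < 1 := by
  have h4 : A.valuation ((2 : Qbar) ^ 4) = 1 := val_two_pow_eq_one hℓ A hA h2 4
  have h5 : a₄c P = ((P.a ^ P.p * P.c ^ P.p : ℤ) : Qbar) / (2 : Qbar) ^ 4 := by
    rw [a₄c]; push_cast; norm_num
  rw [h5, map_div₀, h4, div_one]
  exact S05.valuation_intCast_lt_one A hA ((dvd_pow hc P.hp0).mul_left _)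

theorem val_b₂c_eq_one (hc : (ℓ : ℤ) ∣ P.c) :
    A.valuation ((1 : Qbar) ^ 2 + 4 * a₂c P) = 1 := by
  have h5 : (1 : Qbar) ^ 2 + 4 * a₂c P = ((P.c ^ P.p + P.a ^ P.p : ℤ) : Qbar) := by
    rw [a₂c, ← P.hFLT]; push_cast; ring
  rw [h5]
  apply S05.valuation_intCast_eq_one A hℓ hA
  intro hd
  have h1 : (ℓ : ℤ) ∣ P.c ^ P.p := dvd_pow hc P.hp0
  have h3 : (ℓ : ℤ) ∣ P.a ^ P.p := by
    have : P.a ^ P.p = (P.c ^ P.p + P.a ^ P.p) - P.c ^ P.p := by ring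
    rw [this]
    exact dvd_sub hd h1
  exact not_dvd_a_and_c P hℓ ((prime_intCast hℓ).dvd_of_dvd_pow h3) hc

end Val

theorem a₄c_ne_zero (P : FreyPackage) : a₄c P ≠ 0 := by
  rw [a₄c]
  have ha : (P.a : Qbar) ≠ 0 := by exact_mod_cast P.ha0
  have hc : (P.c : Qbar) ≠ 0 := by exact_mod_cast P.hc0
  exact div_ne_zero (mul_ne_zero (pow_ne_zero _ ha) (pow_ne_zero _ hc)) (by norm_num)

theorem val_a₄Z_two (P : FreyPackage) (A : ValuationSubring Qbar) (hA : A.LiesOverPrime 2) :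
    ∃ e : ℕ, 0 < e ∧
      A.valuation ((a₄Z P : ℤ) : Qbar) = A.valuation (2 : Qbar) ^ ((P.p * e : ℤ) - 4) := by
  obtain ⟨e, u, he, hu, h⟩ := exists_a₄Z_eq P
  refine ⟨e, he, ?_⟩
  have hu1 : A.valuation ((u : ℤ) : Qbar) = 1 :=
    S05.valuation_intCast_eq_one A Nat.prime_two hA (by exact_mod_cast hu)
  have h2 : A.valuation (2 : Qbar) ≠ 0 := (Valuation.ne_zero_iff _).mpr (by norm_num)
  have hc : (2 : Qbar) ^ 4 * ((a₄Z P : ℤ) : Qbar) = (2 : Qbar) ^ (P.p * e) * ((u : ℤ) : Qbar) := by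
    have := congrArg (Int.cast : ℤ → Qbar) h
    push_cast at this
    rw [← this]
    norm_num
  have hv := congrArg A.valuation hc
  rw [map_mul, map_mul, map_pow, map_pow, hu1, mul_one] at hv
  rw [zpow_sub₀ h2, eq_div_iff (zpow_ne_zero _ h2), mul_comm]
  have h4 : A.valuation (2 : Qbar) ^ (4 : ℤ) = A.valuation (2 : Qbar) ^ (4 : ℕ) := by
    exact_mod_cast zpow_natCast (A.valuation (2 : Qbar)) 4
  have h5 : A.valuation (2 : Qbar) ^ ((P.p : ℤ) * (e : ℤ)) = A.valuation (2 : Qbar) ^ (P.p * e) := by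
    exact_mod_cast zpow_natCast (A.valuation (2 : Qbar)) (P.p * e)
  rw [h4, h5]
  exact hv

end Fermat.Agent.S13
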