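import Mathlib
import Fermat.Prelude.Def_FLTPrelim_Ramification
import Fermat.Agent.Lib.Frobenius.Integers
import Fermat.Agent.Lib.Frobenius.Fraction

/-!
# S13-T11: Minkowski in the language of the prelude

A proper open normal subgroup `J` of the absolute Galois group of `ℚ` misses the inertia group
of every place above some prime `ℓ`.

* `Global.exists_prime_forall_exists_inertia`: finite level (Minkowski + `#I = e`).
* `Global.exists_mul_forall_smul_sub_mem`: abstract lifting of inertia elements along a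
  profinite normal subgroup.
* `Global.mem_inertiaSubgroupIn_of`: congruent to the identity on algebraic integers implies
  membership of `A.inertiaSubgroupIn`.
* `exists_prime_forall_not_inertia_le`: the final statement.
-/

set_option autoImplicit false
set_option linter.style.haveILetI false

namespace Fermat.Agent.S13.Global

open scoped NumberField Pointwise
open Fermat.Agent.Lib.Frobenius

/-- Finite level: a Galois number field `F ≠ ℚ` has a rational prime `p` such that for every
prime `P` of `𝓞 F` above `p` the inertia group of `P` is non-trivial. -/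
theorem exists_prime_forall_exists_inertia (F : Type*) [Field F] [NumberField F] [IsGalois ℚ F]
    (H : 1 < Module.finrank ℚ F) :
    ∃ p : ℕ, p.Prime ∧ ∀ (P : Ideal (𝓞 F)) (_ : P.IsPrime), (p : 𝓞 F) ∈ P →
      ∃ τ : F ≃ₐ[ℚ] F, τ ≠ 1 ∧ ∀ x : 𝓞 F, τ • x - x ∈ P := by
  obtain ⟨p, hp, h⟩ := NumberField.exists_not_isUnramifiedAt_int_of_isGalois (K := F) (𝒪 := 𝓞 F) H
  refine ⟨p, hp, fun P hP hpP => ?_⟩
  have h1 := h P hP hpP
  have hprime : Prime (p : ℤ) := Nat.prime_iff_prime_int.mp hp
  have hLO : P.LiesOver (Ideal.span {(p : ℤ)}) :=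
    (Ideal.liesOver_span_iff Ideal.IsPrime.ne_top' hprime).mpr (by simpa using hpP)
  have : (Ideal.span {(p : ℤ)}).IsPrime := by
    rw [Ideal.span_singleton_prime hprime.ne_zero]; exact hprime
  have hcard := Ideal.card_inertia_eq_ramificationIdxIn (G := F ≃ₐ[ℚ] F) (Ideal.span {(p : ℤ)}) P
  rw [Ideal.ramificationIdxIn_eq_ramificationIdx (Ideal.span {(p : ℤ)}) P (F ≃ₐ[ℚ] F)] at hcard
  rw [← Ideal.ramificationIdx_eq_one_iff, ← hcard] at h1
  by_contra hcon
  push Not at hcon
  apply h1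
  rw [Nat.card_eq_one_iff_unique]
  have key : ∀ a : Ideal.inertia (F ≃ₐ[ℚ] F) P, a = 1 := by
    intro a
    by_contra ha
    obtain ⟨x, hx⟩ := hcon a.1 (fun h => ha (Subtype.ext h))
    exact hx (a.2 x)
  exact ⟨⟨fun a b => (key a).trans (key b).symm⟩, ⟨1⟩⟩

/-- Version of `exists_prime_forall_exists_inertia` for an arbitrary `ℚ`-algebra instance. -/
theorem exists_prime_forall_exists_inertia' (F : Type*) [Field F] [NumberField F]
    [alg : Algebra ℚ F] [IsGalois ℚ F] (H : 1 < Module.finrank ℚ F) :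
    ∃ p : ℕ, p.Prime ∧ ∀ (P : Ideal (𝓞 F)) (_ : P.IsPrime), (p : 𝓞 F) ∈ P →
      ∃ τ : F ≃ₐ[ℚ] F, τ ≠ 1 ∧ ∀ x : 𝓞 F, τ • x - x ∈ P := by
  obtain rfl : alg = DivisionRing.toRatAlgebra := Subsingleton.elim _ _
  exact exists_prime_forall_exists_inertia F H

/-- Abstract lifting of inertia elements. -/
theorem exists_mul_forall_smul_sub_mem
    {Γ B C : Type*} [Group Γ] [CommRing B] [CommRing C] [Algebra C B] [MulSemiringAction Γ B]
    (H : Subgroup Γ) [SMulCommClass H C B] [Algebra.IsInvariant C B H]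
    [TopologicalSpace H] [CompactSpace H] [TotallyDisconnectedSpace H] [IsTopologicalGroup H]
    [TopologicalSpace B] [DiscreteTopology B] [ContinuousSMul H B]
    (Q : Ideal B) [Q.IsPrime] (τ : Γ) (t : C ≃+* C)
    (ht : ∀ c, τ • algebraMap C B c = algebraMap C B (t c))
    (hin : ∀ c, algebraMap C B (t c) - algebraMap C B c ∈ Q) :
    ∃ h ∈ H, ∀ b : B, (h * τ) • b - b ∈ Q := by
  -- Step 1
  have h1 : (τ • Q).under C = Q.under C := by
    ext x
    rw [Ideal.mem_comap, Ideal.mem_comap, Ideal.mem_pointwise_smul_iff_inv_smul_mem]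
    have e1 : τ⁻¹ • algebraMap C B x = algebraMap C B (t.symm x) := by
      rw [inv_smul_eq_iff, ht, RingEquiv.apply_symm_apply]
    rw [e1]
    have e2 := hin (t.symm x)
    rw [RingEquiv.apply_symm_apply] at e2
    constructor
    · intro h
      have := Q.add_mem e2 h
      simpa using this
    · intro h
      have := Q.sub_mem h e2
      simpa using this
  obtain ⟨h, hh⟩ := Algebra.IsInvariant.exists_smul_of_under_eq_of_profinite (A := C) (G := H)
    (τ • Q) Q h1
  set σ : Γ := (h : Γ) * τ with hσ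
  have hσQ : σ • Q = Q := by
    rw [hσ, mul_smul]
    exact hh.symm
  have hσc : ∀ c : C, σ • algebraMap C B c - algebraMap C B c ∈ Q := by
    intro c
    rw [hσ, mul_smul, ht]
    have : (h : Γ) • algebraMap C B (t c) = algebraMap C B (t c) := by
      change h • algebraMap C B (t c) = algebraMap C B (t c)
      exact smul_algebraMap h (t c)
    rw [this]
    exact hin c
  let e : (B ⧸ Q) ≃ₐ[C ⧸ Q.under C] (B ⧸ Q) :=
    { __ := Ideal.quotientEquiv Q Q (MulSemiringAction.toRingEquiv Γ B σ) hσQ.symm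
      commutes' := by
        intro r
        obtain ⟨c, rfl⟩ := Ideal.Quotient.mk_surjective r
        change Ideal.Quotient.mk Q (σ • algebraMap C B c) = Ideal.Quotient.mk Q (algebraMap C B c)
        rw [Ideal.Quotient.eq]
        exact hσc c }
  obtain ⟨h', hh'⟩ := Ideal.Quotient.stabilizerHom_surjective_of_profinite
    (G := H) (Q.under C) Q e
  refine ⟨((h'.1)⁻¹ * h : H), ((h'.1)⁻¹ * h : H).2, fun b => ?_⟩
  have h2 := DFunLike.congr_fun hh' (Ideal.Quotient.mk Q b)
  change Ideal.Quotient.mk Q (h'.1 • b) = Ideal.Quotient.mk Q (σ • b) at h2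
  rw [Ideal.Quotient.eq] at h2
  have h4 : (h'.1)⁻¹ • (h'.1 • b - σ • b) ∈ Q := by
    have h6 : h'.1 • b - σ • b ∈ h'.1 • Q := (SetLike.ext_iff.mp h'.2 _).mpr h2
    exact Ideal.mem_pointwise_smul_iff_inv_smul_mem.mp h6
  rw [smul_sub, inv_smul_smul] at h4
  have h5 : (((h'.1)⁻¹ * h : H) * τ : Γ) • b = (h'.1)⁻¹ • (σ • b) := by
    rw [hσ, Subgroup.coe_mul, mul_assoc, mul_smul]
    rfl
  rw [h5]
  have := Q.neg_mem h4
  simpa using this

/-- Integral elements lie in every valuation subring. -/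
theorem mem_of_isIntegral_int {L : Type*} [Field L] (A : ValuationSubring L) {x : L}
    (hx : IsIntegral ℤ x) : x ∈ A := by
  have h1 : IsIntegral A x := hx.tower_top
  obtain ⟨y, hy⟩ := (IsIntegrallyClosed.isIntegral_iff (R := A) (K := L)).1 h1
  rw [← hy]
  exact y.2

/-- An automorphism which is congruent to the identity on integral elements is in the inertia
group. -/
theorem mem_inertiaSubgroupIn_of {K L : Type*} [Field K] [Field L] [Algebra K L]
    (A : ValuationSubring L) (σ : L ≃ₐ[K] L)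
    (hfrac : ∀ x ∈ A, ∃ b c : L, IsIntegral ℤ b ∧ IsIntegral ℤ c ∧ b ∉ A.nonunits ∧ x * b = c)
    (hσ : ∀ x : L, IsIntegral ℤ x → σ x - x ∈ A.nonunits) :
    σ ∈ A.inertiaSubgroupIn K := by
  classical
  set v := A.valuation with hv
  have hle : ∀ x, IsIntegral ℤ x → v x ≤ 1 := fun x hx =>
    (A.valuation_le_one_iff x).2 (mem_of_isIntegral_int A hx)
  have hσ' : ∀ x, IsIntegral ℤ x → v (σ x - x) < 1 := fun x hx =>
    A.mem_nonunits_iff.1 (hσ x hx)
  have hσint : ∀ x, IsIntegral ℤ x → IsIntegral ℤ (σ x) := fun x hx =>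
    hx.map (σ : L →ₐ[K] L).toRingHom.toIntAlgHom
  have hσsint : ∀ x, IsIntegral ℤ x → IsIntegral ℤ (σ.symm x) := fun x hx =>
    hx.map (σ.symm : L →ₐ[K] L).toRingHom.toIntAlgHom
  have hσs' : ∀ x, IsIntegral ℤ x → v (σ.symm x - x) < 1 := by
    intro x hx
    have := hσ' _ (hσsint x hx)
    rw [AlgEquiv.apply_symm_apply] at this
    rwa [← Valuation.map_neg, neg_sub]
  have one_of : ∀ b, IsIntegral ℤ b → b ∉ A.nonunits → v b = 1 := by
    intro b hb hbn
    rw [A.mem_nonunits_iff, not_lt] at hbn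
    exact le_antisymm (hle b hb) hbn
  -- general: `v (y - b) < 1`, `v b = 1` implies `v y = 1`
  have one_gen : ∀ y b, v (y - b) < 1 → v b = 1 → v y = 1 := by
    intro y b h1 h2
    have : y = b + (y - b) := by ring
    rw [this, Valuation.map_add_eq_of_lt_left _ (by rw [h2]; exact h1), h2]
  have hmap : ∀ x ∈ A, σ x ∈ A := by
    intro x hx
    obtain ⟨b, c, hb, hc, hbn, hxbc⟩ := hfrac x hx
    have h1 : v (σ b) = 1 := one_gen _ _ (hσ' b hb) (one_of b hb hbn)
    have h2 : σ x * σ b = σ c := by rw [← map_mul, hxbc]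
    rw [← A.valuation_le_one_iff]
    have h3 : v (σ x) = v (σ c) := by rw [← h2, map_mul, h1, mul_one]
    show v (σ x) ≤ 1
    rw [h3]
    exact hle _ (hσint c hc)
  have hmaps : ∀ x ∈ A, σ.symm x ∈ A := by
    intro x hx
    obtain ⟨b, c, hb, hc, hbn, hxbc⟩ := hfrac x hx
    have h1 : v (σ.symm b) = 1 := one_gen _ _ (hσs' b hb) (one_of b hb hbn)
    have h2 : σ.symm x * σ.symm b = σ.symm c := by rw [← map_mul, hxbc]
    rw [← A.valuation_le_one_iff]
    have h3 : v (σ.symm x) = v (σ.symm c) := by rw [← h2, map_mul, h1, mul_one]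
    show v (σ.symm x) ≤ 1
    rw [h3]
    exact hle _ (hσsint c hc)
  have hdec : σ ∈ A.decompositionSubgroup K := by
    rw [MulAction.mem_stabilizer_iff]
    ext x
    rw [ValuationSubring.mem_pointwise_smul_iff_inv_smul_mem]
    constructor
    · intro h
      have := hmap _ h
      simpa using this
    · intro h
      exact hmaps x h
  refine ⟨⟨σ, hdec⟩, ?_, rfl⟩
  change MulSemiringAction.toRingAut (A.decompositionSubgroup K)
      (IsLocalRing.ResidueField A) ⟨σ, hdec⟩ = 1
  ext x
  obtain ⟨a, rfl⟩ := IsLocalRing.residue_surjective x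
  change (⟨σ, hdec⟩ : A.decompositionSubgroup K) • IsLocalRing.residue A a = IsLocalRing.residue A a
  rw [← IsLocalRing.ResidueField.residue_smul, ← sub_eq_zero, ← map_sub,
    IsLocalRing.residue_eq_zero_iff, A.valuation_lt_one_iff]
  obtain ⟨b, c, hb, hc, hbn, hxbc⟩ := hfrac a a.2
  have h1 : v (σ b) = 1 := one_gen _ _ (hσ' b hb) (one_of b hb hbn)
  have hcoe : (((⟨σ, hdec⟩ : A.decompositionSubgroup K) • a - a : A) : L)
      = σ (a : L) - (a : L) := rfl
  rw [hcoe]
  have h2 : (σ (a : L) - (a : L)) * σ b = (σ c - c) - (a : L) * (σ b - b) := by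
    rw [← hxbc, map_mul]; ring
  have h3 : v (σ (a : L) - (a : L)) = v ((σ c - c) - (a : L) * (σ b - b)) := by
    rw [← h2, map_mul, h1, mul_one]
  show v _ < 1
  rw [h3]
  refine lt_of_le_of_lt (v.map_sub _ _) (max_lt (hσ' c hc) ?_)
  rw [map_mul]
  have h4 : v (a : L) ≤ 1 := A.valuation_le_one a
  calc v (a : L) * v (σ b - b) ≤ 1 * v (σ b - b) := mul_le_mul_left h4 _
    _ = v (σ b - b) := one_mul _
    _ < 1 := hσ' b hb

end Fermat.Agent.S13.Global

namespace Fermat.Agent.S13

open scoped NumberField Pointwise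
open Fermat.Agent.Lib.Frobenius Fermat.Agent.S13.Global

theorem exists_prime_forall_not_inertia_le
    (J : Subgroup (AlgebraicClosure ℚ ≃ₐ[ℚ] AlgebraicClosure ℚ)) [J.Normal]
    (L : IntermediateField ℚ (AlgebraicClosure ℚ)) [FiniteDimensional ℚ L]
    (hL : L.fixingSubgroup ≤ J) (hJ : J ≠ ⊤) :
    ∃ ℓ : ℕ, ℓ.Prime ∧ ∀ A : ValuationSubring (AlgebraicClosure ℚ), A.LiesOverPrime ℓ →
      ¬ (A.inertiaSubgroupIn ℚ ≤ J) := by
  classical
  have := isGalois_rat
  have := isIntegral_rat
  -- `J` is open, hence closed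
  have hJopen : IsOpen (J : Set (AlgebraicClosure ℚ ≃ₐ[ℚ] AlgebraicClosure ℚ)) :=
    Subgroup.isOpen_mono hL (IntermediateField.fixingSubgroup_isOpen L)
  have hJclosed : IsClosed (J : Set (AlgebraicClosure ℚ ≃ₐ[ℚ] AlgebraicClosure ℚ)) :=
    Subgroup.isClosed_of_isOpen J hJopen
  set F : IntermediateField ℚ (AlgebraicClosure ℚ) := IntermediateField.fixedField J with hF
  have hFJ : F.fixingSubgroup = J :=
    InfiniteGalois.fixingSubgroup_fixedField (⟨J, hJclosed⟩ : ClosedSubgroup _)
  have hFL : F ≤ L := by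
    rw [← InfiniteGalois.fixedField_fixingSubgroup L]
    exact IntermediateField.fixedField_antitone hL
  have hFfin : FiniteDimensional ℚ F := by
    let _ : Algebra F L := RingHom.toAlgebra (IntermediateField.inclusion hFL)
    exact FiniteDimensional.left ℚ F L
  letI algF : Algebra ℚ F := IntermediateField.algebra' F
  have hFgal : IsGalois ℚ F := by
    rw [← InfiniteGalois.normal_iff_isGalois, hFJ]
    infer_instance
  have hFbot : F ≠ ⊥ := by
    intro h
    apply hJ
    rw [← hFJ, h]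
    exact IntermediateField.fixingSubgroup_bot
  have hNF : NumberField F := { to_charZero := inferInstance, to_finiteDimensional := hFfin }
  have hrank : 1 < Module.finrank ℚ F := by
    have h0 : 0 < Module.finrank ℚ F := Module.finrank_pos
    have h1 : Module.finrank ℚ F ≠ 1 := fun h => hFbot (IntermediateField.finrank_eq_one_iff.mp h)
    omega
  obtain ⟨ℓ, hℓ, hram⟩ := exists_prime_forall_exists_inertia' F hrank
  refine ⟨ℓ, hℓ, fun A hA hle => ?_⟩
  -- the ring of all algebraic integers and its prime below `A`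
  have hmem : ∀ x : 𝓞 (AlgebraicClosure ℚ), (x : AlgebraicClosure ℚ) ∈ A :=
    fun x => mem_of_isIntegral_int A x.2
  let ι : 𝓞 (AlgebraicClosure ℚ) →+* A :=
    { toFun := fun x => ⟨x.1, hmem x⟩
      map_one' := rfl
      map_mul' := fun _ _ => rfl
      map_zero' := rfl
      map_add' := fun _ _ => rfl }
  let Q : Ideal (𝓞 (AlgebraicClosure ℚ)) := (IsLocalRing.maximalIdeal A).comap ι
  have hQmem : ∀ x : 𝓞 (AlgebraicClosure ℚ), x ∈ Q ↔ (x : AlgebraicClosure ℚ) ∈ A.nonunits := by
    intro x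
    rw [ValuationSubring.mem_nonunits_iff_exists_mem_maximalIdeal]
    constructor
    · intro h
      exact ⟨hmem x, h⟩
    · rintro ⟨_, h⟩
      exact h
  have hQprime : Q.IsPrime := Ideal.comap_isPrime ι _
  have hcomm : SMulCommClass J (𝓞 F) (𝓞 (AlgebraicClosure ℚ)) := by
    constructor
    intro j c b
    apply NumberField.RingOfIntegers.ext
    have hj : (j : AlgebraicClosure ℚ ≃ₐ[ℚ] AlgebraicClosure ℚ) ((c : F) : AlgebraicClosure ℚ)
        = ((c : F) : AlgebraicClosure ℚ) := (c : F).2 j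
    change (j : AlgebraicClosure ℚ ≃ₐ[ℚ] AlgebraicClosure ℚ)
        (((c : F) : AlgebraicClosure ℚ) * (b : AlgebraicClosure ℚ)) =
      ((c : F) : AlgebraicClosure ℚ) *
        (j : AlgebraicClosure ℚ ≃ₐ[ℚ] AlgebraicClosure ℚ) (b : AlgebraicClosure ℚ)
    rw [map_mul, hj]
  have hinv : Algebra.IsInvariant (𝓞 F) (𝓞 (AlgebraicClosure ℚ)) J := by
    constructor
    intro b hb
    have hbF : (b : AlgebraicClosure ℚ) ∈ F := by
      intro j
      exact congrArg (fun y : 𝓞 (AlgebraicClosure ℚ) => (y : AlgebraicClosure ℚ)) (hb j)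
    have hbint : IsIntegral ℤ (⟨(b : AlgebraicClosure ℚ), hbF⟩ : F) := by
      have h1 : IsIntegral ℤ (b : AlgebraicClosure ℚ) := b.2
      exact (isIntegral_algebraMap_iff (B := AlgebraicClosure ℚ)
        (FaithfulSMul.algebraMap_injective F (AlgebraicClosure ℚ))).mp h1
    exact ⟨⟨⟨(b : AlgebraicClosure ℚ), hbF⟩, hbint⟩, NumberField.RingOfIntegers.ext rfl⟩
  have hcompact : CompactSpace J := isCompact_iff_compactSpace.mp hJclosed.isCompact
  letI : TopologicalSpace (𝓞 (AlgebraicClosure ℚ)) := ⊥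
  have : DiscreteTopology (𝓞 (AlgebraicClosure ℚ)) := ⟨rfl⟩
  have hcont : ContinuousSMul J (𝓞 (AlgebraicClosure ℚ)) := by
    rw [continuousSMul_iff_stabilizer_isOpen]
    intro x
    have h1 := stabilizer_isOpen_of_isIntegral (K := ℚ) (L := AlgebraicClosure ℚ)
      (x : AlgebraicClosure ℚ)
    have h2 := h1.preimage (continuous_subtype_val (p := fun y => y ∈ J))
    convert h2 using 1
    ext σ
    simp only [SetLike.mem_coe, MulAction.mem_stabilizer_iff, Set.mem_preimage]
    constructor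
    · intro h
      exact congrArg (fun y : 𝓞 (AlgebraicClosure ℚ) => (y : AlgebraicClosure ℚ)) h
    · intro h
      exact NumberField.RingOfIntegers.ext h
  have hP : (Q.under (𝓞 F)).IsPrime := inferInstance
  have hℓP : (ℓ : 𝓞 F) ∈ Q.under (𝓞 F) := by
    rw [Ideal.mem_comap, map_natCast, hQmem]
    have hA' : (ℓ : AlgebraicClosure ℚ) ∈ A.nonunits := hA
    simpa using hA'
  obtain ⟨τbar, hτ1, hτ2⟩ := hram _ hP hℓP
  obtain ⟨τ, rfl⟩ := AlgEquiv.restrictNormalHom_surjective (F := ℚ) (K₁ := F)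
    (AlgebraicClosure ℚ) τbar
  obtain ⟨h, hhJ, hh⟩ := exists_mul_forall_smul_sub_mem (C := 𝓞 F) J Q τ
    (MulSemiringAction.toRingEquiv _ (𝓞 F) (AlgEquiv.restrictNormalHom F τ))
    (by
      intro c
      apply NumberField.RingOfIntegers.ext
      exact (AlgEquiv.restrictNormalHom_apply F τ (c : F)).symm)
    (by
      intro c
      rw [← map_sub]
      exact hτ2 c)
  have hin : h * τ ∈ A.inertiaSubgroupIn ℚ := by
    refine mem_inertiaSubgroupIn_of A (h * τ) (exists_integral_fraction A) ?_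
    intro x hx
    exact (hQmem _).mp (hh ⟨x, hx⟩)
  have hτJ : τ ∈ J := by
    have := J.mul_mem (J.inv_mem hhJ) (hle hin)
    simpa using this
  apply hτ1
  ext x
  rw [AlgEquiv.restrictNormalHom_apply]
  exact x.2 ⟨τ, hτJ⟩

end Fermat.Agent.S13
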