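import Fermat.Agent.S13.Model

/-!
# S13: the Montgomery ladder polynomials

For the curve `Y^2 + a₁ X Y = X^3 + a₂ X^2 + a₄ X` (with `b₂ = a₁^2 + 4 a₂`) we define polynomial
pairs `(ladF n, ladG n)` with `x (n P) = ladF n (x P) / ladG n (x P)` by the doubling and
differential addition formulas.  They play the role of division polynomials:

* `ladG_natDegree_le`, `ladG_coeff`: degree and top coefficient of `ladG n`;
* `ladG_odd`: `ladG (2 k + 1) = ladH k ^ 2`, with degree and top coefficient of `ladH k`;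
* `Model.nsmul_eq_zero_iff`: `n • P = 0 ↔ ladG n (x P) = 0`.
-/

set_option autoImplicit false

namespace Fermat.Agent.S13

open Polynomial

section Defs

variable {R : Type*} [CommRing R]

/-- The doubling step of the ladder. -/
noncomputable def ladDbl (b₂ a₄ : R) (L : R[X] × R[X]) : R[X] × R[X] :=
  ((L.1 ^ 2 - C a₄ * L.2 ^ 2) ^ 2,
    L.1 * L.2 * (4 * L.1 ^ 2 + C b₂ * L.1 * L.2 + 4 * C a₄ * L.2 ^ 2))

/-- The differential addition step of the ladder (the difference being the base point). -/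
noncomputable def ladAdd (b₂ a₄ : R) (L L' : R[X] × R[X]) : R[X] × R[X] :=
  (2 * (L.1 * L'.2 + L'.1 * L.2) * (L.1 * L'.1) + C b₂ * (L.1 * L'.1) * (L.2 * L'.2)
      + 2 * C a₄ * (L.1 * L'.2 + L'.1 * L.2) * (L.2 * L'.2)
      - X * ((L.1 * L'.2 + L'.1 * L.2) ^ 2 - 4 * (L.1 * L'.1) * (L.2 * L'.2)),
    (L.1 * L'.2 + L'.1 * L.2) ^ 2 - 4 * (L.1 * L'.1) * (L.2 * L'.2))

/-- The pair `(F_n, G_n)`. -/
noncomputable def ladFG (b₂ a₄ : R) : ℕ → R[X] × R[X]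
  | 0 => (1, 0)
  | 1 => (X, 1)
  | (n + 2) =>
    if n % 2 = 0 then ladDbl b₂ a₄ (ladFG b₂ a₄ (n / 2 + 1))
    else ladAdd b₂ a₄ (ladFG b₂ a₄ ((n + 1) / 2)) (ladFG b₂ a₄ ((n + 1) / 2 + 1))
  decreasing_by all_goals omega

/-- Numerator of `x (n P)`. -/
noncomputable def ladF (b₂ a₄ : R) (n : ℕ) : R[X] := (ladFG b₂ a₄ n).1

/-- Denominator of `x (n P)`. -/
noncomputable def ladG (b₂ a₄ : R) (n : ℕ) : R[X] := (ladFG b₂ a₄ n).2

/-- The square root of `ladG (2 k + 1)`. -/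
noncomputable def ladH (b₂ a₄ : R) (k : ℕ) : R[X] :=
  ladF b₂ a₄ k * ladG b₂ a₄ (k + 1) - ladF b₂ a₄ (k + 1) * ladG b₂ a₄ k

theorem ladFG_zero (b₂ a₄ : R) : ladFG b₂ a₄ 0 = (1, 0) := by
  rw [ladFG]

theorem ladFG_one (b₂ a₄ : R) : ladFG b₂ a₄ 1 = (X, 1) := by
  rw [ladFG]

theorem ladFG_two_mul (b₂ a₄ : R) (n : ℕ) :
    ladFG b₂ a₄ (2 * n) = ladDbl b₂ a₄ (ladFG b₂ a₄ n) := by
  rcases n with _ | n
  · simp [ladFG_zero, ladDbl]
  · have h : 2 * (n + 1) = 2 * n + 2 := by ring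
    rw [h, ladFG, if_pos (by omega)]
    congr 2
    omega

theorem ladFG_two_mul_add_one (b₂ a₄ : R) (n : ℕ) :
    ladFG b₂ a₄ (2 * n + 1) = ladAdd b₂ a₄ (ladFG b₂ a₄ n) (ladFG b₂ a₄ (n + 1)) := by
  rcases n with _ | n
  · simp [ladFG_zero, ladFG_one, ladAdd]
    ring
  · have h : 2 * (n + 1) + 1 = (2 * n + 1) + 2 := by ring
    rw [h, ladFG, if_neg (by omega)]
    have h1 : (2 * n + 1 + 1) / 2 = n + 1 := by omega
    rw [h1]

/-- Induction along the ladder. -/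
theorem lad_induction {p : ℕ → Prop} (h0 : p 0) (h1 : p 1)
    (hd : ∀ n, 0 < n → p n → p (2 * n))
    (ha : ∀ n, 0 < n → p n → p (n + 1) → p (2 * n + 1)) (n : ℕ) : p n := by
  induction n using Nat.strong_induction_on with
  | _ n ih =>
    rcases Nat.even_or_odd' n with ⟨m, rfl | rfl⟩
    · rcases Nat.eq_zero_or_pos m with rfl | hm
      · exact h0
      · exact hd m hm (ih m (by omega))
    · rcases Nat.eq_zero_or_pos m with rfl | hm
      · exact h1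
      · exact ha m hm (ih m (by omega)) (ih (m + 1) (by omega))

@[simp] theorem ladF_zero (b₂ a₄ : R) : ladF b₂ a₄ 0 = 1 := by rw [ladF, ladFG_zero]
@[simp] theorem ladG_zero (b₂ a₄ : R) : ladG b₂ a₄ 0 = 0 := by rw [ladG, ladFG_zero]
@[simp] theorem ladF_one (b₂ a₄ : R) : ladF b₂ a₄ 1 = X := by rw [ladF, ladFG_one]
@[simp] theorem ladG_one (b₂ a₄ : R) : ladG b₂ a₄ 1 = 1 := by rw [ladG, ladFG_one]

theorem ladF_two_mul (b₂ a₄ : R) (n : ℕ) :
    ladF b₂ a₄ (2 * n) = (ladF b₂ a₄ n ^ 2 - C a₄ * ladG b₂ a₄ n ^ 2) ^ 2 := by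
  rw [ladF, ladFG_two_mul]; rfl

theorem ladG_two_mul (b₂ a₄ : R) (n : ℕ) :
    ladG b₂ a₄ (2 * n) = ladF b₂ a₄ n * ladG b₂ a₄ n *
      (4 * ladF b₂ a₄ n ^ 2 + C b₂ * ladF b₂ a₄ n * ladG b₂ a₄ n + 4 * C a₄ * ladG b₂ a₄ n ^ 2) := by
  rw [ladG, ladFG_two_mul]; rfl

theorem ladF_two_mul_add_one (b₂ a₄ : R) (n : ℕ) :
    ladF b₂ a₄ (2 * n + 1) =
      2 * (ladF b₂ a₄ n * ladG b₂ a₄ (n + 1) + ladF b₂ a₄ (n + 1) * ladG b₂ a₄ n)
          * (ladF b₂ a₄ n * ladF b₂ a₄ (n + 1))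
        + C b₂ * (ladF b₂ a₄ n * ladF b₂ a₄ (n + 1)) * (ladG b₂ a₄ n * ladG b₂ a₄ (n + 1))
        + 2 * C a₄ * (ladF b₂ a₄ n * ladG b₂ a₄ (n + 1) + ladF b₂ a₄ (n + 1) * ladG b₂ a₄ n)
          * (ladG b₂ a₄ n * ladG b₂ a₄ (n + 1))
        - X * ladH b₂ a₄ n ^ 2 := by
  rw [ladF, ladFG_two_mul_add_one]
  simp only [ladAdd, ladH, ladF, ladG]
  ring

theorem ladG_odd (b₂ a₄ : R) (k : ℕ) : ladG b₂ a₄ (2 * k + 1) = ladH b₂ a₄ k ^ 2 := by
  rw [ladG, ladFG_two_mul_add_one]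
  simp only [ladAdd, ladH, ladF, ladG]
  ring

end Defs

section Map

variable {R S : Type*} [CommRing R] [CommRing S]

theorem ladFG_map (f : R →+* S) (b₂ a₄ : R) (n : ℕ) :
    (ladF b₂ a₄ n).map f = ladF (f b₂) (f a₄) n ∧ (ladG b₂ a₄ n).map f = ladG (f b₂) (f a₄) n := by
  induction n using lad_induction with
  | h0 => simp
  | h1 => simp
  | hd n _ ih =>
    obtain ⟨ihF, ihG⟩ := ih
    constructor
    · rw [ladF_two_mul, ladF_two_mul, ← ihF, ← ihG]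
      simp only [Polynomial.map_pow, Polynomial.map_sub, Polynomial.map_mul, Polynomial.map_C]
    · rw [ladG_two_mul, ladG_two_mul, ← ihF, ← ihG]
      simp only [Polynomial.map_pow, Polynomial.map_add, Polynomial.map_mul, Polynomial.map_C,
        Polynomial.map_ofNat]
  | ha n _ ih ih' =>
    obtain ⟨ihF, ihG⟩ := ih
    obtain ⟨ihF', ihG'⟩ := ih'
    constructor
    · rw [ladF_two_mul_add_one, ladF_two_mul_add_one, ladH, ladH, ← ihF, ← ihG, ← ihF', ← ihG']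
      simp only [Polynomial.map_pow, Polynomial.map_add, Polynomial.map_sub, Polynomial.map_mul,
        Polynomial.map_C, Polynomial.map_ofNat, Polynomial.map_X]
    · rw [ladG_odd, ladG_odd, ladH, ladH, ← ihF, ← ihG, ← ihF', ← ihG']
      simp only [Polynomial.map_pow, Polynomial.map_sub, Polynomial.map_mul]

theorem ladF_map (f : R →+* S) (b₂ a₄ : R) (n : ℕ) :
    (ladF b₂ a₄ n).map f = ladF (f b₂) (f a₄) n := (ladFG_map f b₂ a₄ n).1

theorem ladG_map (f : R →+* S) (b₂ a₄ : R) (n : ℕ) :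
    (ladG b₂ a₄ n).map f = ladG (f b₂) (f a₄) n := (ladFG_map f b₂ a₄ n).2

theorem ladH_map (f : R →+* S) (b₂ a₄ : R) (k : ℕ) :
    (ladH b₂ a₄ k).map f = ladH (f b₂) (f a₄) k := by
  simp only [ladH, Polynomial.map_sub, Polynomial.map_mul, ladF_map, ladG_map]

end Map

section Degree

variable {R : Type*} [CommRing R]

/-- `f` has degree at most `d` and its coefficient at `X ^ d` is `c`. -/
def IsLead (f : R[X]) (d : ℕ) (c : R) : Prop := f.natDegree ≤ d ∧ f.coeff d = c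

namespace IsLead

variable {f g : R[X]} {d e : ℕ} {c c' : R}

theorem congr (h : IsLead f d c) (hd : d = e) (hc : c = c') : IsLead f e c' := by
  subst hd hc; exact h

theorem mul (hf : IsLead f d c) (hg : IsLead g e c') : IsLead (f * g) (d + e) (c * c') :=
  ⟨natDegree_mul_le_of_le hf.1 hg.1, by
    rw [coeff_mul_add_eq_of_natDegree_le hf.1 hg.1, hf.2, hg.2]⟩

theorem add (hf : IsLead f d c) (hg : IsLead g d c') : IsLead (f + g) d (c + c') :=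
  ⟨natDegree_add_le_of_degree_le hf.1 hg.1, by rw [coeff_add, hf.2, hg.2]⟩

theorem sub (hf : IsLead f d c) (hg : IsLead g d c') : IsLead (f - g) d (c - c') :=
  ⟨(natDegree_sub_le_of_le hf.1 hg.1).trans (by simp), by rw [coeff_sub, hf.2, hg.2]⟩

theorem pow (hf : IsLead f d c) (k : ℕ) : IsLead (f ^ k) (k * d) (c ^ k) :=
  ⟨natDegree_pow_le_of_le k hf.1, by rw [coeff_pow_of_natDegree_le hf.1, hf.2]⟩

theorem of_lt (hf : IsLead f d c) (h : d < e) : IsLead f e 0 :=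
  ⟨hf.1.trans h.le, coeff_eq_zero_of_natDegree_lt (hf.1.trans_lt h)⟩

theorem const (a : R) : IsLead (C a) 0 a := ⟨by simp, by simp⟩

theorem C_mul (a : R) (hf : IsLead f d c) : IsLead (C a * f) d (a * c) :=
  ((const a).mul hf).congr (zero_add d) rfl

theorem two_mul (hf : IsLead f d c) : IsLead (2 * f) d (2 * c) := by
  have h := C_mul 2 hf
  rwa [show (C (2 : R)) = 2 from rfl] at h

theorem four_mul (hf : IsLead f d c) : IsLead (4 * f) d (4 * c) := by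
  have h := C_mul 4 hf
  rwa [show (C (4 : R)) = 4 from rfl] at h

theorem X_mul (hf : IsLead f d c) : IsLead (X * f) (d + 1) c :=
  ⟨by
    have := natDegree_mul_le_of_le (natDegree_X_le (R := R)) hf.1
    omega, by rw [coeff_X_mul, hf.2]⟩

end IsLead

/-- Degrees and top coefficients of the ladder polynomials. -/
theorem lad_isLead (b₂ a₄ : R) (n : ℕ) :
    IsLead (ladF b₂ a₄ n) (n ^ 2) 1 ∧ IsLead (ladG b₂ a₄ n) (n ^ 2 - 1) ((n : R) ^ 2) := by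
  induction n using lad_induction with
  | h0 => exact ⟨⟨by simp, by simp⟩, ⟨by simp, by simp⟩⟩
  | h1 => exact ⟨⟨by simpa using natDegree_X_le, by simp⟩, ⟨by simp, by simp⟩⟩
  | hd n hn ih =>
    obtain ⟨hF, hG⟩ := ih
    obtain ⟨d, hd⟩ : ∃ d, n ^ 2 = d + 1 := ⟨n ^ 2 - 1, by have := Nat.pow_pos (n := 2) hn; omega⟩
    have hd' : (2 * n) ^ 2 = 4 * d + 4 := by rw [mul_pow, hd]; ring
    rw [hd] at hF hG
    rw [Nat.add_sub_cancel] at hG
    rw [hd', ladF_two_mul, ladG_two_mul]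
    constructor
    · refine ((((hF.pow 2).sub (((hG.pow 2).C_mul a₄).of_lt (by omega))).pow 2)).congr
        (by ring) (by ring)
    · have h1 := (hF.pow 2).four_mul
      have h2 : IsLead (C b₂ * ladF b₂ a₄ n * ladG b₂ a₄ n) (2 * (d + 1)) 0 := by
        rw [mul_assoc]
        exact ((hF.mul hG).C_mul b₂).of_lt (by omega)
      have h3 : IsLead (4 * C a₄ * ladG b₂ a₄ n ^ 2) (2 * (d + 1)) 0 := by
        rw [mul_assoc]
        exact (((hG.pow 2).C_mul a₄).four_mul).of_lt (by omega)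
      refine ((hF.mul hG).mul ((h1.add h2).add h3)).congr (by omega) (by push_cast; ring)
  | ha n hn ih ih' =>
    obtain ⟨hF, hG⟩ := ih
    obtain ⟨hF', hG'⟩ := ih'
    obtain ⟨d, hd⟩ : ∃ d, n ^ 2 = d + 1 := ⟨n ^ 2 - 1, by have := Nat.pow_pos (n := 2) hn; omega⟩
    have he : (n + 1) ^ 2 = (d + 2 * n + 1) + 1 := by
      have : (n + 1) ^ 2 = n ^ 2 + 2 * n + 1 := by ring
      omega
    have hd' : (2 * n + 1) ^ 2 = 4 * d + 4 * n + 5 := by
      have : (2 * n + 1) ^ 2 = 4 * n ^ 2 + 4 * n + 1 := by ring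
      omega
    rw [hd] at hF hG
    rw [he] at hF' hG'
    rw [Nat.add_sub_cancel] at hG hG'
    have hH : IsLead (ladH b₂ a₄ n) (2 * d + 2 * n + 2) (2 * (n : R) + 1) := by
      refine ((hF.mul hG').sub ((hF'.mul hG).congr (by omega) rfl)).congr (by omega)
        (by push_cast; ring)
    rw [hd', ladF_two_mul_add_one, ladG_odd]
    constructor
    · have ht := (hF.mul hG').add ((hF'.mul hG).congr (e := d + 1 + (d + 2 * n + 1)) (by omega) rfl)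
      have hs := hF.mul hF'
      have hu := hG.mul hG'
      have h1 : IsLead (2 * (ladF b₂ a₄ n * ladG b₂ a₄ (n + 1) + ladF b₂ a₄ (n + 1) * ladG b₂ a₄ n)
          * (ladF b₂ a₄ n * ladF b₂ a₄ (n + 1))) (4 * d + 4 * n + 5)
          (2 * (((n : R) + 1) ^ 2 + (n : R) ^ 2)) :=
        (ht.two_mul.mul hs).congr (by omega) (by push_cast; ring)
      have h2 : IsLead (C b₂ * (ladF b₂ a₄ n * ladF b₂ a₄ (n + 1))
          * (ladG b₂ a₄ n * ladG b₂ a₄ (n + 1))) (4 * d + 4 * n + 5) 0 :=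
        ((hs.C_mul b₂).mul hu).of_lt (by omega)
      have h3 : IsLead (2 * C a₄ * (ladF b₂ a₄ n * ladG b₂ a₄ (n + 1)
          + ladF b₂ a₄ (n + 1) * ladG b₂ a₄ n) * (ladG b₂ a₄ n * ladG b₂ a₄ (n + 1)))
          (4 * d + 4 * n + 5) 0 := by
        rw [mul_assoc 2]
        exact (((ht.C_mul a₄).two_mul).mul hu).of_lt (by omega)
      have h4 : IsLead (X * ladH b₂ a₄ n ^ 2) (4 * d + 4 * n + 5) ((2 * (n : R) + 1) ^ 2) :=
        ((hH.pow 2).X_mul).congr (by omega) rfl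
      exact (((h1.add h2).add h3).sub h4).congr rfl (by ring)
    · exact (hH.pow 2).congr (by omega) (by push_cast; ring)

theorem ladF_natDegree_le (b₂ a₄ : R) (n : ℕ) : (ladF b₂ a₄ n).natDegree ≤ n ^ 2 :=
  (lad_isLead b₂ a₄ n).1.1

theorem ladF_coeff (b₂ a₄ : R) (n : ℕ) : (ladF b₂ a₄ n).coeff (n ^ 2) = 1 :=
  (lad_isLead b₂ a₄ n).1.2

theorem ladG_natDegree_le (b₂ a₄ : R) (n : ℕ) : (ladG b₂ a₄ n).natDegree ≤ n ^ 2 - 1 :=
  (lad_isLead b₂ a₄ n).2.1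

/-- (The hypothesis `0 < n` is not needed.) -/
theorem ladG_coeff (b₂ a₄ : R) (n : ℕ) (_hn : 0 < n) :
    (ladG b₂ a₄ n).coeff (n ^ 2 - 1) = (n : R) ^ 2 :=
  (lad_isLead b₂ a₄ n).2.2

theorem ladH_isLead (b₂ a₄ : R) (k : ℕ) :
    IsLead (ladH b₂ a₄ k) (2 * k ^ 2 + 2 * k) ((2 * k + 1 : ℕ) : R) := by
  rcases Nat.eq_zero_or_pos k with rfl | hk
  · exact ⟨by simp [ladH], by simp [ladH]⟩
  obtain ⟨hF, hG⟩ := lad_isLead b₂ a₄ k
  obtain ⟨hF', hG'⟩ := lad_isLead b₂ a₄ (k + 1)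
  obtain ⟨d, hd⟩ : ∃ d, k ^ 2 = d + 1 := ⟨k ^ 2 - 1, by have := Nat.pow_pos (n := 2) hk; omega⟩
  have he : (k + 1) ^ 2 = (d + 2 * k + 1) + 1 := by
    have : (k + 1) ^ 2 = k ^ 2 + 2 * k + 1 := by ring
    omega
  rw [hd] at hF hG ⊢
  rw [he] at hF' hG'
  rw [Nat.add_sub_cancel] at hG hG'
  exact ((hF.mul hG').sub ((hF'.mul hG).congr (by omega) rfl)).congr (by omega)
    (by push_cast; ring)

theorem ladH_natDegree_le (b₂ a₄ : R) (k : ℕ) : (ladH b₂ a₄ k).natDegree ≤ 2 * k ^ 2 + 2 * k :=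
  (ladH_isLead b₂ a₄ k).1

theorem ladH_coeff (b₂ a₄ : R) (k : ℕ) :
    (ladH b₂ a₄ k).coeff (2 * k ^ 2 + 2 * k) = ((2 * k + 1 : ℕ) : R) :=
  (ladH_isLead b₂ a₄ k).2

end Degree

section Pointwise

namespace Model

variable {K : Type*} [Field K] {a₁ a₂ a₄ : K} {G : Type*} [AddCommGroup G]
  (M : Model K a₁ a₂ a₄ G)

theorem psi_sq {P : G} (hP : P ≠ 0) :
    (2 * M.Y P + a₁ * M.X P) ^ 2
      = 4 * M.X P ^ 3 + (a₁ ^ 2 + 4 * a₂) * M.X P ^ 2 + 4 * a₄ * M.X P := by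
  linear_combination 4 * M.eqn P hP

theorem neg_eq_self_iff {P : G} (hP : P ≠ 0) : -P = P ↔ 2 * M.Y P + a₁ * M.X P = 0 := by
  constructor
  · intro h
    have h1 := M.Y_neg P hP
    rw [h] at h1
    linear_combination h1
  · intro h
    refine M.ext _ _ (neg_ne_zero.mpr hP) hP (M.X_neg P hP) ?_
    rw [M.Y_neg P hP]
    linear_combination -h

theorem two_nsmul_eq_zero_iff {P : G} (hP : P ≠ 0) :
    2 • P = 0 ↔ 2 * M.Y P + a₁ * M.X P = 0 := by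
  rw [← M.neg_eq_self_iff hP, two_nsmul, add_eq_zero_iff_eq_neg, eq_comm]

theorem eq_or_eq_neg_of_X_eq {P Q : G} (hP : P ≠ 0) (hQ : Q ≠ 0) (h : M.X P = M.X Q) :
    P = Q ∨ P = -Q := by
  have e1 := M.eqn P hP
  have e2 := M.eqn Q hQ
  have h0 : (M.Y P - M.Y Q) * (M.Y P - (-M.Y Q - a₁ * M.X Q)) = 0 := by
    rw [h] at e1
    linear_combination e1 - e2
  rcases mul_eq_zero.mp h0 with h1 | h1
  · exact Or.inl (M.ext _ _ hP hQ h (sub_eq_zero.mp h1))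
  · refine Or.inr (M.ext _ _ hP (neg_ne_zero.mpr hQ) ?_ ?_)
    · rw [M.X_neg Q hQ, h]
    · rw [M.Y_neg Q hQ]
      exact sub_eq_zero.mp h1

/-- Translation by the two-torsion point `(0, 0)`. -/
theorem X_mul_X_add_of_X_eq_zero {T Q : G} (hT : T ≠ 0) (hTX : M.X T = 0) (hTY : M.Y T = 0)
    (hQ : Q ≠ 0) (hQT : Q ≠ T) : Q + T ≠ 0 ∧ M.X Q * M.X (Q + T) = a₄ := by
  have hneg : -T = T := (M.neg_eq_self_iff hT).mpr (by rw [hTX, hTY]; ring)
  have hne : Q + T ≠ 0 := by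
    intro h
    apply hQT
    rw [eq_neg_of_add_eq_zero_left h, hneg]
  refine ⟨hne, ?_⟩
  obtain ⟨l, n, -, h2, -, -, e2, -⟩ := M.line_add hQ hT hne
  rw [hTX, hTY] at h2
  rw [hTX] at e2
  have hn : n = 0 := by linear_combination -h2
  rw [hn] at e2
  linear_combination e2

theorem X_sq_ne_of_two_nsmul_eq_zero (h₄0 : a₄ ≠ 0) {Q : G} (hQ : Q ≠ 0) (h2 : 2 • Q = 0) :
    M.X Q ^ 2 ≠ a₄ := by
  obtain ⟨T, hT, hTX, hTY⟩ := M.exists_point 0 0 (by ring)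
  by_cases hQT : Q = T
  · rw [hQT, hTX]
    intro h
    exact h₄0 (by linear_combination -h)
  · obtain ⟨hne, hmul⟩ := M.X_mul_X_add_of_X_eq_zero hT hTX hTY hQ hQT
    intro h
    have hX0 : M.X Q ≠ 0 := by
      intro h0
      rw [h0] at hmul
      exact h₄0 (by linear_combination -hmul)
    have hXX : M.X (Q + T) = M.X Q := by
      apply mul_left_cancel₀ hX0
      linear_combination hmul - h
    rcases M.eq_or_eq_neg_of_X_eq hne hQ hXX with h3 | h3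
    · exact hT (by simpa using h3)
    · apply hT
      have h4 : T = -(2 • Q) := by
        rw [two_nsmul, neg_add, eq_add_neg_iff_add_eq, add_comm]
        exact h3
      rw [h4, h2, neg_zero]

/-- The duplication formula. -/
theorem X_two_nsmul {Q : G} (hQ : Q ≠ 0) (h2 : 2 • Q ≠ 0) :
    M.X (2 • Q) * (2 * M.Y Q + a₁ * M.X Q) ^ 2 = (M.X Q ^ 2 - a₄) ^ 2 := by
  rw [two_nsmul] at h2 ⊢
  obtain ⟨l, n, h1, -, -, e1, e2, -⟩ := M.line_add hQ hQ h2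
  have e := M.eqn Q hQ
  have hl : l * (2 * M.Y Q + a₁ * M.X Q)
      = 3 * M.X Q ^ 2 + 2 * a₂ * M.X Q + a₄ - a₁ * M.Y Q := by
    linear_combination e2 - 2 * M.X Q * e1 + (2 * l + a₁) * h1
  linear_combination (2 * M.Y Q + a₁ * M.X Q) ^ 2 * e1
    + (l * (2 * M.Y Q + a₁ * M.X Q) + (3 * M.X Q ^ 2 + 2 * a₂ * M.X Q + a₄ - a₁ * M.Y Q)
        + a₁ * (2 * M.Y Q + a₁ * M.X Q)) * hl
    - (a₁ ^ 2 + 4 * a₂ + 8 * M.X Q) * e

/-- The sum formula for `x (A + B)` and `x (A - B)`. -/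
theorem X_add_add_X_sub {A B : G} (hA : A ≠ 0) (hB : B ≠ 0) (hX : M.X A ≠ M.X B) :
    (M.X (A + B) + M.X (A - B)) * (M.X A - M.X B) ^ 2 =
      2 * (M.X A + M.X B) * (M.X A * M.X B) + (a₁ ^ 2 + 4 * a₂) * (M.X A * M.X B)
        + 2 * a₄ * (M.X A + M.X B) := by
  have hadd : A + B ≠ 0 := by
    intro h
    apply hX
    rw [eq_neg_of_add_eq_zero_left h, M.X_neg B hB]
  have hsub : A + -B ≠ 0 := by
    intro h
    apply hX
    rw [eq_neg_of_add_eq_zero_left h, neg_neg]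
  obtain ⟨l, n, h1, h2, -, e1, -, -⟩ := M.line_add hA hB hadd
  obtain ⟨l', n', h1', h2', -, e1', -, -⟩ := M.line_add hA (neg_ne_zero.mpr hB) hsub
  rw [M.X_neg B hB] at h2' e1'
  rw [M.Y_neg B hB] at h2'
  rw [← sub_eq_add_neg] at e1'
  have eA := M.eqn A hA
  have eB := M.eqn B hB
  have hl : l * (M.X A - M.X B) = M.Y A - M.Y B := by linear_combination h2 - h1
  have hl' : l' * (M.X A - M.X B) = M.Y A + M.Y B + a₁ * M.X B := by
    linear_combination h2' - h1'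
  linear_combination (M.X A - M.X B) ^ 2 * (e1 + e1')
    + (l * (M.X A - M.X B) + (M.Y A - M.Y B)) * hl
    + (l' * (M.X A - M.X B) + (M.Y A + M.Y B + a₁ * M.X B)) * hl'
    + a₁ * (M.X A - M.X B) * (hl + hl') + 2 * eA + 2 * eB

/-- `(f : g)` are projective coordinates of `x (Q)`. -/
def Rep (Q : G) (f g : K) : Prop :=
  (Q = 0 ∧ g = 0 ∧ f ≠ 0) ∨ (Q ≠ 0 ∧ g ≠ 0 ∧ f = M.X Q * g)

variable {M}

theorem Rep.eq_zero_iff {Q : G} {f g : K} (h : M.Rep Q f g) : Q = 0 ↔ g = 0 := by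
  rcases h with ⟨h1, h2, -⟩ | ⟨h1, h2, -⟩
  · exact iff_of_true h1 h2
  · exact iff_of_false h1 h2

theorem Rep.dbl (h₄0 : a₄ ≠ 0) {Q : G} {f g : K} (h : M.Rep Q f g) :
    M.Rep (2 • Q) ((f ^ 2 - a₄ * g ^ 2) ^ 2)
      (f * g * (4 * f ^ 2 + (a₁ ^ 2 + 4 * a₂) * f * g + 4 * a₄ * g ^ 2)) := by
  rcases h with ⟨rfl, rfl, hf⟩ | ⟨hQ, hg, rfl⟩
  · refine Or.inl ⟨smul_zero _, by ring, ?_⟩
    have : (f ^ 2 - a₄ * 0 ^ 2) ^ 2 = f ^ 4 := by ring
    rw [this]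
    exact pow_ne_zero 4 hf
  · have hpsi := M.psi_sq hQ
    have e2 : M.X Q * g * g * (4 * (M.X Q * g) ^ 2 + (a₁ ^ 2 + 4 * a₂) * (M.X Q * g) * g
        + 4 * a₄ * g ^ 2) = g ^ 4 * (2 * M.Y Q + a₁ * M.X Q) ^ 2 := by
      rw [hpsi]; ring
    have e1 : ((M.X Q * g) ^ 2 - a₄ * g ^ 2) ^ 2 = g ^ 4 * (M.X Q ^ 2 - a₄) ^ 2 := by ring
    rw [e1, e2]
    by_cases h2 : 2 • Q = 0
    · refine Or.inl ⟨h2, ?_, ?_⟩
      · rw [(M.two_nsmul_eq_zero_iff hQ).mp h2]; ring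
      · exact mul_ne_zero (pow_ne_zero 4 hg)
          (pow_ne_zero 2 (sub_ne_zero.mpr (M.X_sq_ne_of_two_nsmul_eq_zero h₄0 hQ h2)))
    · refine Or.inr ⟨h2, ?_, ?_⟩
      · exact mul_ne_zero (pow_ne_zero 4 hg)
          (pow_ne_zero 2 (fun h => h2 ((M.two_nsmul_eq_zero_iff hQ).mpr h)))
      · linear_combination -g ^ 4 * M.X_two_nsmul hQ h2

theorem Rep.add {P : G} (hP : P ≠ 0) {Q : G} {f g f' g' : K} (h : M.Rep Q f g)
    (h' : M.Rep (Q + P) f' g') :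
    M.Rep (2 • Q + P)
      (2 * (f * g' + f' * g) * (f * f') + (a₁ ^ 2 + 4 * a₂) * (f * f') * (g * g')
        + 2 * a₄ * (f * g' + f' * g) * (g * g')
        - M.X P * ((f * g' + f' * g) ^ 2 - 4 * (f * f') * (g * g')))
      ((f * g' + f' * g) ^ 2 - 4 * (f * f') * (g * g')) := by
  rcases h with ⟨rfl, rfl, hf⟩ | ⟨hQ, hg, rfl⟩
  · rw [zero_add] at h'
    rcases h' with ⟨h1, -, -⟩ | ⟨-, hg', rfl⟩
    · exact absurd h1 hP
    · rw [smul_zero, zero_add]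
      refine Or.inr ⟨hP, ?_, by ring⟩
      have : (f * g' + M.X P * g' * 0) ^ 2 - 4 * (f * (M.X P * g')) * (0 * g') = (f * g') ^ 2 := by
        ring
      rw [this]
      exact pow_ne_zero 2 (mul_ne_zero hf hg')
  · rcases h' with ⟨h1, rfl, hf'⟩ | ⟨hQP, hg', rfl⟩
    · have hQ' : Q = -P := eq_neg_of_add_eq_zero_left h1
      have h2 : 2 • Q + P = Q := by rw [two_nsmul, add_assoc, h1, add_zero]
      have hX : M.X Q = M.X P := by rw [hQ', M.X_neg P hP]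
      rw [h2]
      refine Or.inr ⟨hQ, ?_, by rw [hX]; ring⟩
      have : (M.X Q * g * 0 + f' * g) ^ 2 - 4 * (M.X Q * g * f') * (g * 0) = (f' * g) ^ 2 := by
        ring
      rw [this]
      exact pow_ne_zero 2 (mul_ne_zero hf' hg)
    · have e2 : (M.X Q * g * g' + M.X (Q + P) * g' * g) ^ 2
          - 4 * (M.X Q * g * (M.X (Q + P) * g')) * (g * g')
          = (g * g') ^ 2 * (M.X (Q + P) - M.X Q) ^ 2 := by ring
      rw [e2]
      have hgg : (g * g') ^ 2 ≠ 0 := pow_ne_zero 2 (mul_ne_zero hg hg')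
      by_cases hX : M.X (Q + P) = M.X Q
      · have h3 : Q + P = -Q := by
          rcases M.eq_or_eq_neg_of_X_eq hQP hQ hX with h3 | h3
          · exact absurd (by simpa using h3) hP
          · exact h3
        have h2 : 2 • Q + P = 0 := by
          rw [two_nsmul, add_assoc, h3, add_neg_cancel]
        refine Or.inl ⟨h2, by rw [hX]; ring, ?_⟩
        have hpsi : 2 * M.Y Q + a₁ * M.X Q ≠ 0 := by
          intro h4
          have h5 := (M.neg_eq_self_iff hQ).mpr h4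
          rw [h5] at h3
          exact hP (by simpa using h3)
        have e1 : 2 * (M.X Q * g * g' + M.X (Q + P) * g' * g) * (M.X Q * g * (M.X (Q + P) * g'))
            + (a₁ ^ 2 + 4 * a₂) * (M.X Q * g * (M.X (Q + P) * g')) * (g * g')
            + 2 * a₄ * (M.X Q * g * g' + M.X (Q + P) * g' * g) * (g * g')
            - M.X P * ((g * g') ^ 2 * (M.X (Q + P) - M.X Q) ^ 2)
            = (g * g') ^ 2 * (2 * M.Y Q + a₁ * M.X Q) ^ 2 := by
          rw [M.psi_sq hQ, hX]; ring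
        rw [e1]
        exact mul_ne_zero hgg (pow_ne_zero 2 hpsi)
      · have h2 : 2 • Q + P = (Q + P) + Q := by rw [two_nsmul]; abel
        have h3 : (Q + P) - Q = P := by abel
        have hne : (Q + P) + Q ≠ 0 := by
          intro h4
          apply hX
          rw [eq_neg_of_add_eq_zero_left h4, M.X_neg Q hQ]
        have key := M.X_add_add_X_sub hQP hQ hX
        rw [h3] at key
        rw [h2]
        refine Or.inr ⟨hne, mul_ne_zero hgg (pow_ne_zero 2 (sub_ne_zero.mpr hX)), ?_⟩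
        linear_combination -(g * g') ^ 2 * key

variable (M)

theorem rep_nsmul (h₄0 : a₄ ≠ 0) {P : G} (hP : P ≠ 0) (n : ℕ) :
    M.Rep (n • P) ((ladF (a₁ ^ 2 + 4 * a₂) a₄ n).eval (M.X P))
      ((ladG (a₁ ^ 2 + 4 * a₂) a₄ n).eval (M.X P)) := by
  induction n using lad_induction with
  | h0 => exact Or.inl ⟨zero_smul _ _, by simp, by simp⟩
  | h1 => exact Or.inr ⟨by simpa using hP, by simp, by simp⟩
  | hd n _ ih =>
    have h := ih.dbl h₄0
    rw [← mul_smul] at h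
    rw [ladF_two_mul, ladG_two_mul]
    simpa only [eval_pow, eval_sub, eval_add, eval_mul, eval_C, eval_ofNat] using h
  | ha n _ ih ih' =>
    rw [succ_nsmul] at ih'
    have h := ih.add hP ih'
    rw [← mul_smul, ← succ_nsmul] at h
    have hF : ladF (a₁ ^ 2 + 4 * a₂) a₄ (2 * n + 1) = (ladAdd (a₁ ^ 2 + 4 * a₂) a₄
        (ladFG (a₁ ^ 2 + 4 * a₂) a₄ n) (ladFG (a₁ ^ 2 + 4 * a₂) a₄ (n + 1))).1 := by
      rw [ladF, ladFG_two_mul_add_one]
    have hG : ladG (a₁ ^ 2 + 4 * a₂) a₄ (2 * n + 1) = (ladAdd (a₁ ^ 2 + 4 * a₂) a₄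
        (ladFG (a₁ ^ 2 + 4 * a₂) a₄ n) (ladFG (a₁ ^ 2 + 4 * a₂) a₄ (n + 1))).2 := by
      rw [ladG, ladFG_two_mul_add_one]
    rw [hF, hG]
    simpa only [ladAdd, ladF, ladG, eval_pow, eval_sub, eval_add, eval_mul, eval_C, eval_ofNat,
      eval_X] using h

/-- `n • P = 0` if and only if `x (P)` is a root of `ladG n`. -/
theorem nsmul_eq_zero_iff (h₄0 : a₄ ≠ 0) {P : G} (hP : P ≠ 0) (n : ℕ) :
    n • P = 0 ↔ (ladG (a₁ ^ 2 + 4 * a₂) a₄ n).eval (M.X P) = 0 :=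
  (M.rep_nsmul h₄0 hP n).eq_zero_iff

/-- If `n • P ≠ 0` then `x (n • P) = ladF n (x P) / ladG n (x P)`. -/
theorem X_nsmul_mul (h₄0 : a₄ ≠ 0) {P : G} (hP : P ≠ 0) (n : ℕ) (hn : n • P ≠ 0) :
    M.X (n • P) * (ladG (a₁ ^ 2 + 4 * a₂) a₄ n).eval (M.X P)
      = (ladF (a₁ ^ 2 + 4 * a₂) a₄ n).eval (M.X P) := by
  rcases M.rep_nsmul h₄0 hP n with ⟨h1, -, -⟩ | ⟨-, -, h3⟩
  · exact absurd h1 hn
  · exact h3.symm

/-- `ladF n` and `ladG n` have no common root of the form `x (P)`. -/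
theorem ladF_eval_ne_zero_of_nsmul_eq_zero (h₄0 : a₄ ≠ 0) {P : G} (hP : P ≠ 0) (n : ℕ)
    (hn : n • P = 0) : (ladF (a₁ ^ 2 + 4 * a₂) a₄ n).eval (M.X P) ≠ 0 := by
  rcases M.rep_nsmul h₄0 hP n with ⟨-, -, h3⟩ | ⟨h1, -, -⟩
  · exact h3
  · exact absurd hn h1

end Model

end Pointwise

end Fermat.Agent.S13
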