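import Mathlib
import Fermat.Prelude.Def_FLTPrelim_Ramification
import Fermat.Agent.Lib.Frobenius
import Fermat.Agent.S13.MinkowskiLift

/-!
# S13, block (G): the Minkowski bridge, main statements

A proper normal subgroup `J` of `Gal(ℚ̄/ℚ)` containing the fixing subgroup of a number field
misses, for some prime `ℓ`, the inertia subgroup of every valuation subring over `ℓ`.
-/

set_option autoImplicit false
set_option linter.style.haveILetI false

namespace Fermat.Agent.S13.Minkowski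

open scoped Pointwise NumberField
open Fermat.Agent.Lib.Frobenius

local notation "Qbar" => AlgebraicClosure ℚ
local notation "GQ" => (AlgebraicClosure ℚ ≃ₐ[ℚ] AlgebraicClosure ℚ)

theorem exists_prime_forall_exists_ne_one (M : Type*) [Field M] [NumberField M] [IsGalois ℚ M]
    (H : 1 < Module.finrank ℚ M) :
    ∃ p : ℕ, p.Prime ∧ ∀ (P : Ideal (𝓞 M)) (_ : P.IsPrime), (p : 𝓞 M) ∈ P →
      ∃ τ : Gal(M/ℚ), τ ≠ 1 ∧ ∀ x : 𝓞 M, ∃ y ∈ P, (y : M) = τ (x : M) - (x : M) := by
  classical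
  obtain ⟨p, hp, hram⟩ := NumberField.exists_not_isUnramifiedAt_int_of_isGalois (K := M) (𝒪 := 𝓞 M) H
  refine ⟨p, hp, fun P hP hpP => ?_⟩
  have hPram := hram P hP hpP
  let _ : MulSemiringAction Gal(M/ℚ) (𝓞 M) := IsIntegralClosure.MulSemiringAction ℤ ℚ M (𝓞 M)
  have := IsGaloisGroup.of_isFractionRing Gal(M/ℚ) ℤ (𝓞 M) ℚ M
  rw [← Ideal.ramificationIdx_eq_one_iff,
    ← Ideal.ramificationIdxIn_eq_ramificationIdx (P.under ℤ) _ Gal(M/ℚ),
    ← Ideal.card_inertia_eq_ramificationIdxIn (G := Gal(M/ℚ)) (P.under ℤ) P] at hPram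
  have hnt : Nontrivial (P.inertia Gal(M/ℚ)) := by
    by_contra hcon
    rw [not_nontrivial_iff_subsingleton] at hcon
    exact hPram (Nat.card_eq_one_iff_unique.2 ⟨hcon, ⟨1⟩⟩)
  obtain ⟨τ, hτ⟩ := exists_ne (1 : P.inertia Gal(M/ℚ))
  refine ⟨τ.1, fun h => hτ (Subtype.ext h), fun x => ⟨τ.1 • x - x, τ.2 x, ?_⟩⟩
  have h := algebraMap_galRestrict_apply ℤ τ.1 x
  show ((τ.1 • x : 𝓞 M) : M) - (x : M) = _
  congr 1

theorem exists_prime_forall_not_inertia_le (J : Subgroup GQ) [J.Normal]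
    (L : IntermediateField ℚ Qbar) [FiniteDimensional ℚ L] (hL : L.fixingSubgroup ≤ J)
    (hJ : J ≠ ⊤) :
    ∃ ℓ : ℕ, ℓ.Prime ∧ ∀ A : ValuationSubring Qbar, A.LiesOverPrime ℓ →
      ¬ (A.inertiaSubgroupIn ℚ ≤ J) := by
  classical
  haveI := isGalois_rat
  have hopen : IsOpen (J : Set GQ) :=
    Subgroup.isOpen_mono hL (IntermediateField.fixingSubgroup_isOpen L)
  have hclosed : IsClosed (J : Set GQ) := Subgroup.isClosed_of_isOpen J hopen
  set M := IntermediateField.fixedField J with hM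
  have hJM : M.fixingSubgroup = J := InfiniteGalois.fixingSubgroup_fixedField ⟨J, hclosed⟩
  have hML : M ≤ L := by
    have h1 : IntermediateField.fixedField L.fixingSubgroup = L :=
      InfiniteGalois.fixedField_fixingSubgroup L
    rw [← h1]
    exact IntermediateField.fixedField_antitone hL
  haveI : FiniteDimensional ℚ M := (InfiniteGalois.isOpen_iff_finite M).1 (by rw [hJM]; exact hopen)
  haveI : IsGalois ℚ M := (InfiniteGalois.normal_iff_isGalois M).1 (by rw [hJM]; infer_instance)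
  haveI : NumberField M := ⟨⟩
  have H : 1 < Module.finrank ℚ M := by
    by_contra hcon
    have h1 : Module.finrank ℚ M = 1 := le_antisymm (not_lt.1 hcon) Module.finrank_pos
    have h2 : M = ⊥ := IntermediateField.finrank_eq_one_iff.1 h1
    apply hJ
    rw [← hJM, h2, IntermediateField.fixingSubgroup_bot]
  obtain ⟨p, hp, hall⟩ := exists_prime_forall_exists_ne_one M H
  refine ⟨p, hp, fun A hA hAJ => ?_⟩
  have hint : ∀ x : 𝓞 M, IsIntegral ℤ (((x : M) : Qbar)) := fun x =>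
    (x.2 : IsIntegral ℤ (x : M)).map (IsScalarTower.toAlgHom ℤ M Qbar)
  let f : 𝓞 M →+* A :=
    { toFun := fun x => ⟨((x : M) : Qbar), mem_valuationSubring_of_isIntegral A (hint x)⟩
      map_one' := rfl
      map_mul' := fun _ _ => rfl
      map_zero' := rfl
      map_add' := fun _ _ => rfl }
  let P : Ideal (𝓞 M) := (IsLocalRing.maximalIdeal A).comap f
  have hmemP : ∀ x : 𝓞 M, x ∈ P ↔ (((x : M) : Qbar)) ∈ A.nonunits := by
    intro x
    rw [ValuationSubring.mem_nonunits_iff_exists_mem_maximalIdeal]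
    constructor
    · intro h
      exact ⟨mem_valuationSubring_of_isIntegral A (hint x), h⟩
    · rintro ⟨_, h⟩
      exact h
  obtain ⟨τ, hτ, hτP⟩ := hall P (Ideal.comap_isPrime _ _) (by
    rw [hmemP]
    have h0 : (p : Qbar) ∈ A.nonunits := hA
    simpa using h0)
  obtain ⟨γ, hγ⟩ := AlgEquiv.restrictNormalHom_surjective Qbar τ
  have hγM : ∀ x : M, γ (x : Qbar) = ((τ x : M) : Qbar) := by
    intro x
    rw [← hγ]
    exact (AlgEquiv.restrictNormal_commutes γ M x).symm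
  obtain ⟨j, hj, hjγ⟩ := exists_mul_mem_inertia J hclosed A γ (by
    intro x hx hfix
    have hxM : x ∈ M := fun j => hfix j.1 j.2
    have hxi : IsIntegral ℤ (⟨x, hxM⟩ : M) :=
      (isIntegral_algebraMap_iff (A := M) (B := Qbar) (algebraMap M Qbar).injective).1 hx
    obtain ⟨y, hy, hyx⟩ := hτP ⟨⟨x, hxM⟩, hxi⟩
    rw [hmemP, hyx] at hy
    have h3 := hγM ⟨x, hxM⟩
    rw [h3]
    exact hy)
  have hγJ : γ ∈ J := (Subgroup.mul_mem_cancel_left J hj).1 (hAJ hjγ)
  apply hτ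
  ext x
  have h1 := hγM x
  rw [← hJM] at hγJ
  have h2 : γ (x : Qbar) = x := hγJ x
  rw [h2] at h1
  exact h1.symm

theorem eq_top_of_inertia_le (J : Subgroup GQ) [J.Normal]
    (F : IntermediateField ℚ Qbar) [FiniteDimensional ℚ F] (hF : F.fixingSubgroup ≤ J)
    (h : ∀ q : ℕ, q.Prime → ∃ A : ValuationSubring Qbar, A.LiesOverPrime q ∧
      A.inertiaSubgroupIn ℚ ≤ J) : J = ⊤ := by
  by_contra hJ
  obtain ⟨ℓ, hℓ, hall⟩ := exists_prime_forall_not_inertia_le J F hF hJ
  obtain ⟨A, hA, hAJ⟩ := h ℓ hℓ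
  exact hall A hA hAJ

end Fermat.Agent.S13.Minkowski
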