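import Mathlib

/-!
# S13: abstract interface for the group of points of `Y^2 + a₁ X Y = X^3 + a₂ X^2 + a₄ X`

`Model K a₁ a₂ a₄ G` packages an abelian group `G` whose nonzero elements carry coordinates
`(X, Y)` on the curve `Y^2 + a₁ X Y = X^3 + a₂ X^2 + a₄ X`, together with the chord and tangent
(Vieta) relations for three points summing to zero.  It is the `a₁`-version of
`Fermat.Agent.S05.Model` (we need `a₁ = 1` to work at the prime `2`).
All valuation-theoretic arguments of S13 are carried out on top of this interface.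
-/

set_option autoImplicit false

namespace Fermat.Agent.S13

/-- An abelian group `G` of points on `Y^2 + a₁ X Y = X^3 + a₂ X^2 + a₄ X` (with `0` the point at
infinity), with the Vieta relations for collinear triples. -/
structure Model (K : Type*) [Field K] (a₁ a₂ a₄ : K) (G : Type*) [AddCommGroup G] where
  /-- the `X` coordinate (junk at `0`) -/
  X : G → K
  /-- the `Y` coordinate (junk at `0`) -/
  Y : G → K
  eqn : ∀ P : G, P ≠ 0 → Y P ^ 2 + a₁ * X P * Y P = X P ^ 3 + a₂ * X P ^ 2 + a₄ * X P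
  X_neg : ∀ P : G, P ≠ 0 → X (-P) = X P
  Y_neg : ∀ P : G, P ≠ 0 → Y (-P) = -Y P - a₁ * X P
  ext : ∀ P Q : G, P ≠ 0 → Q ≠ 0 → X P = X Q → Y P = Y Q → P = Q
  exists_point : ∀ x y : K, y ^ 2 + a₁ * x * y = x ^ 3 + a₂ * x ^ 2 + a₄ * x →
    ∃ P : G, P ≠ 0 ∧ X P = x ∧ Y P = y
  line : ∀ P₁ P₂ P₃ : G, P₁ ≠ 0 → P₂ ≠ 0 → P₃ ≠ 0 → P₁ + P₂ + P₃ = 0 →
    ∃ l n : K, Y P₁ = l * X P₁ + n ∧ Y P₂ = l * X P₂ + n ∧ Y P₃ = l * X P₃ + n ∧
      X P₁ + X P₂ + X P₃ = l ^ 2 + a₁ * l - a₂ ∧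
      X P₁ * X P₂ + X P₁ * X P₃ + X P₂ * X P₃ = a₄ - 2 * l * n - a₁ * n ∧
      X P₁ * X P₂ * X P₃ = n ^ 2

namespace Model

variable {K : Type*} [Field K] {a₁ a₂ a₄ : K} {G : Type*} [AddCommGroup G]
  (M : Model K a₁ a₂ a₄ G)

/-- The chord/tangent relations for `P`, `Q`, `P + Q`, all nonzero. -/
theorem line_add {P Q : G} (hP : P ≠ 0) (hQ : Q ≠ 0) (hPQ : P + Q ≠ 0) :
    ∃ l n : K, M.Y P = l * M.X P + n ∧ M.Y Q = l * M.X Q + n ∧
      -M.Y (P + Q) - a₁ * M.X (P + Q) = l * M.X (P + Q) + n ∧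
      M.X P + M.X Q + M.X (P + Q) = l ^ 2 + a₁ * l - a₂ ∧
      M.X P * M.X Q + M.X P * M.X (P + Q) + M.X Q * M.X (P + Q) = a₄ - 2 * l * n - a₁ * n ∧
      M.X P * M.X Q * M.X (P + Q) = n ^ 2 := by
  have h := M.line P Q (-(P + Q)) hP hQ (neg_ne_zero.mpr hPQ) (add_neg_cancel _)
  rwa [M.X_neg _ hPQ, M.Y_neg _ hPQ] at h

/-- The kernel of reduction with respect to a valuation `v`: the origin together with the points
with non-integral `X`-coordinate. -/
def InE1 {Γ₀ : Type*} [LinearOrderedCommGroupWithZero Γ₀] (v : Valuation K Γ₀) (P : G) : Prop :=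
  P = 0 ∨ 1 < v (M.X P)

end Model

end Fermat.Agent.S13
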