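import Fermat.Agent.S13.Model

/-!
# S13-T1: the `a₁`-`Model` interface instantiated from Mathlib's `WeierstrassCurve.Affine.Point`

Given a Weierstrass curve `W` over a field `K` with `Δ ≠ 0` and a `2`-torsion point `(r, s)`
(i.e. `W.Equation r s` and `2 s + a₁ r + a₃ = 0`), the translated coordinates `X = x - r`,
`Y = y - s` put the curve in the form `Y^2 + a₁ X Y = X^3 + a₂' X^2 + a₄' X`.
-/

set_option autoImplicit false

namespace Fermat.Agent.S13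

open WeierstrassCurve WeierstrassCurve.Affine

variable {K : Type*} [Field K]

/-- The `X` coordinate `x - r` (junk value `0` at the origin). -/
def ptX (W : WeierstrassCurve.Affine K) (r : K) : W.Point → K
  | .zero => 0
  | .some x _ _ => x - r

/-- The `Y` coordinate `y - s` (junk value `0` at the origin). -/
def ptY (W : WeierstrassCurve.Affine K) (s : K) : W.Point → K
  | .zero => 0
  | .some _ y _ => y - s

@[simp] theorem ptX_zero (W : WeierstrassCurve.Affine K) (r : K) : ptX W r 0 = 0 := rfl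

@[simp] theorem ptY_zero (W : WeierstrassCurve.Affine K) (s : K) : ptY W s 0 = 0 := rfl

@[simp] theorem ptX_some (W : WeierstrassCurve.Affine K) (r : K) {x y : K}
    (h : W.Nonsingular x y) : ptX W r (.some x y h) = x - r := rfl

@[simp] theorem ptY_some (W : WeierstrassCurve.Affine K) (s : K) {x y : K}
    (h : W.Nonsingular x y) : ptY W s (.some x y h) = y - s := rfl

/-- The chord/tangent relations in the original coordinates. -/
theorem line_aux [DecidableEq K] (W : WeierstrassCurve.Affine K) {x₁ x₂ y₁ y₂ : K}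
    (h₁ : W.Equation x₁ y₁) (h₂ : W.Equation x₂ y₂)
    (hxy : ¬(x₁ = x₂ ∧ y₁ = W.negY x₂ y₂)) :
    ∃ ℓ x₃ y₃ : K, x₃ = W.addX x₁ x₂ (W.slope x₁ x₂ y₁ y₂) ∧
      y₃ = W.negAddY x₁ x₂ y₁ (W.slope x₁ x₂ y₁ y₂) ∧
      y₂ = ℓ * (x₂ - x₁) + y₁ ∧ y₃ = ℓ * (x₃ - x₁) + y₁ ∧
      x₁ + x₂ + x₃ = ℓ ^ 2 + W.a₁ * ℓ - W.a₂ ∧
      x₁ * x₂ + x₁ * x₃ + x₂ * x₃ =
        2 * x₁ * ℓ ^ 2 + (W.a₁ * x₁ - 2 * y₁ - W.a₃) * ℓ + (-W.a₁ * y₁ + W.a₄) ∧
      x₁ * x₂ * x₃ =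
        x₁ ^ 2 * ℓ ^ 2 - (2 * x₁ * y₁ + W.a₃ * x₁) * ℓ + (y₁ ^ 2 + W.a₃ * y₁ - W.a₆) := by
  have key := W.addPolynomial_slope h₁ h₂ hxy
  rw [addPolynomial_eq, neg_inj, Cubic.prod_X_sub_C_eq, Cubic.toPoly_injective,
    Cubic.ext_iff] at key
  obtain ⟨-, kb, kc, kd⟩ := key
  simp only at kb kc kd
  refine ⟨W.slope x₁ x₂ y₁ y₂, _, _, rfl, rfl, ?_, rfl, ?_, ?_, ?_⟩
  · by_cases hx : x₁ = x₂
    · have hy : y₁ ≠ W.negY x₂ y₂ := fun h => hxy ⟨hx, h⟩
      rw [Y_eq_of_Y_ne h₁ h₂ hx hy, hx]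
      ring
    · rw [slope_of_X_ne hx]
      have : x₁ - x₂ ≠ 0 := sub_ne_zero.mpr hx
      field_simp
      ring
  · linear_combination kb
  · linear_combination -kc
  · linear_combination kd

section Fields

variable (W : WeierstrassCurve.Affine K) (r s : K)

theorem model_eqn (hrs : W.Equation r s) (h2 : 2 * s + W.a₁ * r + W.a₃ = 0)
    (P : W.Point) (_hP : P ≠ 0) :
    ptY W s P ^ 2 + W.a₁ * ptX W r P * ptY W s P =
      ptX W r P ^ 3 + (W.a₂ + 3 * r) * ptX W r P ^ 2 +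
        (W.a₄ + 2 * W.a₂ * r + 3 * r ^ 2 - W.a₁ * s) * ptX W r P := by
  rcases P with _ | ⟨x, y, h⟩
  · simp [← Point.zero_def]
  · have q := h.1
    rw [equation_iff] at q hrs
    simp only [ptX_some, ptY_some]
    linear_combination q - hrs - (y - s) * h2

theorem model_X_neg (P : W.Point) : ptX W r (-P) = ptX W r P := by
  rcases P with _ | ⟨x, y, h⟩
  · rfl
  · rfl

theorem model_Y_neg (h2 : 2 * s + W.a₁ * r + W.a₃ = 0) (P : W.Point) (hP : P ≠ 0) :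
    ptY W s (-P) = -ptY W s P - W.a₁ * ptX W r P := by
  rcases P with _ | ⟨x, y, h⟩
  · exact absurd rfl hP
  · rw [Point.neg_some, ptY_some, ptY_some, ptX_some, negY]
    linear_combination -h2

theorem model_ext (P Q : W.Point) (hP : P ≠ 0) (hQ : Q ≠ 0)
    (hX : ptX W r P = ptX W r Q) (hY : ptY W s P = ptY W s Q) : P = Q := by
  rcases P with _ | ⟨x, y, h⟩
  · exact absurd rfl hP
  rcases Q with _ | ⟨x', y', h'⟩
  · exact absurd rfl hQ
  simp only [ptX_some, ptY_some] at hX hY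
  have hx : x = x' := by linear_combination hX
  subst hx
  have hy : y = y' := by linear_combination hY
  subst hy
  rfl

theorem model_exists_point (hΔ : W.Δ ≠ 0) (hrs : W.Equation r s)
    (h2 : 2 * s + W.a₁ * r + W.a₃ = 0) (x y : K)
    (hxy : y ^ 2 + W.a₁ * x * y = x ^ 3 + (W.a₂ + 3 * r) * x ^ 2 +
      (W.a₄ + 2 * W.a₂ * r + 3 * r ^ 2 - W.a₁ * s) * x) :
    ∃ P : W.Point, P ≠ 0 ∧ ptX W r P = x ∧ ptY W s P = y := by
  have heq : W.Equation (x + r) (y + s) := by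
    rw [equation_iff] at hrs ⊢
    linear_combination hxy + hrs + y * h2
  refine ⟨.some (x + r) (y + s) (W.equation_iff_nonsingular_of_Δ_ne_zero hΔ |>.mp heq),
    Point.some_ne_zero _, ?_, ?_⟩
  · rw [ptX_some]; ring
  · rw [ptY_some]; ring

theorem model_line [DecidableEq K] (hrs : W.Equation r s) (h2 : 2 * s + W.a₁ * r + W.a₃ = 0)
    (P₁ P₂ P₃ : W.Point) (hP₁ : P₁ ≠ 0) (hP₂ : P₂ ≠ 0) (hP₃ : P₃ ≠ 0) (hsum : P₁ + P₂ + P₃ = 0) :
    ∃ l n : K, ptY W s P₁ = l * ptX W r P₁ + n ∧ ptY W s P₂ = l * ptX W r P₂ + n ∧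
      ptY W s P₃ = l * ptX W r P₃ + n ∧
      ptX W r P₁ + ptX W r P₂ + ptX W r P₃ = l ^ 2 + W.a₁ * l - (W.a₂ + 3 * r) ∧
      ptX W r P₁ * ptX W r P₂ + ptX W r P₁ * ptX W r P₃ + ptX W r P₂ * ptX W r P₃ =
        (W.a₄ + 2 * W.a₂ * r + 3 * r ^ 2 - W.a₁ * s) - 2 * l * n - W.a₁ * n ∧
      ptX W r P₁ * ptX W r P₂ * ptX W r P₃ = n ^ 2 := by
  have hP₃' : P₃ = -(P₁ + P₂) := by
    rw [eq_neg_iff_add_eq_zero, add_comm]; exact hsum
  rcases P₁ with _ | ⟨x₁, y₁, h₁⟩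
  · exact absurd rfl hP₁
  rcases P₂ with _ | ⟨x₂, y₂, h₂⟩
  · exact absurd rfl hP₂
  have hxy : ¬(x₁ = x₂ ∧ y₁ = W.negY x₂ y₂) := by
    rintro ⟨hx, hy⟩
    apply hP₃
    rw [hP₃', Point.add_of_Y_eq hx hy, neg_zero]
  obtain ⟨ℓ, x₃, y₃, hx₃, hy₃, e₂, e₃, s₁, s₂, s₃⟩ := line_aux W h₁.1 h₂.1 hxy
  have hP₃'' : P₃ = .some _ _ (nonsingular_negAdd h₁ h₂ hxy) := by
    rw [hP₃', Point.add_some hxy, Point.neg_some]
    simp only [addY, negY_negY]
  subst hP₃''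
  simp only [ptX_some, ptY_some]
  rw [← hx₃, ← hy₃]
  rw [equation_iff] at hrs
  refine ⟨ℓ, (y₁ - s) - ℓ * (x₁ - r), ?_, ?_, ?_, ?_, ?_, ?_⟩
  · ring
  · linear_combination e₂
  · linear_combination e₃
  · linear_combination s₁
  · linear_combination s₂ - 2 * r * s₁ - ℓ * h2
  · linear_combination s₃ - r * s₂ + r ^ 2 * s₁ + ((y₁ - s) - ℓ * (x₁ - r)) * h2 + hrs

end Fields

/-- **S13-T1.** The `Model` structure on the group of points of a Weierstrass curve with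
`Δ ≠ 0`, translated by the `2`-torsion point `(r, s)`. -/
noncomputable def modelOfWeierstrass [DecidableEq K] (W : WeierstrassCurve.Affine K) (r s : K)
    (hΔ : W.Δ ≠ 0) (hrs : W.Equation r s) (h2 : 2 * s + W.a₁ * r + W.a₃ = 0) :
    Model K W.a₁ (W.a₂ + 3 * r) (W.a₄ + 2 * W.a₂ * r + 3 * r ^ 2 - W.a₁ * s) W.Point where
  X := ptX W r
  Y := ptY W s
  eqn := model_eqn W r s hrs h2
  X_neg P _ := model_X_neg W r P
  Y_neg := model_Y_neg W r s h2
  ext := model_ext W r s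
  exists_point := model_exists_point W r s hΔ hrs h2
  line := model_line W r s hrs h2

section Simp

variable [DecidableEq K] (W : WeierstrassCurve.Affine K) (r s : K)
    (hΔ : W.Δ ≠ 0) (hrs : W.Equation r s) (h2 : 2 * s + W.a₁ * r + W.a₃ = 0)

theorem modelOfWeierstrass_X : (modelOfWeierstrass W r s hΔ hrs h2).X = ptX W r := rfl

theorem modelOfWeierstrass_Y : (modelOfWeierstrass W r s hΔ hrs h2).Y = ptY W s := rfl

@[simp] theorem modelOfWeierstrass_X_zero : (modelOfWeierstrass W r s hΔ hrs h2).X 0 = 0 := rfl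

@[simp] theorem modelOfWeierstrass_Y_zero : (modelOfWeierstrass W r s hΔ hrs h2).Y 0 = 0 := rfl

@[simp] theorem modelOfWeierstrass_X_some {x y : K} (h : W.Nonsingular x y) :
    (modelOfWeierstrass W r s hΔ hrs h2).X (.some x y h) = x - r := rfl

@[simp] theorem modelOfWeierstrass_Y_some {x y : K} (h : W.Nonsingular x y) :
    (modelOfWeierstrass W r s hΔ hrs h2).Y (.some x y h) = y - s := rfl

end Simp

/-- Transport a model along equalities of the coefficients. -/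
def Model.congr {a₁ a₂ a₄ a₁' a₂' a₄' : K} {G : Type*} [AddCommGroup G]
    (M : Model K a₁ a₂ a₄ G) (h₁ : a₁ = a₁') (h₂ : a₂ = a₂') (h₄ : a₄ = a₄') :
    Model K a₁' a₂' a₄' G where
  X := M.X
  Y := M.Y
  eqn := by subst h₁ h₂ h₄; exact M.eqn
  X_neg := M.X_neg
  Y_neg := by subst h₁; exact M.Y_neg
  ext := M.ext
  exists_point := by subst h₁ h₂ h₄; exact M.exists_point
  line := by subst h₁ h₂ h₄; exact M.line

@[simp] theorem Model.congr_X {a₁ a₂ a₄ a₁' a₂' a₄' : K} {G : Type*} [AddCommGroup G]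
    (M : Model K a₁ a₂ a₄ G) (h₁ : a₁ = a₁') (h₂ : a₂ = a₂') (h₄ : a₄ = a₄') :
    (M.congr h₁ h₂ h₄).X = M.X := rfl

@[simp] theorem Model.congr_Y {a₁ a₂ a₄ a₁' a₂' a₄' : K} {G : Type*} [AddCommGroup G]
    (M : Model K a₁ a₂ a₄ G) (h₁ : a₁ = a₁') (h₂ : a₂ = a₂') (h₄ : a₄ = a₄') :
    (M.congr h₁ h₂ h₄).Y = M.Y := rfl

end Fermat.Agent.S13
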