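import Fermat.Agent.S13.Model

/-!
# S13-T6: inertia at a point reducing to the node ("same branch" computation)
-/

set_option autoImplicit false

namespace Fermat.Agent.S13

namespace Node

variable {K : Type*} [Field K] {Γ₀ : Type*} [LinearOrderedCommGroupWithZero Γ₀]
  (v : Valuation K Γ₀)

theorem mul_lt {a b : K} (ha : v a < 1) (hb : v b ≤ 1) : v (a * b) < 1 := by
  rw [map_mul]
  exact mul_lt_one_of_nonneg_of_lt_one_left zero_le ha hb

theorem mul_lt' {a b : K} (ha : v a ≤ 1) (hb : v b < 1) : v (a * b) < 1 := by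
  rw [mul_comm]; exact mul_lt v hb ha

theorem mul_le {a b : K} (ha : v a ≤ 1) (hb : v b ≤ 1) : v (a * b) ≤ 1 := by
  rw [map_mul]; exact mul_le_one' ha hb

theorem two_le : v (2 : K) ≤ 1 := by
  have : (2 : K) = 1 + 1 := by norm_num
  rw [this]; exact v.map_add_le (by simp) (by simp)

theorem four_le : v (4 : K) ≤ 1 := by
  have : (4 : K) = 2 * 2 := by norm_num
  rw [this]; exact mul_le v (two_le v) (two_le v)

/-- unit plus small is a unit -/
theorem unit_add {a b : K} (ha : v a = 1) (hb : v b < 1) : v (a + b) = 1 := by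
  rw [v.map_add_eq_of_lt_left (by rw [ha]; exact hb), ha]

theorem sq_eq_one {a : K} (h : v (a ^ 2) = 1) : v a = 1 := by
  rw [map_pow] at h
  exact (pow_eq_one_iff_of_nonneg zero_le two_ne_zero).mp h

/-- If `t` is not integral, neither is `q(t) = t^2 + a₁ t - a₂`; more precisely `v q(t) = (v t)^2`. -/
theorem val_q_of_one_lt {a₁ a₂ t : K} (h₁ : v a₁ ≤ 1) (h₂ : v a₂ ≤ 1) (ht : 1 < v t) :
    1 < v (t ^ 2 + a₁ * t - a₂) := by
  have ht2 : v t < v (t ^ 2) := by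
    rw [map_pow, sq]
    exact lt_mul_of_one_lt_left (lt_trans zero_lt_one ht) ht
  have h1 : v (a₁ * t) < v (t ^ 2) := by
    refine lt_of_le_of_lt ?_ ht2
    rw [map_mul]
    exact mul_le_of_le_one_left' h₁
  have h2 : v a₂ < v (t ^ 2) := lt_of_le_of_lt h₂ (lt_trans ht ht2)
  have h3 : v (t ^ 2 + a₁ * t) = v (t ^ 2) := v.map_add_eq_of_lt_left h1
  have h4 : v (t ^ 2 + a₁ * t - a₂) = v (t ^ 2) := by
    rw [sub_eq_add_neg, v.map_add_eq_of_lt_left (by rw [h3, Valuation.map_neg]; exact h2), h3]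
  rw [h4]
  exact lt_trans ht ht2

end Node

open Node

variable {K : Type*} [Field K] {Γ₀ : Type*} [LinearOrderedCommGroupWithZero Γ₀]
  (v : Valuation K Γ₀) {a₁ a₂ a₄ : K} {G : Type*} [AddCommGroup G] (M : Model K a₁ a₂ a₄ G)

theorem Model.val_X_sub_ge_one_of_node (h₁ : v a₁ ≤ 1) (h₂ : v a₂ ≤ 1) (h₄ : v a₄ < 1)
    (hb₂ : v (a₁ ^ 2 + 4 * a₂) = 1)
    (φ : K →+* K) (hφv : ∀ x, v (φ x) = v x) (hφ : ∀ x, v x ≤ 1 → v (φ x - x) < 1)
    (Φ : G →+ G) (hΦ0 : ∀ P, P ≠ 0 → Φ P ≠ 0) (hΦX : ∀ P, P ≠ 0 → M.X (Φ P) = φ (M.X P))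
    (hΦY : ∀ P, P ≠ 0 → M.Y (Φ P) = φ (M.Y P))
    {P : G} (hP : P ≠ 0) (hX1 : v (M.X P) < 1) (hX2 : v a₄ < v (M.X P)) (hD : Φ P - P ≠ 0) :
    1 ≤ v (M.X (Φ P - P)) := by
  -- notation
  set X := M.X P with hXdef
  set Y := M.Y P with hYdef
  have hX0 : X ≠ 0 := by
    intro h
    rw [h, map_zero] at hX2
    exact not_lt_zero hX2
  have hvX0 : v X ≠ 0 := (Valuation.ne_zero_iff v).mpr hX0
  have hφX0 : φ X ≠ 0 := by
    intro h
    have := hφv X
    rw [h, map_zero] at this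
    exact hvX0 this.symm
  obtain ⟨η, hη⟩ : ∃ η, η = Y / X := ⟨_, rfl⟩
  obtain ⟨ε, hε⟩ : ∃ ε, ε = φ X / X := ⟨_, rfl⟩
  have hY : Y = η * X := by rw [hη]; field_simp
  have hX' : φ X = ε * X := by rw [hε]; field_simp
  have hY' : φ Y = φ η * (ε * X) := by rw [hY, map_mul, hX']
  have hvε : v ε = 1 := by
    rw [hε, map_div₀, hφv, div_self hvX0]
  -- q(η) = X + a₄ / X
  have heqn := M.eqn P hP
  have hq : η ^ 2 + a₁ * η - a₂ = X + a₄ / X := by
    have h : (η * X) ^ 2 + a₁ * X * (η * X) = X ^ 3 + a₂ * X ^ 2 + a₄ * X := by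
      rw [← hY]; exact heqn
    have h2 : (η ^ 2 + a₁ * η - a₂ - (X + a₄ / X)) * X ^ 2 = 0 := by
      have h3 : a₄ / X * X ^ 2 = a₄ * X := by field_simp
      linear_combination h - h3
    have := (mul_eq_zero.mp h2).resolve_right (pow_ne_zero 2 hX0)
    linear_combination this
  have hvq : v (η ^ 2 + a₁ * η - a₂) < 1 := by
    rw [hq]
    refine v.map_add_lt hX1 ?_
    rw [map_div₀]
    exact (div_lt_one₀ (zero_lt_iff.mpr hvX0)).mpr hX2
  have hvη : v η ≤ 1 := by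
    by_contra h
    exact absurd hvq (not_lt.mpr (le_of_lt (val_q_of_one_lt v h₁ h₂ (not_le.mp h))))
  have hvδ : v (φ η - η) < 1 := hφ η hvη
  have hvφη : v (φ η) ≤ 1 := by rw [hφv]; exact hvη
  have hv2η : v (2 * η + a₁) = 1 := by
    apply sq_eq_one v
    have : (2 * η + a₁) ^ 2 = (a₁ ^ 2 + 4 * a₂) + 4 * (η ^ 2 + a₁ * η - a₂) := by ring
    rw [this]
    exact unit_add v hb₂ (mul_lt' v (four_le v) hvq)
  -- the line through ΦP, -P, -D
  have hnP : -P ≠ 0 := neg_ne_zero.mpr hP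
  have hnD : -(Φ P - P) ≠ 0 := neg_ne_zero.mpr hD
  obtain ⟨l, n, e1, e2, -, e4, -, -⟩ := M.line (Φ P) (-P) (-(Φ P - P)) (hΦ0 P hP) hnP hnD (by abel)
  rw [hΦX P hP, hΦY P hP] at e1
  rw [M.X_neg P hP, M.Y_neg P hP] at e2
  rw [hΦX P hP, M.X_neg P hP, M.X_neg _ hD] at e4
  change φ Y = l * φ X + n at e1
  change -Y - a₁ * X = l * X + n at e2
  change φ X + X + M.X (Φ P - P) = l ^ 2 + a₁ * l - a₂ at e4
  have hXD : M.X (Φ P - P) = (l ^ 2 + a₁ * l - a₂) + (-(φ X) - X) := by linear_combination e4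
  have hsmall : v (-(φ X) - X) < 1 := by
    refine v.map_sub_lt ?_ hX1
    rw [Valuation.map_neg, hφv]; exact hX1
  -- key relation: N = l (ε - 1)
  have hN : φ η * ε + η + a₁ = l * (ε - 1) := by
    have h : (φ η * ε + η + a₁ - l * (ε - 1)) * X = 0 := by
      rw [hY', hX'] at e1
      rw [hY] at e2
      linear_combination e1 - e2
    have := (mul_eq_zero.mp h).resolve_right hX0
    linear_combination this
  have hvε1 : v (ε - 1) ≤ 1 := v.map_sub_le (le_of_eq hvε) (by simp)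
  rcases lt_or_eq_of_le hvε1 with hlt | heq
  · -- v (ε - 1) < 1
    have hNunit : v (φ η * ε + η + a₁) = 1 := by
      have : φ η * ε + η + a₁ = (2 * η + a₁) + ((φ η - η) * ε + η * (ε - 1)) := by ring
      rw [this]
      exact unit_add v hv2η (v.map_add_lt (mul_lt v hvδ (le_of_eq hvε)) (mul_lt' v hvη hlt))
    have hl : 1 < v l := by
      rw [hN, map_mul] at hNunit
      by_contra h
      have h' : v l ≤ 1 := not_lt.mp h
      have : v l * v (ε - 1) < 1 := by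
        rw [mul_comm]
        exact mul_lt_one_of_nonneg_of_lt_one_left zero_le hlt h'
      rw [hNunit] at this
      exact lt_irrefl _ this
    have hql := val_q_of_one_lt v h₁ h₂ hl
    rw [hXD, v.map_add_eq_of_lt_left (lt_trans hsmall hql)]
    exact le_of_lt hql
  · -- v (ε - 1) = 1
    have hkey : (l ^ 2 + a₁ * l - a₂) * (ε - 1) ^ 2
        = (a₁ ^ 2 + 4 * a₂) * ε + ((η ^ 2 + a₁ * η - a₂) * (ε + 1) ^ 2
          + (φ η - η) * (ε * (2 * (η * (ε + 1) + a₁) + (φ η - η) * ε + a₁ * (ε - 1)))) := by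
      have : (l ^ 2 + a₁ * l - a₂) * (ε - 1) ^ 2
          = (l * (ε - 1)) ^ 2 + a₁ * (l * (ε - 1)) * (ε - 1) - a₂ * (ε - 1) ^ 2 := by ring
      rw [this, ← hN]
      ring
    have hε1 : v (ε + 1) ≤ 1 := v.map_add_le (le_of_eq hvε) (by simp)
    have hunit : v ((l ^ 2 + a₁ * l - a₂) * (ε - 1) ^ 2) = 1 := by
      rw [hkey]
      refine unit_add v (by rw [map_mul, hb₂, hvε, one_mul]) (v.map_add_lt ?_ ?_)
      · refine mul_lt v hvq ?_
        rw [map_pow]; exact pow_le_one' hε1 2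
      · refine mul_lt v hvδ (mul_le v (le_of_eq hvε) ?_)
        refine v.map_add_le (v.map_add_le (mul_le v (two_le v) ?_) ?_) (mul_le v h₁ hvε1)
        · exact v.map_add_le (mul_le v hvη hε1) h₁
        · exact mul_le v (le_of_lt hvδ) (le_of_eq hvε)
    have hql : v (l ^ 2 + a₁ * l - a₂) = 1 := by
      rw [map_mul, map_pow, heq, one_pow, mul_one] at hunit
      exact hunit
    rw [hXD, unit_add v hql hsmall]

end Fermat.Agent.S13
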